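/-
GATE-Q (S52, 3-5 switch) / node Q3(c) + (L-J) (helper37): FREENESS of the action on the Klein cone.

`c4`, `T6`, `f12` : Klein's icosahedral forms in `(u, v)` (degrees 20, 30, 12; `c4 u v = kc4 (u^5) (v^5)`
etc. in the notation of the GATE-Q graph), over any commutative ring.

* `syzygy`  : `c4^3 - T6^2 = -1728 f12^5`;
* `jac_c4_T6` : `∂(c4, T6)/∂(u, v) = 86400 f12^4`  (the Jacobian identity);
* `eq_one_of_fix` : over a field of characteristic `0`, a linear substitution `(u, v) ↦ (a u + b v, c u + d v)`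
  preserving `c4` and `T6` and fixing a vector `w0` with `f12 w0 ≠ 0` is the identity.
  Proof: differentiating the invariance along lines through `w0`, both gradients `∇c4(w0)`, `∇T6(w0)`
  are killed by `h - 1` on the right; they are linearly independent by the Jacobian identity.
* `matrix_eq_one_of_fix` : the same for `h : Matrix (Fin 2) (Fin 2) K` acting by `mulVec`.
* `f12_ne_zero_of_ne` : `c4 w0 ^ 3 ≠ T6 w0 ^ 2 → f12 w0 ≠ 0`.

Mathlib only.
-/
import Mathlib

set_option autoImplicit false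

namespace Fermat.Agent.G35.Free

open Polynomial

section Forms

variable {R : Type*} [CommRing R]

/-- Klein's form of degree 20 (`= -Hessian`), `c4 u v = kc4 (u^5) (v^5)` -/
def c4 (u v : R) : R := u ^ 20 + v ^ 20 - 228 * (u ^ 15 * v ^ 5 - u ^ 5 * v ^ 15) + 494 * u ^ 10 * v ^ 10

/-- `∂c4/∂u` -/
def c4u (u v : R) : R :=
  20 * u ^ 19 - 3420 * u ^ 14 * v ^ 5 + 4940 * u ^ 9 * v ^ 10 + 1140 * u ^ 4 * v ^ 15

/-- `∂c4/∂v` -/
def c4v (u v : R) : R :=
  -1140 * u ^ 15 * v ^ 4 + 4940 * u ^ 10 * v ^ 9 + 3420 * u ^ 5 * v ^ 14 + 20 * v ^ 19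

/-- Klein's form of degree 30, `T6 u v = kT (u^5) (v^5)` -/
def T6 (u v : R) : R :=
  u ^ 30 + v ^ 30 + 522 * (u ^ 25 * v ^ 5 - u ^ 5 * v ^ 25) - 10005 * (u ^ 20 * v ^ 10 + u ^ 10 * v ^ 20)

/-- `∂T6/∂u` -/
def T6u (u v : R) : R :=
  30 * u ^ 29 + 13050 * u ^ 24 * v ^ 5 - 200100 * u ^ 19 * v ^ 10 - 100050 * u ^ 9 * v ^ 20
    - 2610 * u ^ 4 * v ^ 25

/-- `∂T6/∂v` -/
def T6v (u v : R) : R :=
  2610 * u ^ 25 * v ^ 4 - 100050 * u ^ 20 * v ^ 9 - 200100 * u ^ 10 * v ^ 19 - 13050 * u ^ 5 * v ^ 24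
    + 30 * v ^ 29

/-- Klein's form of degree 12, `f12 u v ^ 5 = kf5 (u^5) (v^5)` -/
def f12 (u v : R) : R := u * v * (u ^ 10 + 11 * u ^ 5 * v ^ 5 - v ^ 10)

theorem c4_eq (u v : R) :
    c4 u v = (u ^ 5) ^ 4 + (v ^ 5) ^ 4 - 228 * ((u ^ 5) ^ 3 * (v ^ 5) - (u ^ 5) * (v ^ 5) ^ 3)
      + 494 * (u ^ 5) ^ 2 * (v ^ 5) ^ 2 := by
  unfold c4; ring

theorem T6_eq (u v : R) :
    T6 u v = (u ^ 5) ^ 6 + (v ^ 5) ^ 6 + 522 * ((u ^ 5) ^ 5 * (v ^ 5) - (u ^ 5) * (v ^ 5) ^ 5)
      - 10005 * ((u ^ 5) ^ 4 * (v ^ 5) ^ 2 + (u ^ 5) ^ 2 * (v ^ 5) ^ 4) := by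
  unfold T6; ring

theorem f12_pow_five (u v : R) :
    f12 u v ^ 5 = (u ^ 5) * (v ^ 5) * ((u ^ 5) ^ 2 + 11 * (u ^ 5) * (v ^ 5) - (v ^ 5) ^ 2) ^ 5 := by
  unfold f12; ring

/-- the icosahedral syzygy -/
theorem syzygy (u v : R) : c4 u v ^ 3 - T6 u v ^ 2 = -1728 * f12 u v ^ 5 := by
  unfold c4 T6 f12; ring

/-- **the Jacobian identity** `∂(c4, T6)/∂(u, v) = 86400 f12^4` -/
theorem jac_c4_T6 (u v : R) :
    c4u u v * T6v u v - c4v u v * T6u u v = 86400 * f12 u v ^ 4 := by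
  unfold c4u c4v T6u T6v f12; ring

/-- Euler's identity for `c4` -/
theorem euler_c4 (u v : R) : u * c4u u v + v * c4v u v = 20 * c4 u v := by
  unfold c4 c4u c4v; ring

/-- Euler's identity for `T6` -/
theorem euler_T6 (u v : R) : u * T6u u v + v * T6v u v = 30 * T6 u v := by
  unfold T6 T6u T6v; ring

theorem f12_ne_zero_of_ne [IsDomain R] {u v : R} (h : c4 u v ^ 3 ≠ T6 u v ^ 2) : f12 u v ≠ 0 := by
  intro h0
  apply h
  have := syzygy u v
  rw [h0] at this
  have h1 : c4 u v ^ 3 - T6 u v ^ 2 = 0 := by rw [this]; ring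
  exact sub_eq_zero.1 h1

end Forms

section Deriv

variable {K : Type*} [Field K]

/-- derivative of `c4` along a line, at `0` -/
theorem eval_derivative_c4 (p q r s : K) :
    eval 0 (derivative (c4 (C p + C q * X) (C r + C s * X))) = c4u p r * q + c4v p r * s := by
  unfold c4 c4u c4v
  simp only [derivative_add, derivative_sub, derivative_mul, derivative_pow, derivative_C,
    derivative_X, derivative_ofNat, eval_add, eval_sub, eval_mul, eval_pow, eval_C, eval_X,
    eval_ofNat, zero_mul, mul_zero, add_zero, zero_add, mul_one]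
  push_cast
  ring

/-- derivative of `T6` along a line, at `0` -/
theorem eval_derivative_T6 (p q r s : K) :
    eval 0 (derivative (T6 (C p + C q * X) (C r + C s * X))) = T6u p r * q + T6v p r * s := by
  unfold T6 T6u T6v
  simp only [derivative_add, derivative_sub, derivative_mul, derivative_pow, derivative_C,
    derivative_X, derivative_ofNat, eval_add, eval_sub, eval_mul, eval_pow, eval_C, eval_X,
    eval_ofNat, zero_mul, mul_zero, add_zero, zero_add, mul_one]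
  push_cast
  ring

theorem eval_c4 (p q r s x : K) :
    eval x (c4 (C p + C q * X) (C r + C s * X)) = c4 (p + q * x) (r + s * x) := by
  unfold c4
  simp only [eval_add, eval_sub, eval_mul, eval_pow, eval_C, eval_X, eval_ofNat]

theorem eval_T6 (p q r s x : K) :
    eval x (T6 (C p + C q * X) (C r + C s * X)) = T6 (p + q * x) (r + s * x) := by
  unfold T6
  simp only [eval_add, eval_sub, eval_mul, eval_pow, eval_C, eval_X, eval_ofNat]

end Deriv

section Main

variable {K : Type*} [Field K] [CharZero K]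

/-- differentiating the invariance of `c4` along the line `w0 + x (q, s)` -/
theorem grad_c4_invariant (a b c d : K)
    (hc : ∀ u v : K, c4 (a * u + b * v) (c * u + d * v) = c4 u v)
    (u0 v0 q s : K) :
    c4u (a * u0 + b * v0) (c * u0 + d * v0) * (a * q + b * s)
        + c4v (a * u0 + b * v0) (c * u0 + d * v0) * (c * q + d * s)
      = c4u u0 v0 * q + c4v u0 v0 * s := by
  have hP : c4 (C (a * u0 + b * v0) + C (a * q + b * s) * X)
        (C (c * u0 + d * v0) + C (c * q + d * s) * X)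
      = c4 (C u0 + C q * X) (C v0 + C s * X) := by
    apply Polynomial.funext
    intro x
    rw [eval_c4, eval_c4, ← hc (u0 + q * x) (v0 + s * x)]
    congr 1 <;> ring
  have h := congrArg (fun P : K[X] => eval 0 (derivative P)) hP
  simp only [eval_derivative_c4] at h
  exact h

/-- differentiating the invariance of `T6` along the line `w0 + x (q, s)` -/
theorem grad_T6_invariant (a b c d : K)
    (hT : ∀ u v : K, T6 (a * u + b * v) (c * u + d * v) = T6 u v)
    (u0 v0 q s : K) :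
    T6u (a * u0 + b * v0) (c * u0 + d * v0) * (a * q + b * s)
        + T6v (a * u0 + b * v0) (c * u0 + d * v0) * (c * q + d * s)
      = T6u u0 v0 * q + T6v u0 v0 * s := by
  have hP : T6 (C (a * u0 + b * v0) + C (a * q + b * s) * X)
        (C (c * u0 + d * v0) + C (c * q + d * s) * X)
      = T6 (C u0 + C q * X) (C v0 + C s * X) := by
    apply Polynomial.funext
    intro x
    rw [eval_T6, eval_T6, ← hT (u0 + q * x) (v0 + s * x)]
    congr 1 <;> ring
  have h := congrArg (fun P : K[X] => eval 0 (derivative P)) hP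
  simp only [eval_derivative_T6] at h
  exact h

/-- **FREENESS** (scalar form): a linear substitution preserving `c4` and `T6` and fixing a vector
`w0 = (u0, v0)` with `f12 w0 ≠ 0` is the identity. -/
theorem eq_one_of_fix (a b c d : K)
    (hc : ∀ u v : K, c4 (a * u + b * v) (c * u + d * v) = c4 u v)
    (hT : ∀ u v : K, T6 (a * u + b * v) (c * u + d * v) = T6 u v)
    (u0 v0 : K) (hu : a * u0 + b * v0 = u0) (hv : c * u0 + d * v0 = v0)
    (hf : f12 u0 v0 ≠ 0) : a = 1 ∧ b = 0 ∧ c = 0 ∧ d = 1 := by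
  -- the two gradients at `w0`
  set g1 := c4u u0 v0 with hg1
  set g2 := c4v u0 v0 with hg2
  set t1 := T6u u0 v0 with ht1
  set t2 := T6v u0 v0 with ht2
  have hJ : g1 * t2 - g2 * t1 ≠ 0 := by
    rw [hg1, hg2, ht1, ht2, jac_c4_T6]
    exact mul_ne_zero (by norm_num) (pow_ne_zero 4 hf)
  -- `g (h - 1) = 0` for both gradients
  have e1 := grad_c4_invariant a b c d hc u0 v0 1 0
  have e2 := grad_c4_invariant a b c d hc u0 v0 0 1
  have e3 := grad_T6_invariant a b c d hT u0 v0 1 0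
  have e4 := grad_T6_invariant a b c d hT u0 v0 0 1
  rw [hu, hv] at e1 e2 e3 e4
  simp only [mul_one, mul_zero, add_zero, zero_add] at e1 e2 e3 e4
  -- e1 : g1 * a + g2 * c = g1 ; e2 : g1 * b + g2 * d = g2 ; e3, e4 the same for t
  have k1 : (g1 * t2 - g2 * t1) * (a - 1) = 0 := by linear_combination t2 * e1 - g2 * e3
  have k2 : (g1 * t2 - g2 * t1) * c = 0 := by linear_combination g1 * e3 - t1 * e1
  have k3 : (g1 * t2 - g2 * t1) * b = 0 := by linear_combination t2 * e2 - g2 * e4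
  have k4 : (g1 * t2 - g2 * t1) * (d - 1) = 0 := by linear_combination g1 * e4 - t1 * e2
  refine ⟨?_, ?_, ?_, ?_⟩
  · exact sub_eq_zero.1 ((mul_eq_zero.1 k1).resolve_left hJ)
  · exact (mul_eq_zero.1 k3).resolve_left hJ
  · exact (mul_eq_zero.1 k2).resolve_left hJ
  · exact sub_eq_zero.1 ((mul_eq_zero.1 k4).resolve_left hJ)

/-- **FREENESS** (matrix form): `h : Matrix (Fin 2) (Fin 2) K` preserving `c4`, `T6` (as functions on
`K²`, `h` acting by `mulVec`) and fixing `w0` with `f12 w0 ≠ 0` is `1`. -/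
theorem matrix_eq_one_of_fix (h : Matrix (Fin 2) (Fin 2) K)
    (hc : ∀ w : Fin 2 → K, c4 (h.mulVec w 0) (h.mulVec w 1) = c4 (w 0) (w 1))
    (hT : ∀ w : Fin 2 → K, T6 (h.mulVec w 0) (h.mulVec w 1) = T6 (w 0) (w 1))
    (w0 : Fin 2 → K) (hfix : h.mulVec w0 = w0) (hf : f12 (w0 0) (w0 1) ≠ 0) : h = 1 := by
  have hmv : ∀ (w : Fin 2 → K), h.mulVec w 0 = h 0 0 * w 0 + h 0 1 * w 1
      ∧ h.mulVec w 1 = h 1 0 * w 0 + h 1 1 * w 1 := by
    intro w
    simp [Matrix.mulVec, dotProduct, Fin.sum_univ_two]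
  have hc' : ∀ u v : K, c4 (h 0 0 * u + h 0 1 * v) (h 1 0 * u + h 1 1 * v) = c4 u v := by
    intro u v
    have := hc ![u, v]
    rw [(hmv _).1, (hmv _).2] at this
    simpa using this
  have hT' : ∀ u v : K, T6 (h 0 0 * u + h 0 1 * v) (h 1 0 * u + h 1 1 * v) = T6 u v := by
    intro u v
    have := hT ![u, v]
    rw [(hmv _).1, (hmv _).2] at this
    simpa using this
  have hu : h 0 0 * w0 0 + h 0 1 * w0 1 = w0 0 := by
    rw [← (hmv w0).1, hfix]
  have hv : h 1 0 * w0 0 + h 1 1 * w0 1 = w0 1 := by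
    rw [← (hmv w0).2, hfix]
  obtain ⟨ha, hb, hc0, hd⟩ := eq_one_of_fix _ _ _ _ hc' hT' (w0 0) (w0 1) hu hv hf
  ext i j
  fin_cases i <;> fin_cases j <;> simp [ha, hb, hc0, hd]

/-- in the fibre language of the GATE-Q graph: `c = c4 w0`, `t = T6 w0`, `c^3 ≠ t^2`. -/
theorem matrix_eq_one_of_fix' (h : Matrix (Fin 2) (Fin 2) K)
    (hc : ∀ w : Fin 2 → K, c4 (h.mulVec w 0) (h.mulVec w 1) = c4 (w 0) (w 1))
    (hT : ∀ w : Fin 2 → K, T6 (h.mulVec w 0) (h.mulVec w 1) = T6 (w 0) (w 1))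
    (w0 : Fin 2 → K) (hfix : h.mulVec w0 = w0)
    (hne : c4 (w0 0) (w0 1) ^ 3 ≠ T6 (w0 0) (w0 1) ^ 2) : h = 1 :=
  matrix_eq_one_of_fix h hc hT w0 hfix (f12_ne_zero_of_ne hne)

end Main

end Fermat.Agent.G35.Free
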