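/-
GATE-Q / S52 leaf (L-H90) (helper56): **`GL_n` Hilbert 90 / Speiser**, in the shape of node Q4
(descent) of helper23's graph.  Mathlib only.

`L/K` any field extension, `G := L ≃ₐ[K] L`, `A : G → Matrix m m L` a cocycle in the convention
`A (σ * τ) = σ(A τ) * A σ` (the one of Q4: `σ w₀ = A σ • w₀` for column vectors) which is trivial
on the automorphisms fixing a finite-dimensional intermediate field `E` ("finite level"; for
`L/K` finite take `E = ⊤`, the hypothesis is then `A 1 = 1`).  Then: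

* `exists_matrix_of_cocycle` : there is an invertible `P` with `σ(P) = A σ * P` for all `σ`
  (so `A σ = σ(P) * P⁻¹`), i.e. the columns of `P` are an `L`-basis of `L^m` consisting of
  twisted invariants `σ w = A σ *ᵥ w`;
* `exists_matrix_of_cocycle_of_vec` : moreover the column `i₀` of `P` can be any prescribed
  non-zero twisted invariant `w₀`;
* `exists_descent_map` : the `K`-linear `ι : K^m → L^m`, `ι v = P *ᵥ v`, with `ι e_{i₀} = w₀`,
  `σ (ι v) = A σ *ᵥ ι v`, injective, `L`-basis, and (if `L^G = K`) onto the twisted invariants;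
* `exists_gl_of_cocycle`, `exists_gl_of_cocycle'` : the `GL`-valued forms for `L/K` finite, in both
  cocycle conventions (`A σ = σ(P) * P⁻¹`, resp. `A σ = γ⁻¹ * σ(γ)`);
* `exists_matrix_of_cocycle_finset`, `descent_algClosure` : finite-level hypothesis given by a
  finite set `s` (`A ρ = 1` as soon as `ρ` fixes `s` pointwise), and the wrapper for
  `Qb := AlgebraicClosure ℚ`, `m = Fin 2`.
-/
import Mathlib

set_option autoImplicit false
set_option linter.unusedSectionVars false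

namespace Fermat.Agent.G35.H90

open Matrix

section Core

variable {K L : Type*} [Field K] [Field L] [Algebra K L]
variable {m : Type*} [Fintype m] [DecidableEq m]

/-! ### entrywise action: bookkeeping -/

theorem gal_mulVec (σ : L ≃ₐ[K] L) (M : Matrix m m L) (x : m → L) :
    (fun i => σ ((M *ᵥ x) i)) = M.map σ *ᵥ (fun i => σ (x i)) := by
  funext i
  simp only [Matrix.mulVec, dotProduct, map_sum, map_mul, Matrix.map_apply]

theorem gal_mul (σ : L ≃ₐ[K] L) (M N : Matrix m m L) :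
    (M * N).map σ = M.map σ * N.map σ := by
  ext i j
  simp only [Matrix.mul_apply, Matrix.map_apply, map_sum, map_mul]

theorem gal_gal (σ τ : L ≃ₐ[K] L) (M : Matrix m m L) :
    (M.map τ).map σ = M.map (σ * τ : L ≃ₐ[K] L) := by
  ext i j
  simp only [Matrix.map_apply, AlgEquiv.mul_apply]

theorem gal_one (σ : L ≃ₐ[K] L) : (1 : Matrix m m L).map σ = 1 := by
  ext i j
  by_cases h : i = j
  · subst h; simp
  · simp [h]

theorem one_gal (M : Matrix m m L) : M.map (1 : L ≃ₐ[K] L) = M := by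
  ext i j
  simp only [Matrix.map_apply, AlgEquiv.one_apply]

/-! ### consequences of the cocycle relation -/

variable (A : (L ≃ₐ[K] L) → Matrix m m L)

theorem A_congr (hcoc : ∀ σ τ : L ≃ₐ[K] L, A (σ * τ) = (A τ).map σ * A σ)
    (E : IntermediateField K L)
    (hE : ∀ ρ : L ≃ₐ[K] L, (∀ x ∈ E, ρ x = x) → A ρ = 1)
    {σ τ : L ≃ₐ[K] L} (h : ∀ x ∈ E, σ x = τ x) : A σ = A τ := by
  have hρ : A (τ⁻¹ * σ) = 1 := hE _ (fun x hx => by
    rw [AlgEquiv.mul_apply, h x hx]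
    exact τ.symm_apply_apply x)
  have h1 : A (τ * (τ⁻¹ * σ)) = A τ := by
    rw [hcoc, hρ, gal_one, one_mul]
  rwa [mul_inv_cancel_left] at h1

theorem A_inv_mul (hcoc : ∀ σ τ : L ≃ₐ[K] L, A (σ * τ) = (A τ).map σ * A σ)
    (h1 : A 1 = 1) (σ : L ≃ₐ[K] L) : (A σ⁻¹).map σ * A σ = 1 := by
  rw [← hcoc, mul_inv_cancel, h1]

/-- the summands of the Poincaré series: `τ (A τ⁻¹ *ᵥ x) = (A τ)⁻¹ *ᵥ τ x`. -/
def cvec (τ : L ≃ₐ[K] L) (x : m → L) : m → L := fun i => τ ((A τ⁻¹ *ᵥ x) i)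

theorem gal_cvec (hcoc : ∀ σ τ : L ≃ₐ[K] L, A (σ * τ) = (A τ).map σ * A σ)
    (σ τ : L ≃ₐ[K] L) (x : m → L) :
    (fun i => σ (cvec A τ x i)) = A σ *ᵥ cvec A (σ * τ) x := by
  have h1 : A τ⁻¹ = (A σ).map ((σ * τ)⁻¹ : L ≃ₐ[K] L) * A (σ * τ)⁻¹ := by
    rw [← hcoc]
    congr 1
    group
  have h2 : (fun i => σ (cvec A τ x i)) = fun i => (σ * τ) ((A τ⁻¹ *ᵥ x) i) := rfl
  rw [h2, h1, ← Matrix.mulVec_mulVec, gal_mulVec, gal_gal, mul_inv_cancel, one_gal]
  rfl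

theorem cvec_of_fix (E : IntermediateField K L)
    (hE : ∀ ρ : L ≃ₐ[K] L, (∀ x ∈ E, ρ x = x) → A ρ = 1)
    {ρ : L ≃ₐ[K] L} (hρ : ∀ x ∈ E, ρ x = x) {x : m → L} (hx : ∀ i, x i ∈ E) :
    cvec A ρ x = x := by
  have h1 : A ρ⁻¹ = 1 := hE _ (fun y hy => by
    have := hρ y hy
    conv_lhs => rw [← this]
    exact ρ.symm_apply_apply y)
  funext i
  simp only [cvec, h1, Matrix.one_mulVec]
  exact hρ _ (hx i)

theorem cvec_mul_fix (hcoc : ∀ σ τ : L ≃ₐ[K] L, A (σ * τ) = (A τ).map σ * A σ)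
    (E : IntermediateField K L)
    (hE : ∀ ρ : L ≃ₐ[K] L, (∀ x ∈ E, ρ x = x) → A ρ = 1)
    (τ : L ≃ₐ[K] L) {ρ : L ≃ₐ[K] L} (hρ : ∀ x ∈ E, ρ x = x) {x : m → L} (hx : ∀ i, x i ∈ E) :
    cvec A (τ * ρ) x = cvec A τ x := by
  have h1 : A 1 = 1 := hE 1 (fun _ _ => rfl)
  have key : ∀ ρ' : L ≃ₐ[K] L, (∀ x ∈ E, ρ' x = x) →
      cvec A (τ * ρ') x = (A τ⁻¹).map τ *ᵥ (fun i => τ (x i)) := by
    intro ρ' hρ'
    have h2 := gal_cvec A hcoc τ ρ' x
    rw [cvec_of_fix A E hE hρ' hx] at h2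
    have h3 := congrArg (fun v => (A τ⁻¹).map τ *ᵥ v) h2
    simp only [Matrix.mulVec_mulVec, A_inv_mul A hcoc h1, Matrix.one_mulVec] at h3
    exact h3.symm
  rw [key ρ hρ]
  have := key 1 (fun _ _ => rfl)
  rw [mul_one] at this
  exact this.symm

/-! ### the finite quotient `G ⧸ Fix(E)` -/

theorem quot_res_injective (E : IntermediateField K L) :
    Function.Injective (fun q : (L ≃ₐ[K] L) ⧸ E.fixingSubgroup =>
      ((q.out : L ≃ₐ[K] L) : L →ₐ[K] L).comp E.val) := by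
  intro q q' h
  rw [← QuotientGroup.out_eq' q, ← QuotientGroup.out_eq' q', QuotientGroup.eq,
    IntermediateField.mem_fixingSubgroup_iff]
  intro x hx
  have h1 : q.out x = q'.out x := DFunLike.congr_fun h ⟨x, hx⟩
  rw [AlgEquiv.mul_apply, ← h1]
  exact q.out.symm_apply_apply x

theorem finite_quot (E : IntermediateField K L) [FiniteDimensional K E] :
    Finite ((L ≃ₐ[K] L) ⧸ E.fixingSubgroup) :=
  Finite.of_injective _ (quot_res_injective E)

theorem out_smul_fix (E : IntermediateField K L) (σ : L ≃ₐ[K] L)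
    (q : (L ≃ₐ[K] L) ⧸ E.fixingSubgroup) :
    ∃ ρ : L ≃ₐ[K] L, (∀ x ∈ E, ρ x = x) ∧ (σ • q).out = σ * q.out * ρ := by
  refine ⟨(σ * q.out)⁻¹ * (σ • q).out, ?_, by group⟩
  rw [← IntermediateField.mem_fixingSubgroup_iff, ← QuotientGroup.eq, QuotientGroup.out_eq']
  conv_rhs => rw [← QuotientGroup.out_eq' q]
  rfl

/-- the Poincaré series -/
noncomputable def bvec (E : IntermediateField K L) [Fintype ((L ≃ₐ[K] L) ⧸ E.fixingSubgroup)]
    (x : m → L) : m → L :=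
  ∑ q : (L ≃ₐ[K] L) ⧸ E.fixingSubgroup, cvec A q.out x

theorem gal_bvec (hcoc : ∀ σ τ : L ≃ₐ[K] L, A (σ * τ) = (A τ).map σ * A σ)
    (E : IntermediateField K L) [Fintype ((L ≃ₐ[K] L) ⧸ E.fixingSubgroup)]
    (hE : ∀ ρ : L ≃ₐ[K] L, (∀ x ∈ E, ρ x = x) → A ρ = 1)
    (σ : L ≃ₐ[K] L) {x : m → L} (hx : ∀ i, x i ∈ E) :
    (fun i => σ (bvec A E x i)) = A σ *ᵥ bvec A E x := by
  have h1 : (fun i => σ (bvec A E x i)) =
      ∑ q : (L ≃ₐ[K] L) ⧸ E.fixingSubgroup, fun i => σ (cvec A q.out x i) := by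
    funext i
    simp only [bvec, Finset.sum_apply, map_sum]
  have h2 : ∀ q : (L ≃ₐ[K] L) ⧸ E.fixingSubgroup,
      (fun i => σ (cvec A q.out x i)) = A σ *ᵥ cvec A (σ • q).out x := by
    intro q
    obtain ⟨ρ, hρ, hout⟩ := out_smul_fix E σ q
    rw [hout, cvec_mul_fix A hcoc E hE _ hρ hx, gal_cvec A hcoc]
  rw [h1, Finset.sum_congr rfl (fun q _ => h2 q), ← Matrix.mulVec_sum]
  congr 1
  exact Equiv.sum_comp (MulAction.toPerm σ)
    (fun q : (L ≃ₐ[K] L) ⧸ E.fixingSubgroup => cvec A q.out x)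

/-- `cvec` on a scaled coordinate vector -/
theorem cvec_single (τ : L ≃ₐ[K] L) (j : m) (c : L) :
    cvec A τ (Pi.single j c) = τ c • (fun i => τ (A τ⁻¹ i j)) := by
  funext i
  simp only [cvec, Matrix.mulVec_single, Pi.smul_apply, smul_eq_mul, MulOpposite.smul_eq_mul_unop,
    MulOpposite.unop_op, Matrix.col_apply, map_mul]
  ring

/-- **Spanning**: a linear form killing all Poincaré series is zero (Dedekind). -/
theorem eq_zero_of_forall_bvec
    (E : IntermediateField K L) [Fintype ((L ≃ₐ[K] L) ⧸ E.fixingSubgroup)]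
    (hE : ∀ ρ : L ≃ₐ[K] L, (∀ x ∈ E, ρ x = x) → A ρ = 1)
    (f : (m → L) →ₗ[L] L) (hf : ∀ x : m → L, (∀ i, x i ∈ E) → f (bvec A E x) = 0) : f = 0 := by
  classical
  have hli : LinearIndependent L (fun q : (L ≃ₐ[K] L) ⧸ E.fixingSubgroup =>
      (((q.out : L ≃ₐ[K] L) : L →ₐ[K] L).comp E.val).toLinearMap) :=
    (linearIndependent_toLinearMap K E L).comp _ (quot_res_injective E)
  rw [Fintype.linearIndependent_iff] at hli
  refine (Pi.basisFun L m).ext fun j => ?_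
  rw [LinearMap.zero_apply, Pi.basisFun_apply]
  set g : (L ≃ₐ[K] L) ⧸ E.fixingSubgroup → L :=
    fun q => f (fun i => q.out (A q.out⁻¹ i j)) with hg
  have hsum : ∑ q, g q • (((q.out : L ≃ₐ[K] L) : L →ₐ[K] L).comp E.val).toLinearMap = 0 := by
    refine LinearMap.ext fun c => ?_
    have h1 := hf (Pi.single j (c : L)) (fun i => by
      by_cases h : i = j
      · subst h; simp
      · simp [Pi.single_eq_of_ne h])
    simp only [bvec, map_sum, cvec_single, map_smul, smul_eq_mul] at h1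
    simp only [LinearMap.sum_apply, LinearMap.smul_apply, AlgHom.toLinearMap_apply,
      AlgHom.comp_apply, IntermediateField.coe_val, smul_eq_mul, LinearMap.zero_apply]
    rw [← h1]
    exact Finset.sum_congr rfl fun q _ => mul_comm _ _
  have h0 := hli g hsum (QuotientGroup.mk (1 : L ≃ₐ[K] L))
  -- the representative of the trivial coset fixes `E`
  have hout : ∀ x ∈ E, (QuotientGroup.mk (1 : L ≃ₐ[K] L) :
      (L ≃ₐ[K] L) ⧸ E.fixingSubgroup).out⁻¹ x = x := by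
    rw [← IntermediateField.mem_fixingSubgroup_iff]
    have : ((QuotientGroup.mk (1 : L ≃ₐ[K] L) : (L ≃ₐ[K] L) ⧸ E.fixingSubgroup).out⁻¹ * 1) ∈
        E.fixingSubgroup := by
      rw [← QuotientGroup.eq, QuotientGroup.out_eq']
    simpa using this
  have hA := hE _ hout
  have : (fun i => (QuotientGroup.mk (1 : L ≃ₐ[K] L) : (L ≃ₐ[K] L) ⧸ E.fixingSubgroup).out
      (A (QuotientGroup.mk (1 : L ≃ₐ[K] L) : (L ≃ₐ[K] L) ⧸ E.fixingSubgroup).out⁻¹ i j)) =
      Pi.single j 1 := by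
    funext i
    rw [hA]
    by_cases h : i = j
    · subst h; simp
    · simp [h]
  rw [← this]
  exact h0

/-! ### extracting an invertible matrix from a spanning set -/

/-- from a spanning set `T` of `L^m` and a non-zero `w₀ ∈ T`: an invertible matrix with columns in
`T` and column `i₀` equal to `w₀`. -/
theorem exists_matrix_cols_mem (T : Set (m → L)) (hT : Submodule.span L T = ⊤)
    (i₀ : m) (w₀ : m → L) (hw₀ : w₀ ≠ 0) (hw₀T : w₀ ∈ T) :
    ∃ P : Matrix m m L, IsUnit P ∧ (∀ j, (fun i => P i j) ∈ T) ∧ (fun i => P i i₀) = w₀ := by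
  classical
  have hs : LinearIndepOn L id ({w₀} : Set (m → L)) := by
    rw [linearIndepOn_singleton_iff]
    exact hw₀
  obtain ⟨b, hbT, hsb, hTb, hli⟩ :=
    exists_linearIndepOn_id_extension hs (Set.singleton_subset_iff.2 hw₀T)
  have hli' : LinearIndependent L (fun x : b => (x : m → L)) := hli
  have hspan : ⊤ ≤ Submodule.span L (Set.range (fun x : b => (x : m → L))) := by
    rw [Subtype.range_coe_subtype, Set.ofPred_mem_eq, ← hT]
    exact Submodule.span_le.2 hTb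
  let B : Module.Basis b L (m → L) := Module.Basis.mk hli' hspan
  have : Finite b := Module.Finite.finite_basis B
  have : Fintype b := Fintype.ofFinite b
  have hcard : Fintype.card m = Fintype.card b := by
    rw [← Module.finrank_fintype_fun_eq_card L, Module.finrank_eq_card_basis B]
  obtain ⟨e⟩ := Fintype.card_eq.1 hcard
  have hw₀b : w₀ ∈ b := hsb rfl
  let e' : m ≃ b := (Equiv.swap i₀ (e.symm ⟨w₀, hw₀b⟩)).trans e
  have he' : e' i₀ = ⟨w₀, hw₀b⟩ := by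
    simp [e']
  refine ⟨Matrix.of (fun i j => (e' j : m → L) i), ?_, fun j => hbT (e' j).2, ?_⟩
  · rw [← Matrix.linearIndependent_cols_iff_isUnit]
    exact hli'.comp e' e'.injective
  · funext i
    simp [he']

/-! ### main theorems, matrix form -/

/-- **Speiser**: the twisted invariants span `L^m` over `L`. -/
theorem span_twisted_invariants (hcoc : ∀ σ τ : L ≃ₐ[K] L, A (σ * τ) = (A τ).map σ * A σ)
    (E : IntermediateField K L) [FiniteDimensional K E]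
    (hE : ∀ ρ : L ≃ₐ[K] L, (∀ x ∈ E, ρ x = x) → A ρ = 1) :
    Submodule.span L {w : m → L | ∀ σ : L ≃ₐ[K] L, (fun i => σ (w i)) = A σ *ᵥ w} = ⊤ := by
  classical
  have : Finite ((L ≃ₐ[K] L) ⧸ E.fixingSubgroup) := finite_quot E
  have : Fintype ((L ≃ₐ[K] L) ⧸ E.fixingSubgroup) := Fintype.ofFinite _
  by_contra hne
  obtain ⟨f, hf0, hf⟩ := Submodule.exists_le_ker_of_lt_top _ (lt_top_iff_ne_top.2 hne)
  refine hf0 (eq_zero_of_forall_bvec A E hE f fun x hx => ?_)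
  have h1 : bvec A E x ∈
      Submodule.span L {w : m → L | ∀ σ : L ≃ₐ[K] L, (fun i => σ (w i)) = A σ *ᵥ w} :=
    Submodule.subset_span (fun σ => gal_bvec A hcoc E hE σ hx)
  exact hf h1

/-- **`GL_n` Hilbert 90, matrix form, with a prescribed column.** -/
theorem exists_matrix_of_cocycle_of_vec
    (hcoc : ∀ σ τ : L ≃ₐ[K] L, A (σ * τ) = (A τ).map σ * A σ)
    (E : IntermediateField K L) [FiniteDimensional K E]
    (hE : ∀ ρ : L ≃ₐ[K] L, (∀ x ∈ E, ρ x = x) → A ρ = 1)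
    (i₀ : m) (w₀ : m → L) (hw₀ : w₀ ≠ 0)
    (hw₀A : ∀ σ : L ≃ₐ[K] L, (fun i => σ (w₀ i)) = A σ *ᵥ w₀) :
    ∃ P : Matrix m m L, IsUnit P ∧ (∀ σ : L ≃ₐ[K] L, P.map σ = A σ * P) ∧
      (fun i => P i i₀) = w₀ := by
  obtain ⟨P, hP, hcols, hcol₀⟩ := exists_matrix_cols_mem _
    (span_twisted_invariants A hcoc E hE) i₀ w₀ hw₀ hw₀A
  refine ⟨P, hP, fun σ => ?_, hcol₀⟩
  ext i j
  have h1 := congrFun (hcols j σ) i
  simp only [Matrix.mulVec, dotProduct] at h1
  simp only [Matrix.map_apply, Matrix.mul_apply]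
  exact h1

/-- **`GL_n` Hilbert 90, matrix form**: `σ(P) = A σ * P` with `P` invertible. -/
theorem exists_matrix_of_cocycle
    (hcoc : ∀ σ τ : L ≃ₐ[K] L, A (σ * τ) = (A τ).map σ * A σ)
    (E : IntermediateField K L) [FiniteDimensional K E]
    (hE : ∀ ρ : L ≃ₐ[K] L, (∀ x ∈ E, ρ x = x) → A ρ = 1) :
    ∃ P : Matrix m m L, IsUnit P ∧ ∀ σ : L ≃ₐ[K] L, P.map σ = A σ * P := by
  by_cases hex : ∃ w : m → L, (∀ σ : L ≃ₐ[K] L, (fun i => σ (w i)) = A σ *ᵥ w) ∧ w ≠ 0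
  · obtain ⟨w, hwA, hw⟩ := hex
    obtain ⟨i₀, -⟩ := Function.ne_iff.1 hw
    obtain ⟨P, hP, hPA, -⟩ := exists_matrix_of_cocycle_of_vec A hcoc E hE i₀ w hw hwA
    exact ⟨P, hP, hPA⟩
  · push Not at hex
    have hempty : IsEmpty m := by
      by_contra hne
      rw [not_isEmpty_iff] at hne
      obtain ⟨i⟩ := hne
      have h1 : (Pi.single i 1 : m → L) ∈
          Submodule.span L {w : m → L | ∀ σ : L ≃ₐ[K] L, (fun i => σ (w i)) = A σ *ᵥ w} := by
        rw [span_twisted_invariants A hcoc E hE]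
        trivial
      have hbot : Submodule.span L
          {w : m → L | ∀ σ : L ≃ₐ[K] L, (fun i => σ (w i)) = A σ *ᵥ w} ≤ ⊥ :=
        Submodule.span_le.2 (fun w hw => by
          rw [hex w hw]
          exact Submodule.zero_mem _)
      have h2 := congrFun ((Submodule.mem_bot L).1 (hbot h1)) i
      simp at h2
    exact ⟨1, isUnit_one, fun σ => Subsingleton.elim _ _⟩

/-- **Descent map** (the shape of Q4): `ι : K^m → L^m`, `K`-linear, `ι e_{i₀} = w₀`,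
`σ (ι v) = A σ *ᵥ ι v`, the `ι e_j` are an `L`-basis of `L^m`, and (when `L^G = K`) `ι` is onto
the twisted invariants. -/
theorem exists_descent_map
    (hcoc : ∀ σ τ : L ≃ₐ[K] L, A (σ * τ) = (A τ).map σ * A σ)
    (E : IntermediateField K L) [FiniteDimensional K E]
    (hE : ∀ ρ : L ≃ₐ[K] L, (∀ x ∈ E, ρ x = x) → A ρ = 1)
    (i₀ : m) (w₀ : m → L) (hw₀ : w₀ ≠ 0)
    (hw₀A : ∀ σ : L ≃ₐ[K] L, (fun i => σ (w₀ i)) = A σ *ᵥ w₀) :
    ∃ ι : (m → K) →ₗ[K] (m → L),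
      Function.Injective ι ∧ ι (Pi.single i₀ 1) = w₀ ∧
      (∀ (σ : L ≃ₐ[K] L) (v : m → K), (fun i => σ (ι v i)) = A σ *ᵥ ι v) ∧
      LinearIndependent L (fun j : m => ι (Pi.single j 1)) ∧
      ((∀ x : L, (∀ σ : L ≃ₐ[K] L, σ x = x) → x ∈ (algebraMap K L).range) →
        ∀ w : m → L, (∀ σ : L ≃ₐ[K] L, (fun i => σ (w i)) = A σ *ᵥ w) →
          w ∈ LinearMap.range ι) := by
  obtain ⟨P, hP, hPA, hcol₀⟩ := exists_matrix_of_cocycle_of_vec A hcoc E hE i₀ w₀ hw₀ hw₀A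
  let ι : (m → K) →ₗ[K] (m → L) :=
    (P.mulVecLin.restrictScalars K).comp ((Algebra.linearMap K L).compLeft m)
  have hι : ∀ v : m → K, ι v = P *ᵥ (fun j => algebraMap K L (v j)) := fun v => rfl
  have hsingle : ∀ j : m, ι (Pi.single j 1) = fun i => P i j := by
    intro j
    rw [hι]
    have : (fun k => algebraMap K L ((Pi.single j 1 : m → K) k)) = Pi.single j 1 := by
      funext k
      by_cases h : k = j
      · subst h; simp
      · simp [Pi.single_eq_of_ne h]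
    rw [this, Matrix.mulVec_single_one]
    rfl
  refine ⟨ι, ?_, ?_, ?_, ?_, ?_⟩
  · intro v v' h
    rw [hι, hι] at h
    have h1 := Matrix.mulVec_injective_iff_isUnit.2 hP h
    funext j
    exact (algebraMap K L).injective (congrFun h1 j)
  · rw [hsingle, hcol₀]
  · intro σ v
    rw [hι, gal_mulVec, hPA, Matrix.mulVec_mulVec]
    congr 1
    funext j
    exact σ.commutes (v j)
  · rw [show (fun j : m => ι (Pi.single j 1)) = P.col from funext hsingle]
    exact Matrix.linearIndependent_cols_iff_isUnit.2 hP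
  · intro hfix w hw
    obtain ⟨Q, hQP, hPQ⟩ : ∃ Q : Matrix m m L, Q * P = 1 ∧ P * Q = 1 := by
      obtain ⟨u, hu⟩ := hP
      exact ⟨(u⁻¹ : (Matrix m m L)ˣ), by rw [← hu]; exact u.inv_mul, by rw [← hu]; exact u.mul_inv⟩
    -- `σ(Q) * A σ = Q`
    have hQA : ∀ σ : L ≃ₐ[K] L, Q.map σ * A σ = Q := by
      intro σ
      have h1 : Q.map σ * (A σ * P) = 1 := by
        rw [← hPA, ← gal_mul, hQP, gal_one]
      calc Q.map σ * A σ = Q.map σ * A σ * (P * Q) := by rw [hPQ, mul_one]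
        _ = Q.map σ * (A σ * P) * Q := by simp only [mul_assoc]
        _ = Q := by rw [h1, one_mul]
    have hfixv : ∀ (σ : L ≃ₐ[K] L) (j : m), σ ((Q *ᵥ w) j) = (Q *ᵥ w) j := by
      intro σ j
      have h1 := gal_mulVec σ Q w
      rw [hw σ, Matrix.mulVec_mulVec, hQA] at h1
      exact congrFun h1 j
    choose v hv using fun j => hfix _ (fun σ => hfixv σ j)
    refine ⟨v, ?_⟩
    rw [hι, show (fun j => algebraMap K L (v j)) = Q *ᵥ w from funext hv,
      Matrix.mulVec_mulVec, hPQ, Matrix.one_mulVec]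

/-! ### `GL`-valued forms -/

theorem coe_glMap (σ : L ≃ₐ[K] L) (g : GL m L) :
    ((Matrix.GeneralLinearGroup.map (σ : L →+* L) g : GL m L) : Matrix m m L) =
      (g : Matrix m m L).map σ := by
  ext i j
  exact Matrix.GeneralLinearGroup.map_apply (σ : L →+* L) i j g

/-- a `GL`-level cocycle identity gives the matrix-level one (as used by `descent_algClosure`). -/
theorem coe_cocycle_of_gl (A : (L ≃ₐ[K] L) → GL m L)
    (hcoc : ∀ σ τ : L ≃ₐ[K] L,
      A (σ * τ) = Matrix.GeneralLinearGroup.map (σ : L →+* L) (A τ) * A σ)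
    (σ τ : L ≃ₐ[K] L) :
    (A (σ * τ) : Matrix m m L) = (A τ : Matrix m m L).map σ * (A σ : Matrix m m L) := by
  have := congrArg (fun g : GL m L => (g : Matrix m m L)) (hcoc σ τ)
  simpa only [Units.val_mul, coe_glMap] using this

/-- **`GL_n` Hilbert 90 with finite level** (convention `A (σ τ) = σ(A τ) * A σ`):
`A σ = σ(P) * P⁻¹`. -/
theorem exists_gl_of_cocycle_of_level (A : (L ≃ₐ[K] L) → GL m L)
    (hcoc : ∀ σ τ : L ≃ₐ[K] L,
      A (σ * τ) = Matrix.GeneralLinearGroup.map (σ : L →+* L) (A τ) * A σ)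
    (E : IntermediateField K L) [FiniteDimensional K E]
    (hE : ∀ ρ : L ≃ₐ[K] L, (∀ x ∈ E, ρ x = x) → A ρ = 1) :
    ∃ P : GL m L, ∀ σ : L ≃ₐ[K] L,
      A σ = Matrix.GeneralLinearGroup.map (σ : L →+* L) P * P⁻¹ := by
  obtain ⟨P, hP, hPA⟩ := exists_matrix_of_cocycle (fun σ => (A σ : Matrix m m L))
    (fun σ τ => by
      have := congrArg (fun g : GL m L => (g : Matrix m m L)) (hcoc σ τ)
      simpa only [Units.val_mul, coe_glMap] using this) E
    (fun ρ hρ => by rw [hE ρ hρ]; rfl)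
  refine ⟨hP.unit, fun σ => ?_⟩
  rw [eq_mul_inv_iff_mul_eq]
  apply Units.ext
  rw [Units.val_mul, coe_glMap, IsUnit.unit_spec]
  exact (hPA σ).symm

/-- **`GL_n` Hilbert 90, `L/K` finite** (convention `A (σ τ) = σ(A τ) * A σ`):
`A σ = σ(P) * P⁻¹`. -/
theorem exists_gl_of_cocycle [FiniteDimensional K L] (A : (L ≃ₐ[K] L) → GL m L)
    (hcoc : ∀ σ τ : L ≃ₐ[K] L,
      A (σ * τ) = Matrix.GeneralLinearGroup.map (σ : L →+* L) (A τ) * A σ) :
    ∃ P : GL m L, ∀ σ : L ≃ₐ[K] L,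
      A σ = Matrix.GeneralLinearGroup.map (σ : L →+* L) P * P⁻¹ := by
  refine exists_gl_of_cocycle_of_level A hcoc ⊤ (fun ρ hρ => ?_)
  have hρ1 : ρ = 1 := AlgEquiv.ext fun x => hρ x trivial
  have h1 := hcoc 1 1
  have hmap : Matrix.GeneralLinearGroup.map ((1 : L ≃ₐ[K] L) : L →+* L) (A 1) = A 1 := by
    apply Units.ext
    rw [coe_glMap, one_gal]
  rw [mul_one, hmap] at h1
  rw [hρ1]
  exact (mul_eq_left.1 h1.symm)

/-- **`GL_n` Hilbert 90, `L/K` finite, other convention** `A (σ τ) = A σ * σ(A τ)`: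
`A σ = γ⁻¹ * σ(γ)`. -/
theorem exists_gl_of_cocycle' [FiniteDimensional K L] (A : (L ≃ₐ[K] L) → GL m L)
    (hcoc : ∀ σ τ : L ≃ₐ[K] L,
      A (σ * τ) = A σ * Matrix.GeneralLinearGroup.map (σ : L →+* L) (A τ)) :
    ∃ γ : GL m L, ∀ σ : L ≃ₐ[K] L,
      A σ = γ⁻¹ * Matrix.GeneralLinearGroup.map (σ : L →+* L) γ := by
  obtain ⟨P, hP⟩ := exists_gl_of_cocycle (fun σ => (A σ)⁻¹) (fun σ τ => by
    rw [hcoc, _root_.mul_inv_rev, map_inv])
  refine ⟨P⁻¹, fun σ => ?_⟩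
  have h1 := congrArg (fun g : GL m L => g⁻¹) (hP σ)
  simp only [inv_inv, _root_.mul_inv_rev] at h1
  rw [h1, inv_inv, map_inv]

/-! ### finite level given by a finite set -/

theorem exists_level_of_finset [Algebra.IsAlgebraic K L] (s : Finset L) :
    ∃ E : IntermediateField K L, FiniteDimensional K E ∧ ∀ x ∈ s, x ∈ E :=
  ⟨IntermediateField.adjoin K (s : Set L),
    IntermediateField.finiteDimensional_adjoin (fun x _ => Algebra.IsIntegral.isIntegral x),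
    fun _ hx => IntermediateField.subset_adjoin K _ hx⟩

/-- matrix form, level given by a finite set `s`: `A ρ = 1` whenever `ρ` fixes `s` pointwise. -/
theorem exists_matrix_of_cocycle_finset [Algebra.IsAlgebraic K L]
    (hcoc : ∀ σ τ : L ≃ₐ[K] L, A (σ * τ) = (A τ).map σ * A σ)
    (s : Finset L) (hs : ∀ ρ : L ≃ₐ[K] L, (∀ x ∈ s, ρ x = x) → A ρ = 1) :
    ∃ P : Matrix m m L, IsUnit P ∧ ∀ σ : L ≃ₐ[K] L, P.map σ = A σ * P := by
  obtain ⟨E, hfd, hsE⟩ := exists_level_of_finset (K := K) s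
  exact exists_matrix_of_cocycle A hcoc E (fun ρ hρ => hs ρ (fun x hx => hρ x (hsE x hx)))

/-- descent map, level given by a finite set, `L/K` Galois (possibly infinite). -/
theorem exists_descent_map_finset [IsGalois K L]
    (hcoc : ∀ σ τ : L ≃ₐ[K] L, A (σ * τ) = (A τ).map σ * A σ)
    (s : Finset L) (hs : ∀ ρ : L ≃ₐ[K] L, (∀ x ∈ s, ρ x = x) → A ρ = 1)
    (i₀ : m) (w₀ : m → L) (hw₀ : w₀ ≠ 0)
    (hw₀A : ∀ σ : L ≃ₐ[K] L, (fun i => σ (w₀ i)) = A σ *ᵥ w₀) :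
    ∃ ι : (m → K) →ₗ[K] (m → L),
      Function.Injective ι ∧ ι (Pi.single i₀ 1) = w₀ ∧
      (∀ (σ : L ≃ₐ[K] L) (v : m → K), (fun i => σ (ι v i)) = A σ *ᵥ ι v) ∧
      LinearIndependent L (fun j : m => ι (Pi.single j 1)) ∧
      (∀ w : m → L, (∀ σ : L ≃ₐ[K] L, (fun i => σ (w i)) = A σ *ᵥ w) →
          w ∈ LinearMap.range ι) := by
  obtain ⟨E, hfd, hsE⟩ := exists_level_of_finset (K := K) s
  obtain ⟨ι, h1, h2, h3, h4, h5⟩ := exists_descent_map A hcoc E
    (fun ρ hρ => hs ρ (fun x hx => hρ x (hsE x hx))) i₀ w₀ hw₀ hw₀A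
  exact ⟨ι, h1, h2, h3, h4, h5 (fun x hx =>
    (InfiniteGalois.mem_range_algebraMap_iff_fixed x).2 hx)⟩

end Core

/-! ### the wrapper for `ℚ̄/ℚ`, `m = Fin 2` (node Q4) -/

/-- **Q4 shape.**  `A : G_ℚ → GL₂(ℚ̄)` with `A (σ τ) = σ(A τ) * A σ` (on matrices), trivial on the
automorphisms fixing a finite set `s`, and `w₀ ≠ 0` with `σ w₀ = A σ *ᵥ w₀`.  Then there is a
`ℚ`-linear injective `ι : ℚ² → ℚ̄²` with `ι (1,0) = w₀`, `σ (ι v) = A σ *ᵥ ι v`, whose values on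
the standard basis are a `ℚ̄`-basis, and whose range is exactly the set of twisted invariants. -/
theorem descent_algClosure
    (A : (AlgebraicClosure ℚ ≃ₐ[ℚ] AlgebraicClosure ℚ) → GL (Fin 2) (AlgebraicClosure ℚ))
    (hcoc : ∀ σ τ : AlgebraicClosure ℚ ≃ₐ[ℚ] AlgebraicClosure ℚ,
      (A (σ * τ) : Matrix (Fin 2) (Fin 2) (AlgebraicClosure ℚ)) =
        (A τ : Matrix (Fin 2) (Fin 2) (AlgebraicClosure ℚ)).map σ *
          (A σ : Matrix (Fin 2) (Fin 2) (AlgebraicClosure ℚ)))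
    (s : Finset (AlgebraicClosure ℚ))
    (hs : ∀ ρ : AlgebraicClosure ℚ ≃ₐ[ℚ] AlgebraicClosure ℚ, (∀ x ∈ s, ρ x = x) → A ρ = 1)
    (w₀ : Fin 2 → AlgebraicClosure ℚ) (hw₀ : w₀ ≠ 0)
    (hw₀A : ∀ σ : AlgebraicClosure ℚ ≃ₐ[ℚ] AlgebraicClosure ℚ,
      (fun i => σ (w₀ i)) = (A σ : Matrix (Fin 2) (Fin 2) (AlgebraicClosure ℚ)) *ᵥ w₀) :
    ∃ ι : (Fin 2 → ℚ) →ₗ[ℚ] (Fin 2 → AlgebraicClosure ℚ),
      Function.Injective ι ∧ ι ![1, 0] = w₀ ∧
      (∀ (σ : AlgebraicClosure ℚ ≃ₐ[ℚ] AlgebraicClosure ℚ) (v : Fin 2 → ℚ),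
        (fun i => σ (ι v i)) = (A σ : Matrix (Fin 2) (Fin 2) (AlgebraicClosure ℚ)) *ᵥ ι v) ∧
      LinearIndependent (AlgebraicClosure ℚ) ![ι ![1, 0], ι ![0, 1]] ∧
      (∀ w : Fin 2 → AlgebraicClosure ℚ,
        (∀ σ : AlgebraicClosure ℚ ≃ₐ[ℚ] AlgebraicClosure ℚ,
          (fun i => σ (w i)) = (A σ : Matrix (Fin 2) (Fin 2) (AlgebraicClosure ℚ)) *ᵥ w) →
          w ∈ LinearMap.range ι) := by
  have : Algebra.IsAlgebraic ℚ (AlgebraicClosure ℚ) := AlgebraicClosure.isAlgebraic ℚ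
  have : IsAlgClosure ℚ (AlgebraicClosure ℚ) := ⟨inferInstance, inferInstance⟩
  have : IsGalois ℚ (AlgebraicClosure ℚ) := IsAlgClosure.isGalois ℚ _
  obtain ⟨ι, h1, h2, h3, h4, h5⟩ := exists_descent_map_finset
    (fun σ => (A σ : Matrix (Fin 2) (Fin 2) (AlgebraicClosure ℚ))) hcoc s
    (fun ρ hρ => by rw [hs ρ hρ]; rfl) 0 w₀ hw₀ hw₀A
  have e0 : (Pi.single 0 1 : Fin 2 → ℚ) = ![1, 0] := by
    funext i; fin_cases i <;> simp
  have e1 : (Pi.single 1 1 : Fin 2 → ℚ) = ![0, 1] := by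
    funext i; fin_cases i <;> simp
  refine ⟨ι, h1, by rw [← e0]; exact h2, h3, ?_, h5⟩
  have : (fun j : Fin 2 => ι (Pi.single j 1)) = ![ι ![1, 0], ι ![0, 1]] := by
    funext j; fin_cases j
    · simp [e0]
    · simp [e1]
  rw [← this]
  exact h4

end Fermat.Agent.G35.H90
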