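/-
GATE-Q / S52-Q4A-COCYCLE (helper60): the descent cocycle of node Q4, in the exact input shape of
`H90.descent_algClosure`.

`L/K` fields, `G := L ≃ₐ[K] L` acting entrywise on vectors `m → L` and matrices.  Let `Stb` be a
`G`-stable subgroup of `GL m L`, `F` a `G`-stable set of vectors, `w₀ ∈ F`, such that `Stb` is
transitive on `F` from `w₀` and acts freely at `w₀`.  Then `σ ↦ A σ` with `σ w₀ = A σ *ᵥ w₀`
is a cocycle `A (σ τ) = σ(A τ) * A σ`, trivial on the automorphisms fixing `w₀`.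

Klein instance: `Stb = formStab` = all matrices preserving Klein's forms `c4`, `T6`
(`G35/Free.lean`), `F` = the fibre of `(c4, T6)` over a `K`-rational point `(c, t)`; freeness is
`Free.matrix_eq_one_of_fix`.
-/
import Fermat.Agent.G35.H90
import Fermat.Agent.G35.Free

set_option autoImplicit false

namespace Fermat.Agent.G35.Cocycle

open Matrix

section general

variable {K L : Type*} [Field K] [Field L] [Algebra K L]
variable {m : Type*} [Fintype m] [DecidableEq m]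

theorem mulVec_eq_of_mulVec_eq {M N : GL m L} {w : m → L}
    (h : (M : Matrix m m L) *ᵥ w = (N : Matrix m m L) *ᵥ w) :
    ((N⁻¹ * M : GL m L) : Matrix m m L) *ᵥ w = w := by
  rw [Units.val_mul, ← Matrix.mulVec_mulVec, h, Matrix.mulVec_mulVec, ← Units.val_mul,
    inv_mul_cancel, Units.val_one, Matrix.one_mulVec]

/-- **The descent cocycle** from transitivity and freeness. -/
theorem exists_cocycle (Stb : Subgroup (GL m L))
    (hStb : ∀ σ : L ≃ₐ[K] L, ∀ M ∈ Stb, Matrix.GeneralLinearGroup.map (σ : L →+* L) M ∈ Stb)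
    (F : Set (m → L)) (hF : ∀ σ : L ≃ₐ[K] L, ∀ w ∈ F, (fun i => σ (w i)) ∈ F)
    (w₀ : m → L) (hw₀ : w₀ ∈ F)
    (htrans : ∀ w ∈ F, ∃ M ∈ Stb, (M : Matrix m m L) *ᵥ w₀ = w)
    (hfree : ∀ M ∈ Stb, (M : Matrix m m L) *ᵥ w₀ = w₀ → M = 1) :
    ∃ A : (L ≃ₐ[K] L) → GL m L, (∀ σ, A σ ∈ Stb) ∧
      (∀ σ : L ≃ₐ[K] L, (fun i => σ (w₀ i)) = (A σ : Matrix m m L) *ᵥ w₀) ∧
      (∀ σ τ : L ≃ₐ[K] L,
        (A (σ * τ) : Matrix m m L) = (A τ : Matrix m m L).map σ * (A σ : Matrix m m L)) ∧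
      (∀ ρ : L ≃ₐ[K] L, (∀ i, ρ (w₀ i) = w₀ i) → A ρ = 1) := by
  have hex : ∀ σ : L ≃ₐ[K] L, ∃ M ∈ Stb, (M : Matrix m m L) *ᵥ w₀ = fun i => σ (w₀ i) :=
    fun σ => htrans _ (hF σ w₀ hw₀)
  choose A hAStb hAw using hex
  have huniq : ∀ M ∈ Stb, ∀ N ∈ Stb,
      (M : Matrix m m L) *ᵥ w₀ = (N : Matrix m m L) *ᵥ w₀ → M = N := by
    intro M hM N hN h
    have h1 := hfree (N⁻¹ * M) (Stb.mul_mem (Stb.inv_mem hN) hM) (mulVec_eq_of_mulVec_eq h)
    exact (inv_mul_eq_one.mp h1).symm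
  refine ⟨A, hAStb, fun σ => (hAw σ).symm, ?_, ?_⟩
  · intro σ τ
    have key : A (σ * τ) = Matrix.GeneralLinearGroup.map (σ : L →+* L) (A τ) * A σ := by
      apply huniq _ (hAStb _) _ (Stb.mul_mem (hStb σ _ (hAStb τ)) (hAStb σ))
      rw [hAw (σ * τ), Units.val_mul, Fermat.Agent.G35.H90.coe_glMap, ← Matrix.mulVec_mulVec,
        hAw σ, ← Fermat.Agent.G35.H90.gal_mulVec, hAw τ]
      rfl
    have := congrArg (fun g : GL m L => (g : Matrix m m L)) key
    simpa only [Units.val_mul, Fermat.Agent.G35.H90.coe_glMap] using this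
  · intro ρ hρ
    apply hfree _ (hAStb ρ)
    rw [hAw ρ]
    funext i
    exact hρ i

end general

section klein

open Fermat.Agent.G35.Free

variable {L : Type*} [Field L]

/-- Klein's forms commute with ring homomorphisms. -/
theorem map_c4 {R S F : Type*} [CommRing R] [CommRing S] [FunLike F R S] [RingHomClass F R S]
    (φ : F) (u v : R) : φ (c4 u v) = c4 (φ u) (φ v) := by
  simp only [c4, map_add, map_sub, map_mul, map_pow, map_ofNat]

theorem map_T6 {R S F : Type*} [CommRing R] [CommRing S] [FunLike F R S] [RingHomClass F R S]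
    (φ : F) (u v : R) : φ (T6 u v) = T6 (φ u) (φ v) := by
  simp only [T6, map_add, map_sub, map_mul, map_pow, map_ofNat]

/-- The subgroup of `GL₂` of all linear substitutions preserving Klein's forms `c4` and `T6`. -/
def formStab (L : Type*) [Field L] : Subgroup (GL (Fin 2) L) where
  carrier := {M | ∀ w : Fin 2 → L,
    c4 (((M : Matrix (Fin 2) (Fin 2) L) *ᵥ w) 0) (((M : Matrix (Fin 2) (Fin 2) L) *ᵥ w) 1)
        = c4 (w 0) (w 1) ∧
    T6 (((M : Matrix (Fin 2) (Fin 2) L) *ᵥ w) 0) (((M : Matrix (Fin 2) (Fin 2) L) *ᵥ w) 1)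
        = T6 (w 0) (w 1)}
  one_mem' := by
    intro w
    simp
  mul_mem' := by
    intro M N hM hN w
    have e : ((M * N : GL (Fin 2) L) : Matrix (Fin 2) (Fin 2) L) *ᵥ w
        = (M : Matrix (Fin 2) (Fin 2) L) *ᵥ ((N : Matrix (Fin 2) (Fin 2) L) *ᵥ w) := by
      rw [Units.val_mul, Matrix.mulVec_mulVec]
    rw [e]
    exact ⟨(hM _).1.trans (hN w).1, (hM _).2.trans (hN w).2⟩
  inv_mem' := by
    intro M hM w
    have e : (M : Matrix (Fin 2) (Fin 2) L) *ᵥ
        (((M⁻¹ : GL (Fin 2) L) : Matrix (Fin 2) (Fin 2) L) *ᵥ w) = w := by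
      rw [Matrix.mulVec_mulVec, ← Units.val_mul, mul_inv_cancel, Units.val_one,
        Matrix.one_mulVec]
    have h := hM (((M⁻¹ : GL (Fin 2) L) : Matrix (Fin 2) (Fin 2) L) *ᵥ w)
    rw [e] at h
    exact ⟨h.1.symm, h.2.symm⟩

theorem mem_formStab {M : GL (Fin 2) L} :
    M ∈ formStab L ↔ ∀ w : Fin 2 → L,
      c4 (((M : Matrix (Fin 2) (Fin 2) L) *ᵥ w) 0) (((M : Matrix (Fin 2) (Fin 2) L) *ᵥ w) 1)
          = c4 (w 0) (w 1) ∧
      T6 (((M : Matrix (Fin 2) (Fin 2) L) *ᵥ w) 0) (((M : Matrix (Fin 2) (Fin 2) L) *ᵥ w) 1)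
          = T6 (w 0) (w 1) := Iff.rfl

/-- `formStab` is stable under entrywise field automorphisms. -/
theorem map_mem_formStab {K : Type*} [Field K] [Algebra K L] (σ : L ≃ₐ[K] L)
    {M : GL (Fin 2) L} (hM : M ∈ formStab L) :
    Matrix.GeneralLinearGroup.map (σ : L →+* L) M ∈ formStab L := by
  intro w
  rw [Fermat.Agent.G35.H90.coe_glMap]
  -- `w = σ (σ⁻¹ w)`
  set w' : Fin 2 → L := fun i => σ.symm (w i) with hw'
  have hw : w = fun i => σ (w' i) := by
    funext i; simp [hw']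
  have e : (M : Matrix (Fin 2) (Fin 2) L).map σ *ᵥ w
      = fun i => σ (((M : Matrix (Fin 2) (Fin 2) L) *ᵥ w') i) := by
    rw [Fermat.Agent.G35.H90.gal_mulVec, ← hw]
  rw [e]
  have h := hM w'
  constructor
  · have := congrArg σ h.1
    rw [map_c4 σ, map_c4 σ] at this
    simpa [hw'] using this
  · have := congrArg σ h.2
    rw [map_T6 σ, map_T6 σ] at this
    simpa [hw'] using this

/-- Freeness of `formStab` off the cone `f12 = 0` (helper37's `matrix_eq_one_of_fix`). -/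
theorem formStab_free [CharZero L] {M : GL (Fin 2) L} (hM : M ∈ formStab L) {w₀ : Fin 2 → L}
    (hf : f12 (w₀ 0) (w₀ 1) ≠ 0) (hfix : (M : Matrix (Fin 2) (Fin 2) L) *ᵥ w₀ = w₀) : M = 1 := by
  apply Units.ext
  rw [Units.val_one]
  exact matrix_eq_one_of_fix (M : Matrix (Fin 2) (Fin 2) L) (fun w => (hM w).1)
    (fun w => (hM w).2) w₀ hfix hf

/-- The Klein fibre over `(c, t)`, as a set of vectors `Fin 2 → L`. -/
def fibreVec (c t : L) : Set (Fin 2 → L) := {w | c4 (w 0) (w 1) = c ∧ T6 (w 0) (w 1) = t}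

/-- **The Klein descent cocycle** (node Q4): for a `K`-rational point `(c, t)` off the
discriminant, a point `w₀` of the fibre and transitivity of `formStab` on the fibre, the map
`σ ↦ A σ`, `σ w₀ = A σ *ᵥ w₀`, is a `formStab`-valued cocycle, trivial on the automorphisms fixing
`w₀`: exactly the inputs `hcoc`, `hs` (`s = {w₀ 0, w₀ 1}`), `hw₀A` of `H90.descent_algClosure`. -/
theorem exists_klein_cocycle {K : Type*} [Field K] [Algebra K L] [CharZero L] (c₀ t₀ : K)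
    (hct : (algebraMap K L c₀) ^ 3 ≠ (algebraMap K L t₀) ^ 2)
    (w₀ : Fin 2 → L) (hw₀ : w₀ ∈ fibreVec (algebraMap K L c₀) (algebraMap K L t₀))
    (htrans : ∀ w ∈ fibreVec (algebraMap K L c₀) (algebraMap K L t₀),
      ∃ M ∈ formStab L, (M : Matrix (Fin 2) (Fin 2) L) *ᵥ w₀ = w) :
    ∃ A : (L ≃ₐ[K] L) → GL (Fin 2) L, (∀ σ, A σ ∈ formStab L) ∧
      (∀ σ : L ≃ₐ[K] L, (fun i => σ (w₀ i)) = (A σ : Matrix (Fin 2) (Fin 2) L) *ᵥ w₀) ∧
      (∀ σ τ : L ≃ₐ[K] L, (A (σ * τ) : Matrix (Fin 2) (Fin 2) L)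
        = (A τ : Matrix (Fin 2) (Fin 2) L).map σ * (A σ : Matrix (Fin 2) (Fin 2) L)) ∧
      (∀ ρ : L ≃ₐ[K] L, (∀ i, ρ (w₀ i) = w₀ i) → A ρ = 1) := by
  have hf : f12 (w₀ 0) (w₀ 1) ≠ 0 := by
    intro h0
    have hs := syzygy (w₀ 0) (w₀ 1)
    rw [hw₀.1, hw₀.2, h0] at hs
    apply hct
    have : (algebraMap K L c₀) ^ 3 - (algebraMap K L t₀) ^ 2 = 0 := by rw [hs]; ring
    exact sub_eq_zero.mp this
  refine exists_cocycle (K := K) (formStab L) (fun σ M hM => map_mem_formStab σ hM)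
    (fibreVec (algebraMap K L c₀) (algebraMap K L t₀)) ?_ w₀ hw₀ htrans
    (fun M hM hfix => formStab_free hM hf hfix)
  intro σ w hw
  constructor
  · have := congrArg σ hw.1
    rw [map_c4 σ] at this
    simpa using this
  · have := congrArg σ hw.2
    rw [map_T6 σ] at this
    simpa using this

end klein

end Fermat.Agent.G35.Cocycle
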