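/-
GATE-Q / S52 (3–5 switch), node Q0, TORSION-SUBGROUP variant (helper23): same as `G35/Top.lean` (helper35) but the 5-congruence is a map between the 5-torsion SUBGROUPS `TN W 5 →+ TN W' 5` (no extension to all points needed, which would require divisibility of `W'(Qbar)`).

* `FiveCongTN W W'` : an injective Galois-equivariant additive map `W(Qbar)[5] → W'(Qbar)[5]`
  (a "5-congruence");
* `ap_congr_of_fiveCong` : a 5-congruence forces `a_ℓ(W') ≡ a_ℓ(W) mod 5` at every common good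
  prime `ℓ ≠ 5` (helper40's remark, report 194: subtract the two Frobenius relations
  `τ² - a τ + ℓ = 0` on a nonzero 5-torsion point; inputs `GE.ECFinal.frobRel`, existence of
  Frobenius lifts, existence of a point of order 5);
* `s52_of_family` : the frozen S52 statement from the existence of a 5-congruent semistable
  curve with irreducible mod-3 representation.
-/
import Mathlib
import Fermat.Statements.S52
import Fermat.Agent.GE.Top.ECFinal
import Fermat.Agent.GE.Tors.Cor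
import Fermat.Agent.Common_helper32.FrobeniusExists

set_option autoImplicit false

open Fermat.Agent.Common_helper32
open WeierstrassCurve WeierstrassCurve.Affine.Point
open scoped WeierstrassCurve.Affine

namespace Fermat.Agent.G35.TopTN

open Fermat.Agent.GE.ECAssembly

/-- A **5-congruence** between two integral Weierstrass curves: an injective, additive,
Galois-equivariant map between the 5-torsion subgroups of their `Qbar`-points. -/
def FiveCongTN (W W' : WeierstrassCurve ℤ) : Prop :=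
  ∃ φ : TN W 5 →+ TN W' 5, Function.Injective φ ∧ ∀ (σ : GQ) (P : TN W 5), φ (σ • P) = σ • φ P

/-- there is a nonzero 5-torsion point on `W(Qbar)` -/
theorem exists_order_five (W : WeierstrassCurve ℤ) (hΔ : W.Δ ≠ 0) :
    ∃ P : TN W 5, P ≠ 0 := by
  have hΔ' : (EQb W).Δ ≠ 0 := eqb_Δ_ne_zero W hΔ
  obtain ⟨P, hP⟩ := Fermat.Agent.GE.Tors.exists_addOrderOf_eq_prime_pow
    (W := (EQb W)) hΔ' Nat.prime_five 1
  rw [pow_one] at hP
  have h5 : (5 : ℕ) • P = 0 := by rw [← hP]; exact addOrderOf_nsmul_eq_zero P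
  refine ⟨⟨P, ?_⟩, ?_⟩
  · rw [Submodule.mem_torsionBy_iff]
    have : ((5 : ℕ) : ℤ) • P = 0 := by rw [natCast_zsmul]; exact h5
    exact_mod_cast this
  · intro h0
    have : P = 0 := congrArg Subtype.val h0
    rw [this, addOrderOf_zero] at hP
    omega

theorem five_nsmul_coe {W : WeierstrassCurve ℤ} (P : TN W 5) :
    (5 ^ 1) • (P : (EQb W).Point) = 0 := by
  have h := P.2
  rw [Submodule.mem_torsionBy_iff] at h
  have : ((5 : ℕ) : ℤ) • (P : (EQb W).Point) = 0 := by exact_mod_cast h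
  rw [natCast_zsmul] at this
  simpa using this

/-- the Frobenius relation on the 5-torsion, as an identity in the torsion subgroup -/
theorem frob_rel_TN (W : WeierstrassCurve ℤ) {ℓ : ℕ} (hℓ : ℓ.Prime) (h5 : ℓ ≠ 5)
    (hg : W.IsGoodPrimeFor ℓ) (A : ValuationSubring Qb) (hA : A.LiesOverPrime ℓ) (τ : GQ)
    (hτ : A.IsFrobeniusAt τ ℓ) (P : TN W 5) :
    τ • τ • P - W.apOfModel ℓ • τ • P + (ℓ : ℤ) • P = 0 := by
  apply Subtype.ext
  have hR := Fermat.Agent.GE.ECFinal.frobRel W Nat.prime_five 1 ℓ hℓ h5 hg A hA τ hτ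
    (P : (EQb W).Point) (five_nsmul_coe P)
  exact hR

/-- **5-congruent curves have congruent Frobenius traces.** -/
theorem ap_congr_of_fiveCongTN {W W' : WeierstrassCurve ℤ} (hΔ : W.Δ ≠ 0)
    (h : FiveCongTN W W') (ℓ : ℕ) (hℓ : ℓ.Prime) (hg : W.IsGoodPrimeFor ℓ)
    (hg' : W'.IsGoodPrimeFor ℓ) (h5 : ℓ ≠ 5) :
    (5 : ℤ) ∣ W'.apOfModel ℓ - W.apOfModel ℓ := by
  obtain ⟨φ, hinj, hequiv⟩ := h
  obtain ⟨A, τ, hA, hτ⟩ := exists_isFrobeniusAt ℓ hℓ
  obtain ⟨P, hP0⟩ := exists_order_five W hΔ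
  have hR := frob_rel_TN W hℓ h5 hg A hA τ hτ P
  have hR' := frob_rel_TN W' hℓ h5 hg' A hA τ hτ (φ P)
  -- transport the first relation by `φ`
  have hR1 : τ • τ • φ P - W.apOfModel ℓ • τ • φ P + (ℓ : ℤ) • φ P = 0 := by
    have := congrArg φ hR
    rw [_root_.map_zero, map_add, map_sub, map_zsmul, map_zsmul, hequiv, hequiv] at this
    exact this
  -- subtract
  have hsub : (W'.apOfModel ℓ - W.apOfModel ℓ) • (τ • φ P) = 0 := by
    have : (W'.apOfModel ℓ - W.apOfModel ℓ) • (τ • φ P)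
        = (τ • τ • φ P - W.apOfModel ℓ • τ • φ P + (ℓ : ℤ) • φ P)
          - (τ • τ • φ P - W'.apOfModel ℓ • τ • φ P + (ℓ : ℤ) • φ P) := by
      rw [sub_smul]; abel
    rw [this, hR1, hR', sub_zero]
  -- `τ • φ P` is a nonzero element of a group killed by 5
  have hφP0 : φ P ≠ 0 := fun h0 => hP0 (hinj (by rw [h0, _root_.map_zero]))
  have hτφ0 : τ • φ P ≠ 0 := by
    intro h0
    apply hφP0
    have := congrArg (fun Q => τ⁻¹ • Q) h0
    simpa using this
  have hτφ5 : (5 : ℕ) • (τ • φ P) = 0 := by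
    apply Subtype.ext
    have := five_nsmul_coe (τ • φ P)
    simpa using this
  have hord : addOrderOf (τ • φ P) = 5 := by
    have hdvd : addOrderOf (τ • φ P) ∣ 5 := addOrderOf_dvd_of_nsmul_eq_zero hτφ5
    rcases (Nat.dvd_prime Nat.prime_five).mp hdvd with h1 | h5'
    · exact absurd (AddMonoid.addOrderOf_eq_one_iff.mp h1) hτφ0
    · exact h5'
  have := (addOrderOf_dvd_iff_zsmul_eq_zero (x := τ • φ P)
    (i := W'.apOfModel ℓ - W.apOfModel ℓ)).mpr hsub
  rw [hord] at this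
  exact_mod_cast this

/-- **S52 from the family gate.** -/
theorem s52_of_familyTN
    (hfam : ∀ W : WeierstrassCurve ℤ, W.Δ ≠ 0 → W.IsSemistableModel → W.ModRepIsIrreducible 5 →
      ∃ W' : WeierstrassCurve ℤ, W'.Δ ≠ 0 ∧ W'.IsSemistableModel ∧ W'.ModRepIsIrreducible 3 ∧
        FiveCongTN W W')
    (W : WeierstrassCurve ℤ) (hΔ : W.Δ ≠ 0) (hW : W.IsSemistableModel)
    (h5 : W.ModRepIsIrreducible 5) :
    ∃ W' : WeierstrassCurve ℤ, W'.Δ ≠ 0 ∧ W'.IsSemistableModel ∧ W'.ModRepIsIrreducible 3 ∧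
      ∀ ℓ : ℕ, ℓ.Prime → W.IsGoodPrimeFor ℓ → W'.IsGoodPrimeFor ℓ → ℓ ≠ 5 →
        (5 : ℤ) ∣ (W'.apOfModel ℓ - W.apOfModel ℓ) := by
  obtain ⟨W', hΔ', hW', h3, hc⟩ := hfam W hΔ hW h5
  exact ⟨W', hΔ', hW', h3, fun ℓ hℓ hg hg' hne => ap_congr_of_fiveCongTN hΔ hc ℓ hℓ hg hg' hne⟩

end Fermat.Agent.G35.TopTN
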