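/-
GATE-Q / S52 (3–5 switch), node Q0 (helper35, on helper23's graph 3926).

* `FiveCong W W'` : a group homomorphism `W(ℚ̄) → W'(ℚ̄)`, injective and `G_ℚ`-equivariant on the
  `5`-torsion (helper23's shape, verbatim).
* `ap_congr_of_fiveCong` : `FiveCong W W'` forces `a_ℓ(W') ≡ a_ℓ(W) mod 5` at every common good
  prime `ℓ ≠ 5` (Eichler–Shimura relation `GE.ECFinal.frobRel` for both curves at a Frobenius lift,
  evaluated at the image of a nonzero `5`-torsion point).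
* `s52_of_family` : the frozen statement `S52` from the existence of a `5`-congruent semistable
  curve with irreducible mod-`3` representation.
NEW file; imports only.
-/
import Fermat.Prelude.Def_FLTPrelim_Modularity
import Fermat.Prelude.Def_FLTPrelim_ModularRep
import Fermat.Prelude.Def_FLTPrelim_CofixedLine
import Fermat.Agent.GE.Top.ECFinal
import Fermat.Agent.Common_helper32.FrobeniusExists

set_option autoImplicit false

open Fermat.Agent.Common_helper32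
open scoped WeierstrassCurve.Affine

namespace Fermat.Agent.G35.Top

open WeierstrassCurve WeierstrassCurve.Affine.Point Fermat.Agent.GE.ECAssembly

/-- `W` and `W'` are `5`-congruent: a homomorphism `W(ℚ̄) → W'(ℚ̄)` which is injective and
Galois-equivariant on the `5`-torsion. -/
def FiveCong (W W' : WeierstrassCurve ℤ) : Prop :=
  ∃ φ : (EQb W).Point →+ (EQb W').Point,
    (∀ P, (5 : ℕ) • P = 0 → φ P = 0 → P = 0) ∧
    ∀ (σ : GQ) P, (5 : ℕ) • P = 0 → φ (σ • P) = σ • φ P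

/-- a nonzero `5`-torsion point of `W(ℚ̄)` -/
theorem exists_five_torsion_ne_zero (W : WeierstrassCurve ℤ) (hΔ : W.Δ ≠ 0) :
    ∃ P : (EQb W).Point, P ≠ 0 ∧ (5 : ℕ) • P = 0 := by
  have hcard : Nat.card (Submodule.torsionBy ℤ (EQb W).Point ((5 : ℕ) : ℤ)) = 5 ^ 2 :=
    Fermat.Agent.GE.Tors.card_torsionBy (W := EQb W) (eqb_Δ_ne_zero W hΔ) 5 (by norm_num)
  have hfin : Finite (Submodule.torsionBy ℤ (EQb W).Point ((5 : ℕ) : ℤ)) :=
    Nat.finite_of_card_ne_zero (by rw [hcard]; norm_num)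
  have hnt : Nontrivial (Submodule.torsionBy ℤ (EQb W).Point ((5 : ℕ) : ℤ)) := by
    rw [← Finite.one_lt_card_iff_nontrivial, hcard]; norm_num
  obtain ⟨P, hP⟩ := exists_ne (0 : Submodule.torsionBy ℤ (EQb W).Point ((5 : ℕ) : ℤ))
  refine ⟨P.1, fun h => hP (Subtype.ext h), ?_⟩
  have := P.2
  rw [Submodule.mem_torsionBy_iff, natCast_zsmul] at this
  exact this

/-- an integer multiple annihilating a nonzero point of order `5` is divisible by `5` -/
theorem five_dvd_of_zsmul_eq_zero {G : Type*} [AddCommGroup G] {R : G} (hR : R ≠ 0)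
    (h5 : (5 : ℕ) • R = 0) {m : ℤ} (hm : m • R = 0) : (5 : ℤ) ∣ m := by
  by_contra hnd
  have hcop : IsCoprime (5 : ℤ) m := by
    have hp : Prime (5 : ℤ) := by
      rw [Int.prime_iff_natAbs_prime]; norm_num
    exact (hp.coprime_iff_not_dvd).mpr hnd
  obtain ⟨a, b, hab⟩ := hcop
  apply hR
  have h5' : (5 : ℤ) • R = 0 := by
    have := h5
    rwa [← natCast_zsmul] at this
  calc R = (1 : ℤ) • R := (one_zsmul R).symm
    _ = (a * 5 + b * m) • R := by rw [hab]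
    _ = a • (5 : ℤ) • R + b • m • R := by rw [add_zsmul, mul_zsmul, mul_zsmul]
    _ = 0 := by rw [h5', hm, smul_zero, smul_zero, add_zero]

/-- **`5`-congruent curves have congruent traces of Frobenius** at common good primes `ℓ ≠ 5`. -/
theorem ap_congr_of_fiveCong {W W' : WeierstrassCurve ℤ} (hΔ : W.Δ ≠ 0) (_hΔ' : W'.Δ ≠ 0)
    (h : FiveCong W W') (ℓ : ℕ) (hℓ : ℓ.Prime) (hg : W.IsGoodPrimeFor ℓ)
    (hg' : W'.IsGoodPrimeFor ℓ) (h5 : ℓ ≠ 5) :
    (5 : ℤ) ∣ W'.apOfModel ℓ - W.apOfModel ℓ := by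
  obtain ⟨φ, hinj, heq⟩ := h
  obtain ⟨A, τ, hA, hτ⟩ := exists_isFrobeniusAt ℓ hℓ
  obtain ⟨P, hP0, hP5⟩ := exists_five_torsion_ne_zero W hΔ
  have h5p : (5 : ℕ).Prime := by norm_num
  -- the two Frobenius relations
  have hτP5 : (5 : ℕ) • (τ • P) = 0 := by
    have := map_nsmul (DistribSMul.toAddMonoidHom (EQb W).Point τ) 5 P
    rw [hP5, _root_.map_zero] at this
    exact this.symm
  have hQ5 : (5 : ℕ) • φ P = 0 := by rw [← map_nsmul, hP5, _root_.map_zero]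
  have hQ0 : φ P ≠ 0 := fun h0 => hP0 (hinj P hP5 h0)
  have r1 := Fermat.Agent.GE.ECFinal.frobRel W h5p 1 ℓ hℓ h5 hg A hA τ hτ P (by simpa using hP5)
  have r2 := Fermat.Agent.GE.ECFinal.frobRel W' h5p 1 ℓ hℓ h5 hg' A hA τ hτ (φ P)
    (by simpa using hQ5)
  have r1' : τ • τ • φ P - W.apOfModel ℓ • τ • φ P + (ℓ : ℤ) • φ P = 0 := by
    have := congrArg φ r1
    rwa [_root_.map_zero, map_add, map_sub, map_zsmul, map_zsmul, heq τ _ hτP5, heq τ P hP5] at this
  -- subtract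
  have hsub : (W'.apOfModel ℓ - W.apOfModel ℓ) • (τ • φ P) = 0 := by
    have e : (W'.apOfModel ℓ - W.apOfModel ℓ) • (τ • φ P)
        = (τ • τ • φ P - W.apOfModel ℓ • τ • φ P + (ℓ : ℤ) • φ P)
          - (τ • τ • φ P - W'.apOfModel ℓ • τ • φ P + (ℓ : ℤ) • φ P) := by
      rw [sub_zsmul]; abel
    rw [e, r1', r2, sub_zero]
  have hτQ0 : τ • φ P ≠ 0 := by
    intro h0
    apply hQ0
    have := congrArg (fun x => τ⁻¹ • x) h0
    simp only [inv_smul_smul] at this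
    rw [this]
    exact smul_zero (A := (EQb W').Point) τ⁻¹
  have hτQ5 : (5 : ℕ) • (τ • φ P) = 0 := by
    have := map_nsmul (DistribSMul.toAddMonoidHom (EQb W').Point τ) 5 (φ P)
    rw [hQ5, _root_.map_zero] at this
    exact this.symm
  exact five_dvd_of_zsmul_eq_zero hτQ0 hτQ5 hsub

/-- **`S52` from the `5`-congruent family.** -/
theorem s52_of_family
    (hfam : ∀ W : WeierstrassCurve ℤ, W.Δ ≠ 0 → W.IsSemistableModel → W.ModRepIsIrreducible 5 →
      ∃ W' : WeierstrassCurve ℤ, W'.Δ ≠ 0 ∧ W'.IsSemistableModel ∧ W'.ModRepIsIrreducible 3 ∧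
        FiveCong W W')
    (W : WeierstrassCurve ℤ) (hΔ : W.Δ ≠ 0) (hW : W.IsSemistableModel)
    (h5 : W.ModRepIsIrreducible 5) :
    ∃ W' : WeierstrassCurve ℤ, W'.Δ ≠ 0 ∧ W'.IsSemistableModel ∧ W'.ModRepIsIrreducible 3 ∧
      ∀ ℓ : ℕ, ℓ.Prime → W.IsGoodPrimeFor ℓ → W'.IsGoodPrimeFor ℓ → ℓ ≠ 5 →
        (5 : ℤ) ∣ (W'.apOfModel ℓ - W.apOfModel ℓ) := by
  obtain ⟨W', hΔ', hss', h3, hc⟩ := hfam W hΔ hW h5
  exact ⟨W', hΔ', hss', h3, fun ℓ hℓ hg hg' hne => ap_congr_of_fiveCong hΔ hΔ' hc ℓ hℓ hg hg' hne⟩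

end Fermat.Agent.G35.Top
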