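/-
GATE-Q / S52, node Q0 bis (helper56): `FiveCong` of `G35/Top.lean` asks for a homomorphism on ALL
points `W(ℚ̄) → W'(ℚ̄)`; the descent node Q4 only produces a Galois-equivariant bijection between the
`5`-torsion subgroups (two bases with the same Galois matrices).  Extending it to all points would
need divisibility of `W'(ℚ̄)[5^∞]` + Baer; it is not needed: `ap_congr_of_fiveCong` only evaluates
`φ` on `5`-torsion points.  This file gives the torsion-only variant.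

* `FiveCongT W W'` : a plain function `φ : W(ℚ̄) → W'(ℚ̄)` which is additive, injective and
  `G_ℚ`-equivariant ON THE `5`-TORSION;
* `fiveCongT_of_fiveCong`, `ap_congr_of_fiveCongT`, `s52_of_familyT` (frozen `S52` from the
  `FiveCongT`-family);
* `exists_coords` / `exists_equivariant_map` : abstract group theory (a `G`-module `M` whose
  `5`-torsion has `25` elements, two independent `5`-torsion points generate it; two pairs with the
  same `G`-matrices give a map as above);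
* `fiveCongT_of_basis` : the Q4 output shape ⟹ `FiveCongT`.
NEW file; imports `G35/Top` only.
-/
import Fermat.Agent.G35.Top

set_option autoImplicit false

open Fermat.Agent.Common_helper32
open scoped WeierstrassCurve.Affine

namespace Fermat.Agent.G35.TopTors

open WeierstrassCurve WeierstrassCurve.Affine.Point Fermat.Agent.GE.ECAssembly
open Fermat.Agent.G35.Top

/-! ### abstract group theory -/

section Abstract

variable {M : Type*} [AddCommGroup M]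

/-- `m • R` only depends on `m mod 5` for a `5`-torsion point. -/
theorem zsmul_eq_of_dvd_sub {R : M} (hR : (5 : ℕ) • R = 0) {a a' : ℤ} (h : (5 : ℤ) ∣ a - a') :
    a • R = a' • R := by
  obtain ⟨k, hk⟩ := h
  have h5 : (5 : ℤ) • R = 0 := by
    rw [← hR, ← natCast_zsmul]; rfl
  have : a = a' + k * 5 := by linarith
  rw [this, add_zsmul, mul_zsmul, h5, smul_zero, add_zero]

/-- two independent `5`-torsion points generate a `5`-torsion subgroup of order `25`. -/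
theorem exists_coords (P Q : M) (hP : (5 : ℕ) • P = 0) (hQ : (5 : ℕ) • Q = 0)
    (hind : ∀ a b : ℤ, a • P + b • Q = 0 → (5 : ℤ) ∣ a ∧ (5 : ℤ) ∣ b)
    (hcard : Nat.card (Submodule.torsionBy ℤ M ((5 : ℕ) : ℤ)) = 5 ^ 2) :
    ∀ R : M, (5 : ℕ) • R = 0 → ∃ a b : ℤ, R = a • P + b • Q := by
  have hfin : Finite (Submodule.torsionBy ℤ M ((5 : ℕ) : ℤ)) :=
    Nat.finite_of_card_ne_zero (by rw [hcard]; norm_num)
  have hmem : ∀ a b : ℤ, a • P + b • Q ∈ Submodule.torsionBy ℤ M ((5 : ℕ) : ℤ) := by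
    intro a b
    rw [Submodule.mem_torsionBy_iff, natCast_zsmul, smul_add, smul_comm _ a, smul_comm _ b, hP, hQ,
      smul_zero, smul_zero, add_zero]
  let f : Fin 5 × Fin 5 → Submodule.torsionBy ℤ M ((5 : ℕ) : ℤ) :=
    fun ab => ⟨((ab.1 : ℕ) : ℤ) • P + ((ab.2 : ℕ) : ℤ) • Q, hmem _ _⟩
  have hinj : Function.Injective f := by
    rintro ⟨a, b⟩ ⟨a', b'⟩ h
    have h1 : (((a : ℕ) : ℤ)) • P + ((b : ℕ) : ℤ) • Q = ((a' : ℕ) : ℤ) • P + ((b' : ℕ) : ℤ) • Q :=
      congrArg Subtype.val h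
    have h2 : (((a : ℕ) : ℤ) - ((a' : ℕ) : ℤ)) • P + (((b : ℕ) : ℤ) - ((b' : ℕ) : ℤ)) • Q = 0 := by
      rw [sub_zsmul, sub_zsmul]
      have := sub_eq_zero.2 h1
      rw [← this]; abel
    obtain ⟨ha, hb⟩ := hind _ _ h2
    have ha5 := a.2
    have ha5' := a'.2
    have hb5 := b.2
    have hb5' := b'.2
    have e1 : (a : ℕ) = (a' : ℕ) := by omega
    have e2 : (b : ℕ) = (b' : ℕ) := by omega
    exact Prod.ext (Fin.ext e1) (Fin.ext e2)
  have hbij : Function.Bijective f :=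
    hinj.bijective_of_nat_card_le (by rw [hcard, Nat.card_prod, Nat.card_fin]; norm_num)
  intro R hR
  have hRmem : R ∈ Submodule.torsionBy ℤ M ((5 : ℕ) : ℤ) := by
    rw [Submodule.mem_torsionBy_iff, natCast_zsmul]; exact hR
  obtain ⟨⟨a, b⟩, hab⟩ := hbij.2 ⟨R, hRmem⟩
  exact ⟨((a : ℕ) : ℤ), ((b : ℕ) : ℤ), (congrArg Subtype.val hab).symm⟩

variable {G : Type*} [Group G] {M' : Type*} [AddCommGroup M'] [DistribMulAction G M]
  [DistribMulAction G M']

/-- two bases of the `5`-torsion with the same `G`-matrices give a map which is additive,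
injective and equivariant on the `5`-torsion. -/
theorem exists_equivariant_map (P Q : M) (P' Q' : M')
    (hP : (5 : ℕ) • P = 0) (hQ : (5 : ℕ) • Q = 0)
    (hP' : (5 : ℕ) • P' = 0) (hQ' : (5 : ℕ) • Q' = 0)
    (hind : ∀ a b : ℤ, a • P + b • Q = 0 → (5 : ℤ) ∣ a ∧ (5 : ℤ) ∣ b)
    (hind' : ∀ a b : ℤ, a • P' + b • Q' = 0 → (5 : ℤ) ∣ a ∧ (5 : ℤ) ∣ b)
    (hgen : ∀ R : M, (5 : ℕ) • R = 0 → ∃ a b : ℤ, R = a • P + b • Q)
    (hgal : ∀ σ : G, ∃ a b c d : ℤ, σ • P = a • P + c • Q ∧ σ • Q = b • P + d • Q ∧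
      σ • P' = a • P' + c • Q' ∧ σ • Q' = b • P' + d • Q') :
    ∃ φ : M → M',
      (∀ R S, (5 : ℕ) • R = 0 → (5 : ℕ) • S = 0 → φ (R + S) = φ R + φ S) ∧
      (∀ R, (5 : ℕ) • R = 0 → φ R = 0 → R = 0) ∧
      ∀ (σ : G) R, (5 : ℕ) • R = 0 → φ (σ • R) = σ • φ R := by
  classical
  let φ : M → M' := fun R =>
    if h : ∃ ab : ℤ × ℤ, R = ab.1 • P + ab.2 • Q then h.choose.1 • P' + h.choose.2 • Q' else 0
  -- well-definedness
  have hφ : ∀ a b : ℤ, φ (a • P + b • Q) = a • P' + b • Q' := by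
    intro a b
    have h : ∃ ab : ℤ × ℤ, a • P + b • Q = ab.1 • P + ab.2 • Q := ⟨(a, b), rfl⟩
    have hspec := h.choose_spec
    have h2 : (a - h.choose.1) • P + (b - h.choose.2) • Q = 0 := by
      rw [sub_zsmul, sub_zsmul]
      have := sub_eq_zero.2 hspec
      rw [← this]; abel
    obtain ⟨ha, hb⟩ := hind _ _ h2
    show (if h : ∃ ab : ℤ × ℤ, a • P + b • Q = ab.1 • P + ab.2 • Q then
      h.choose.1 • P' + h.choose.2 • Q' else 0) = _
    rw [dif_pos h, zsmul_eq_of_dvd_sub hP' ha, zsmul_eq_of_dvd_sub hQ' hb]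
  have htors : ∀ a b : ℤ, (5 : ℕ) • (a • P + b • Q) = 0 := by
    intro a b
    rw [smul_add, smul_comm _ a, smul_comm _ b, hP, hQ, smul_zero, smul_zero, add_zero]
  refine ⟨φ, ?_, ?_, ?_⟩
  · intro R S hR hS
    obtain ⟨a, b, rfl⟩ := hgen R hR
    obtain ⟨a', b', rfl⟩ := hgen S hS
    have e : a • P + b • Q + (a' • P + b' • Q) = (a + a') • P + (b + b') • Q := by
      rw [add_zsmul, add_zsmul]; abel
    rw [e, hφ, hφ, hφ, add_zsmul, add_zsmul]; abel
  · intro R hR h0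
    obtain ⟨a, b, rfl⟩ := hgen R hR
    rw [hφ] at h0
    obtain ⟨ha, hb⟩ := hind' _ _ h0
    have e1 : a • P = (0 : ℤ) • P := zsmul_eq_of_dvd_sub hP (by simpa using ha)
    have e2 : b • Q = (0 : ℤ) • Q := zsmul_eq_of_dvd_sub hQ (by simpa using hb)
    rw [e1, e2, zero_zsmul, zero_zsmul, add_zero]
  · intro σ R hR
    obtain ⟨x, y, rfl⟩ := hgen R hR
    obtain ⟨a, b, c, d, h1, h2, h3, h4⟩ := hgal σ
    have hz : ∀ (z : ℤ) (T : M), σ • (z • T) = z • (σ • T) :=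
      fun z T => map_zsmul (DistribSMul.toAddMonoidHom M σ) z T
    have hz' : ∀ (z : ℤ) (T : M'), σ • (z • T) = z • (σ • T) :=
      fun z T => map_zsmul (DistribSMul.toAddMonoidHom M' σ) z T
    have e : σ • (x • P + y • Q) = (x * a + y * b) • P + (x * c + y * d) • Q := by
      rw [smul_add, hz, hz, h1, h2]
      simp only [smul_add, add_zsmul, mul_zsmul]
      abel
    rw [e, hφ, hφ, smul_add, hz', hz', h3, h4]
    simp only [smul_add, add_zsmul, mul_zsmul]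
    abel

end Abstract

/-! ### the torsion-only congruence -/

/-- `W` and `W'` are `5`-congruent, torsion-only form: a map `W(ℚ̄) → W'(ℚ̄)` which is additive,
injective and Galois-equivariant on the `5`-torsion. -/
def FiveCongT (W W' : WeierstrassCurve ℤ) : Prop :=
  ∃ φ : (EQb W).Point → (EQb W').Point,
    (∀ P Q, (5 : ℕ) • P = 0 → (5 : ℕ) • Q = 0 → φ (P + Q) = φ P + φ Q) ∧
    (∀ P, (5 : ℕ) • P = 0 → φ P = 0 → P = 0) ∧
    ∀ (σ : GQ) P, (5 : ℕ) • P = 0 → φ (σ • P) = σ • φ P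

theorem fiveCongT_of_fiveCong {W W' : WeierstrassCurve ℤ} (h : FiveCong W W') :
    FiveCongT W W' := by
  obtain ⟨φ, h1, h2⟩ := h
  exact ⟨φ, fun P Q _ _ => map_add φ P Q, h1, h2⟩

/-- **torsion-only `5`-congruent curves have congruent traces of Frobenius** at common good primes
`ℓ ≠ 5` (same proof as `Top.ap_congr_of_fiveCong`; `φ` is only evaluated on `5`-torsion). -/
theorem ap_congr_of_fiveCongT {W W' : WeierstrassCurve ℤ} (hΔ : W.Δ ≠ 0) (_hΔ' : W'.Δ ≠ 0)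
    (h : FiveCongT W W') (ℓ : ℕ) (hℓ : ℓ.Prime) (hg : W.IsGoodPrimeFor ℓ)
    (hg' : W'.IsGoodPrimeFor ℓ) (h5 : ℓ ≠ 5) :
    (5 : ℤ) ∣ W'.apOfModel ℓ - W.apOfModel ℓ := by
  obtain ⟨φ, hadd, hinj, heq⟩ := h
  obtain ⟨A, τ, hA, hτ⟩ := exists_isFrobeniusAt ℓ hℓ
  obtain ⟨P, hP0, hP5⟩ := exists_five_torsion_ne_zero W hΔ
  have h5p : (5 : ℕ).Prime := by norm_num
  -- `φ` on the torsion: zero, negation, integer multiples
  have hφ0 : φ 0 = 0 := by
    have := hadd 0 0 (nsmul_zero _) (nsmul_zero _)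
    rw [add_zero] at this
    exact left_eq_add.1 this
  have htorsZ : ∀ (m : ℤ) (R : (EQb W).Point), (5 : ℕ) • R = 0 → (5 : ℕ) • (m • R) = 0 := by
    intro m R hR
    rw [smul_comm, hR, zsmul_zero]
  have hφneg : ∀ R : (EQb W).Point, (5 : ℕ) • R = 0 → φ (-R) = -φ R := by
    intro R hR
    have hR' : (5 : ℕ) • (-R) = 0 := by rw [neg_nsmul, hR, _root_.neg_zero]
    have := hadd R (-R) hR hR'
    rw [add_neg_cancel, hφ0] at this
    exact (neg_eq_of_add_eq_zero_right this.symm).symm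
  have hφnat : ∀ (m : ℕ) (R : (EQb W).Point), (5 : ℕ) • R = 0 → φ (m • R) = m • φ R := by
    intro m R hR
    induction m with
    | zero => simp [hφ0]
    | succ k ih =>
      have hk : (5 : ℕ) • (k • R) = 0 := by rw [smul_comm, hR, nsmul_zero]
      rw [succ_nsmul, hadd _ _ hk hR, ih, succ_nsmul]
  have hφz : ∀ (m : ℤ) (R : (EQb W).Point), (5 : ℕ) • R = 0 → φ (m • R) = m • φ R := by
    intro m R hR
    obtain ⟨k, rfl | rfl⟩ := m.eq_nat_or_neg
    · rw [natCast_zsmul, natCast_zsmul, hφnat k R hR]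
    · have hk : (5 : ℕ) • (k • R) = 0 := by rw [smul_comm, hR, nsmul_zero]
      rw [neg_zsmul, neg_zsmul, natCast_zsmul, natCast_zsmul, hφneg _ hk, hφnat k R hR]
  -- the two Frobenius relations
  have hτtors : ∀ R : (EQb W).Point, (5 : ℕ) • R = 0 → (5 : ℕ) • (τ • R) = 0 := by
    intro R hR
    have := map_nsmul (DistribSMul.toAddMonoidHom (EQb W).Point τ) 5 R
    rw [hR, _root_.map_zero] at this
    exact this.symm
  have hτP5 : (5 : ℕ) • (τ • P) = 0 := hτtors P hP5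
  have hττP5 : (5 : ℕ) • (τ • τ • P) = 0 := hτtors _ hτP5
  have hQ5 : (5 : ℕ) • φ P = 0 := by rw [← hφnat 5 P hP5, hP5, hφ0]
  have hQ0 : φ P ≠ 0 := fun h0 => hP0 (hinj P hP5 h0)
  have r1 := Fermat.Agent.GE.ECFinal.frobRel W h5p 1 ℓ hℓ h5 hg A hA τ hτ P (by simpa using hP5)
  have r2 := Fermat.Agent.GE.ECFinal.frobRel W' h5p 1 ℓ hℓ h5 hg' A hA τ hτ (φ P)
    (by simpa using hQ5)
  have r1' : τ • τ • φ P - W.apOfModel ℓ • τ • φ P + (ℓ : ℤ) • φ P = 0 := by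
    have h1 : τ • τ • P = W.apOfModel ℓ • τ • P + (-(ℓ : ℤ)) • P := by
      rw [neg_zsmul]
      have := r1
      rw [sub_add_eq_add_sub, sub_eq_zero] at this
      rw [← this]; abel
    have h2 := congrArg φ h1
    rw [hadd _ _ (htorsZ _ _ hτP5) (htorsZ _ _ hP5), hφz _ _ hτP5, hφz _ _ hP5,
      heq τ _ hτP5, heq τ P hP5] at h2
    rw [h2, neg_zsmul]; abel
  -- subtract
  have hsub : (W'.apOfModel ℓ - W.apOfModel ℓ) • (τ • φ P) = 0 := by
    have e : (W'.apOfModel ℓ - W.apOfModel ℓ) • (τ • φ P)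
        = (τ • τ • φ P - W.apOfModel ℓ • τ • φ P + (ℓ : ℤ) • φ P)
          - (τ • τ • φ P - W'.apOfModel ℓ • τ • φ P + (ℓ : ℤ) • φ P) := by
      rw [sub_zsmul]; abel
    rw [e, r1', r2, sub_zero]
  have hτQ0 : τ • φ P ≠ 0 := by
    intro h0
    apply hQ0
    have := congrArg (fun x => τ⁻¹ • x) h0
    simp only [inv_smul_smul] at this
    rw [this]
    exact smul_zero (A := (EQb W').Point) τ⁻¹
  have hτQ5 : (5 : ℕ) • (τ • φ P) = 0 := by
    have := map_nsmul (DistribSMul.toAddMonoidHom (EQb W').Point τ) 5 (φ P)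
    rw [hQ5, _root_.map_zero] at this
    exact this.symm
  exact five_dvd_of_zsmul_eq_zero hτQ0 hτQ5 hsub

/-- **`S52` from the `5`-congruent family, torsion-only form.** -/
theorem s52_of_familyT
    (hfam : ∀ W : WeierstrassCurve ℤ, W.Δ ≠ 0 → W.IsSemistableModel → W.ModRepIsIrreducible 5 →
      ∃ W' : WeierstrassCurve ℤ, W'.Δ ≠ 0 ∧ W'.IsSemistableModel ∧ W'.ModRepIsIrreducible 3 ∧
        FiveCongT W W')
    (W : WeierstrassCurve ℤ) (hΔ : W.Δ ≠ 0) (hW : W.IsSemistableModel)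
    (h5 : W.ModRepIsIrreducible 5) :
    ∃ W' : WeierstrassCurve ℤ, W'.Δ ≠ 0 ∧ W'.IsSemistableModel ∧ W'.ModRepIsIrreducible 3 ∧
      ∀ ℓ : ℕ, ℓ.Prime → W.IsGoodPrimeFor ℓ → W'.IsGoodPrimeFor ℓ → ℓ ≠ 5 →
        (5 : ℤ) ∣ (W'.apOfModel ℓ - W.apOfModel ℓ) := by
  obtain ⟨W', hΔ', hss', h3, hc⟩ := hfam W hΔ hW h5
  exact ⟨W', hΔ', hss', h3, fun ℓ hℓ hg hg' hne => ap_congr_of_fiveCongT hΔ hΔ' hc ℓ hℓ hg hg' hne⟩

/-- **Q4 output shape ⟹ `FiveCongT`**: bases `(P, Q)` of `W(ℚ̄)[5]` and `(P', Q')` of `W'(ℚ̄)[5]`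
(independence only; generation follows from `#W(ℚ̄)[5] = 25`) with the same Galois matrices. -/
theorem fiveCongT_of_basis {W W' : WeierstrassCurve ℤ} (hΔ : W.Δ ≠ 0)
    (P Q : (EQb W).Point) (P' Q' : (EQb W').Point)
    (hP : (5 : ℕ) • P = 0) (hQ : (5 : ℕ) • Q = 0)
    (hP' : (5 : ℕ) • P' = 0) (hQ' : (5 : ℕ) • Q' = 0)
    (hind : ∀ a b : ℤ, a • P + b • Q = 0 → (5 : ℤ) ∣ a ∧ (5 : ℤ) ∣ b)
    (hind' : ∀ a b : ℤ, a • P' + b • Q' = 0 → (5 : ℤ) ∣ a ∧ (5 : ℤ) ∣ b)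
    (hgal : ∀ σ : GQ, ∃ a b c d : ℤ, σ • P = a • P + c • Q ∧ σ • Q = b • P + d • Q ∧
      σ • P' = a • P' + c • Q' ∧ σ • Q' = b • P' + d • Q') :
    FiveCongT W W' := by
  have hcard : Nat.card (Submodule.torsionBy ℤ (EQb W).Point ((5 : ℕ) : ℤ)) = 5 ^ 2 :=
    Fermat.Agent.GE.Tors.card_torsionBy (W := EQb W) (eqb_Δ_ne_zero W hΔ) 5 (by norm_num)
  exact exists_equivariant_map P Q P' Q' hP hQ hP' hQ' hind hind'
    (exists_coords P Q hP hQ hind hcard) hgal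

end Fermat.Agent.G35.TopTors
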