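/-
GATE-Q / S52, node Q4(D), EC instance (helper56; helper23's decision D1 of LEAD DECISIONS v1):
two bases of `W(ℚ̄)[5]`, `W'(ℚ̄)[5]` (independence only) with the SAME Galois matrices give
`TopTN.FiveCongTN W W'`, the Q0 target of `TopTN.s52_of_familyTN`.

* `fiveCongTN_of_fiveCongT` : `TopTors.FiveCongT W W' → TopTN.FiveCongTN W W'`;
* `fiveCongTN_of_basis` : the Q4 output shape (`hgal` binder) ⟹ `TopTN.FiveCongTN W W'`.
NEW file; imports `G35/TopTN` + `G35/TopTors` only.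
-/
import Fermat.Agent.G35.TopTN
import Fermat.Agent.G35.TopTors

set_option autoImplicit false

open Fermat.Agent.Common_helper32
open scoped WeierstrassCurve.Affine

namespace Fermat.Agent.G35.FiveCongOfBasis

open WeierstrassCurve WeierstrassCurve.Affine.Point Fermat.Agent.GE.ECAssembly
open Fermat.Agent.G35.TopTors

theorem mem_TN_iff {W : WeierstrassCurve ℤ} (R : (EQb W).Point) :
    R ∈ Submodule.torsionBy ℤ (EQb W).Point ((5 : ℕ) : ℤ) ↔ (5 : ℕ) • R = 0 := by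
  rw [Submodule.mem_torsionBy_iff, natCast_zsmul]

/-- the torsion-only congruence of `TopTors` gives the torsion-subgroup congruence of `TopTN`. -/
theorem fiveCongTN_of_fiveCongT {W W' : WeierstrassCurve ℤ} (h : FiveCongT W W') :
    TopTN.FiveCongTN W W' := by
  obtain ⟨φ, hadd, hinj, heq⟩ := h
  have hφ0 : φ 0 = 0 := by
    have := hadd 0 0 (nsmul_zero _) (nsmul_zero _)
    rw [add_zero] at this
    exact left_eq_add.1 this
  have hφnat : ∀ (m : ℕ) (R : (EQb W).Point), (5 : ℕ) • R = 0 → φ (m • R) = m • φ R := by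
    intro m R hR
    induction m with
    | zero => simp [hφ0]
    | succ k ih =>
      have hk : (5 : ℕ) • (k • R) = 0 := by rw [smul_comm, hR, nsmul_zero]
      rw [succ_nsmul, hadd _ _ hk hR, ih, succ_nsmul]
  have hmem : ∀ t : TN W 5, φ (t : (EQb W).Point) ∈
      Submodule.torsionBy ℤ (EQb W').Point ((5 : ℕ) : ℤ) := by
    intro t
    have ht : (5 : ℕ) • (t : (EQb W).Point) = 0 := (mem_TN_iff _).1 t.2
    rw [mem_TN_iff, ← hφnat 5 _ ht, ht, hφ0]
  let ψ : TN W 5 →+ TN W' 5 := AddMonoidHom.mk' (fun t => ⟨φ (t : (EQb W).Point), hmem t⟩)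
    (fun a b => Subtype.ext (hadd _ _ ((mem_TN_iff _).1 a.2) ((mem_TN_iff _).1 b.2)))
  refine ⟨ψ, ?_, ?_⟩
  · rw [injective_iff_map_eq_zero]
    intro a ha
    have h1 : φ (a : (EQb W).Point) = 0 := congrArg Subtype.val ha
    exact Subtype.ext (hinj _ ((mem_TN_iff _).1 a.2) h1)
  · intro σ P
    exact Subtype.ext (heq σ _ ((mem_TN_iff _).1 P.2))

/-- **Q4(D), EC instance**: bases `(P, Q)` of `W(ℚ̄)[5]` and `(P', Q')` of `W'(ℚ̄)[5]`
(independence only; generation follows from `#W(ℚ̄)[5] = 25`) with the same Galois matrices give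
the `5`-congruence `TopTN.FiveCongTN W W'`. -/
theorem fiveCongTN_of_basis {W W' : WeierstrassCurve ℤ} (hΔ : W.Δ ≠ 0)
    (P Q : (EQb W).Point) (P' Q' : (EQb W').Point)
    (hP : (5 : ℕ) • P = 0) (hQ : (5 : ℕ) • Q = 0)
    (hP' : (5 : ℕ) • P' = 0) (hQ' : (5 : ℕ) • Q' = 0)
    (hind : ∀ a b : ℤ, a • P + b • Q = 0 → (5 : ℤ) ∣ a ∧ (5 : ℤ) ∣ b)
    (hind' : ∀ a b : ℤ, a • P' + b • Q' = 0 → (5 : ℤ) ∣ a ∧ (5 : ℤ) ∣ b)
    (hgal : ∀ σ : GQ, ∃ a b c d : ℤ, σ • P = a • P + c • Q ∧ σ • Q = b • P + d • Q ∧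
      σ • P' = a • P' + c • Q' ∧ σ • Q' = b • P' + d • Q') :
    TopTN.FiveCongTN W W' :=
  fiveCongTN_of_fiveCongT (fiveCongT_of_basis hΔ P Q P' Q' hP hQ hP' hQ' hind hind' hgal)

end Fermat.Agent.G35.FiveCongOfBasis
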