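/-
GATE-Q / S52 (3–5 switch), node Q5 (helper92): INTEGRAL SEMISTABLE MODEL WITH PRESCRIBED `(c₄, c₆)`.

`W` a semistable integral Weierstrass model (`IsSemistableModel`: no prime divides both `Δ` and
`c₄`), `m` an integer divisible by `6`, `(c4', c6')` integers with

* `c4' ≡ c₄(W)`, `c6' ≡ c₆(W)` modulo `1728 * m`,
* `c4' ^ 3 ≠ c6' ^ 2`,
* no prime `p ∤ m` divides both `c4'` and `c6'`.

Then `W'` := `W` with `a₄, a₆` perturbed (`a₄' = a₄ - (c4' - c₄)/48`, `a₆'` accordingly) is an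
integral model with `c₄(W') = c4'`, `c₆(W') = c6'`, `W' ≡ W` modulo `m` coefficientwise, `Δ(W') ≠ 0`
and `W'` is SEMISTABLE: at `p ∣ m` because `Δ(W') ≡ Δ(W)`, `c₄(W') ≡ c₄(W)` mod `p` and `W` is
semistable; at `p ∤ m` (so `p ≥ 5`) because `p ∣ Δ(W')`, `p ∣ c4'` would force `p ∣ c6'`.

Also: `W'` over `ℚ` is isomorphic (explicit `VariableChange`) to the short model
`y² = x³ - 27 c4' x - 54 c6'`.
-/
import Mathlib
import Fermat.Prelude.Def_FLTPrelim_Modularity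

set_option autoImplicit false

namespace Fermat.Agent.G35.Integral

open WeierstrassCurve

/-- the perturbed model: same `a₁, a₂, a₃`, new `a₄, a₆`. -/
def perturb (W : WeierstrassCurve ℤ) (d4 d6 : ℤ) : WeierstrassCurve ℤ :=
  ⟨W.a₁, W.a₂, W.a₃, W.a₄ + d4, W.a₆ + d6⟩

section Perturb

variable (W : WeierstrassCurve ℤ) (d4 d6 : ℤ)

@[simp] theorem perturb_a₁ : (perturb W d4 d6).a₁ = W.a₁ := rfl
@[simp] theorem perturb_a₂ : (perturb W d4 d6).a₂ = W.a₂ := rfl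
@[simp] theorem perturb_a₃ : (perturb W d4 d6).a₃ = W.a₃ := rfl
@[simp] theorem perturb_a₄ : (perturb W d4 d6).a₄ = W.a₄ + d4 := rfl
@[simp] theorem perturb_a₆ : (perturb W d4 d6).a₆ = W.a₆ + d6 := rfl

theorem perturb_b₂ : (perturb W d4 d6).b₂ = W.b₂ := by
  simp only [b₂, perturb_a₁, perturb_a₂]

theorem perturb_b₄ : (perturb W d4 d6).b₄ = W.b₄ + 2 * d4 := by
  simp only [b₄, perturb_a₁, perturb_a₃, perturb_a₄]; ring

theorem perturb_b₆ : (perturb W d4 d6).b₆ = W.b₆ + 4 * d6 := by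
  simp only [b₆, perturb_a₃, perturb_a₆]; ring

theorem perturb_c₄ : (perturb W d4 d6).c₄ = W.c₄ - 48 * d4 := by
  simp only [c₄, perturb_b₂, perturb_b₄]; ring

theorem perturb_c₆ : (perturb W d4 d6).c₆ = W.c₆ + 72 * W.b₂ * d4 - 864 * d6 := by
  simp only [c₆, perturb_b₂, perturb_b₄, perturb_b₆]; ring

/-- `Δ` of the perturbed model is congruent to `Δ(W)` modulo any common divisor of `d4, d6`. -/
theorem perturb_Δ_modEq {m : ℤ} (h4 : m ∣ d4) (h6 : m ∣ d6) :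
    (perturb W d4 d6).Δ ≡ W.Δ [ZMOD m] := by
  have e4 : W.a₄ + d4 ≡ W.a₄ [ZMOD m] := by
    have : W.a₄ + d4 ≡ W.a₄ + 0 [ZMOD m] :=
      Int.ModEq.add_left _ ((Int.modEq_zero_iff_dvd).mpr h4)
    simpa using this
  have e6 : W.a₆ + d6 ≡ W.a₆ [ZMOD m] := by
    have : W.a₆ + d6 ≡ W.a₆ + 0 [ZMOD m] :=
      Int.ModEq.add_left _ ((Int.modEq_zero_iff_dvd).mpr h6)
    simpa using this
  simp only [Δ, b₂, b₄, b₆, b₈, perturb_a₁, perturb_a₂, perturb_a₃, perturb_a₄, perturb_a₆]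
  gcongr

end Perturb

/-! ### The main existence statement -/

/-- **Integral semistable model with prescribed `(c₄, c₆)`** (node Q5 of GATE-Q). -/
theorem exists_semistable_model (W : WeierstrassCurve ℤ) (hW : W.IsSemistableModel)
    (m : ℤ) (c4' c6' : ℤ)
    (h4 : c4' ≡ W.c₄ [ZMOD 1728 * m]) (h6 : c6' ≡ W.c₆ [ZMOD 1728 * m])
    (hne : c4' ^ 3 ≠ c6' ^ 2)
    (hcop : ∀ p : ℕ, p.Prime → ¬ (p : ℤ) ∣ m → (p : ℤ) ∣ c4' → ¬ (p : ℤ) ∣ c6') :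
    ∃ W' : WeierstrassCurve ℤ, W'.a₁ = W.a₁ ∧ W'.a₂ = W.a₂ ∧ W'.a₃ = W.a₃ ∧
      m ∣ W'.a₄ - W.a₄ ∧ m ∣ W'.a₆ - W.a₆ ∧ W'.c₄ = c4' ∧ W'.c₆ = c6' ∧
      W'.Δ ≡ W.Δ [ZMOD m] ∧ W'.Δ ≠ 0 ∧ W'.IsSemistableModel := by
  obtain ⟨s, hs⟩ := h4.dvd
  obtain ⟨t, ht⟩ := h6.dvd
  have hd4 : m ∣ 36 * m * s := ⟨36 * s, by ring⟩
  have hd6 : m ∣ 2 * m * t + 3 * m * s * W.b₂ := ⟨2 * t + 3 * s * W.b₂, by ring⟩
  have hc4 : (perturb W (36 * m * s) (2 * m * t + 3 * m * s * W.b₂)).c₄ = c4' := by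
    rw [perturb_c₄]; linarith
  have hc6 : (perturb W (36 * m * s) (2 * m * t + 3 * m * s * W.b₂)).c₆ = c6' := by
    rw [perturb_c₆]; linarith
  have hΔm := perturb_Δ_modEq W (36 * m * s) (2 * m * t + 3 * m * s * W.b₂) hd4 hd6
  have hrel := (perturb W (36 * m * s) (2 * m * t + 3 * m * s * W.b₂)).c_relation
  rw [hc4, hc6] at hrel
  refine ⟨perturb W (36 * m * s) (2 * m * t + 3 * m * s * W.b₂), rfl, rfl, rfl, ?_, ?_, hc4, hc6,
    hΔm, ?_, ?_⟩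
  · simpa using hd4
  · simpa using hd6
  · intro h0
    rw [h0, mul_zero] at hrel
    exact hne (sub_eq_zero.mp hrel.symm)
  · intro p hp hpΔ hpc4
    rw [hc4] at hpc4
    by_cases hpm : (p : ℤ) ∣ m
    · -- `p ∣ m`: reduce to `W`
      have h1 : (p : ℤ) ∣ W.Δ := by
        have := dvd_trans hpm hΔm.dvd
        -- `p ∣ W.Δ - W'.Δ`
        have h2 := dvd_add this hpΔ
        simpa using h2
      have h3 : (p : ℤ) ∣ W.c₄ := by
        have h4 : (p : ℤ) ∣ W.c₄ - c4' := by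
          rw [hs]; exact Dvd.dvd.mul_right (Dvd.dvd.mul_left hpm 1728) s
        have h5 := dvd_add h4 hpc4
        simpa using h5
      exact hW p hp h1 h3
    · -- `p ∤ m`: `p ∣ c6'`
      have hp' : Prime (p : ℤ) := Nat.prime_iff_prime_int.mp hp
      have h1 : (p : ℤ) ∣ c6' ^ 2 := by
        have h2 : c6' ^ 2 = c4' ^ 3 - 1728 *
            (perturb W (36 * m * s) (2 * m * t + 3 * m * s * W.b₂)).Δ := by linarith
        rw [h2]
        exact dvd_sub (dvd_pow hpc4 (by norm_num)) (Dvd.dvd.mul_left hpΔ 1728)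
      exact hcop p hp hpm hpc4 (hp'.dvd_of_dvd_pow h1)

/-! ### The short model over `ℚ` -/

/-- the short Weierstrass model `y² = x³ - 27 c₄ x - 54 c₆`. -/
def shortModel {R : Type*} [CommRing R] (c4 c6 : R) : WeierstrassCurve R :=
  ⟨0, 0, 0, -27 * c4, -54 * c6⟩

theorem shortModel_c₄ {R : Type*} [CommRing R] (c4 c6 : R) :
    (shortModel c4 c6).c₄ = 6 ^ 4 * c4 := by
  simp only [shortModel, c₄, b₂, b₄]; ring

theorem shortModel_c₆ {R : Type*} [CommRing R] (c4 c6 : R) :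
    (shortModel c4 c6).c₆ = 6 ^ 6 * c6 := by
  simp only [shortModel, c₆, b₂, b₄, b₆]; ring

theorem shortModel_Δ {R : Type*} [CommRing R] (c4 c6 : R) :
    (shortModel c4 c6).Δ = 2 ^ 6 * 3 ^ 9 * (c4 ^ 3 - c6 ^ 2) := by
  simp only [shortModel, Δ, b₂, b₄, b₆, b₈]; ring

/-- the standard change of variables to the short model. -/
def toShort (W : WeierstrassCurve ℚ) : VariableChange ℚ where
  u := Units.mk0 (1 / 6) (by norm_num)
  r := -W.b₂ / 12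
  s := -W.a₁ / 2
  t := -(W.a₃ + (-W.b₂ / 12) * W.a₁) / 2

/-- **every Weierstrass curve over `ℚ` is isomorphic to its short model.** -/
theorem toShort_smul (W : WeierstrassCurve ℚ) : toShort W • W = shortModel W.c₄ W.c₆ := by
  rw [variableChange_def]
  have hu : (((toShort W).u⁻¹ : ℚˣ) : ℚ) = 6 := by
    simp [toShort]
  have hr : (toShort W).r = -W.b₂ / 12 := rfl
  have hs : (toShort W).s = -W.a₁ / 2 := rfl
  have ht : (toShort W).t = -(W.a₃ + (-W.b₂ / 12) * W.a₁) / 2 := rfl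
  rw [hu, hr, hs, ht]
  ext
  · simp only [shortModel]; ring
  · simp only [shortModel, b₂]; ring
  · simp only [shortModel]; ring
  · simp only [shortModel, c₄, b₂, b₄]; ring
  · simp only [shortModel, c₆, b₂, b₄, b₆]; ring

/-- the integral model `W'` over `ℚ` is isomorphic to the short model of its `(c₄, c₆)`. -/
theorem exists_variableChange_short (W' : WeierstrassCurve ℤ) :
    ∃ C : VariableChange ℚ, C • (W'.map (Int.castRingHom ℚ)) =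
      shortModel ((W'.c₄ : ℤ) : ℚ) ((W'.c₆ : ℤ) : ℚ) := by
  refine ⟨toShort (W'.map (Int.castRingHom ℚ)), ?_⟩
  rw [toShort_smul, map_c₄, map_c₆]
  simp

/-! ### One-parameter families: integrality, congruence and coprimality along `t = M * b` -/

section Family

open Polynomial

/-- a polynomial over `ℚ` has a common denominator: `N * g(t) ∈ ℤ` for all `t ∈ ℤ`. -/
theorem exists_den (g : ℚ[X]) :
    ∃ N : ℤ, N ≠ 0 ∧ ∀ t : ℤ, ∃ z : ℤ, (z : ℚ) = N * g.eval (t : ℚ) := by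
  classical
  obtain ⟨⟨N, hN⟩, hint⟩ := IsLocalization.exist_integer_multiples_of_finset
    (nonZeroDivisors ℤ) (g.support.image g.coeff)
  have hN0 : N ≠ 0 := nonZeroDivisors.ne_zero hN
  refine ⟨N, hN0, fun t => ?_⟩
  have hc : ∀ i ∈ g.support, ∃ z : ℤ, (z : ℚ) = N * g.coeff i := by
    intro i hi
    obtain ⟨z, hz⟩ := hint (g.coeff i) (Finset.mem_image_of_mem _ hi)
    refine ⟨z, ?_⟩
    rw [← eq_intCast (algebraMap ℤ ℚ) z, hz]
    simp [Algebra.smul_def]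
  choose! zc hzc using hc
  refine ⟨∑ i ∈ g.support, zc i * t ^ i, ?_⟩
  rw [Polynomial.eval_eq_sum, Polynomial.sum, Finset.mul_sum]
  push_cast
  refine Finset.sum_congr rfl fun i hi => ?_
  rw [hzc i hi]; ring

/-- if `g(0) = z₀ ∈ ℤ` then along `t = d * m * b` the values are integers congruent to `z₀`
modulo `m`. -/
theorem exists_den_congr (g : ℚ[X]) (z0 : ℤ) (h0 : g.eval 0 = z0) :
    ∃ d : ℤ, d ≠ 0 ∧ ∀ m b : ℤ, ∃ z : ℤ, (z : ℚ) = g.eval ((d * m * b : ℤ) : ℚ) ∧ m ∣ z - z0 := by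
  obtain ⟨d, hd0, hd⟩ := exists_den g.divX
  refine ⟨d, hd0, fun m b => ?_⟩
  obtain ⟨y, hy⟩ := hd (d * m * b)
  refine ⟨z0 + m * b * y, ?_, ⟨b * y, by ring⟩⟩
  have hg : g = g.divX * X + C (g.coeff 0) := (Polynomial.divX_mul_X_add g).symm
  have h00 : g.coeff 0 = z0 := by rw [← h0, Polynomial.coeff_zero_eq_eval_zero]
  conv_rhs => rw [hg]
  rw [eval_add, eval_mul, eval_X, eval_C, h00]
  push_cast
  rw [hy]
  push_cast
  ring

/-- **Semistable members of a one-parameter family through `W`.**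
`f4, f6 ∈ ℚ[t]` coprime with `(f4(0), f6(0)) = (c₄(W), c₆(W))`, `W` semistable, `m₀ ≠ 0`.
Then there is `M ≠ 0`, `m₀ ∣ M`, such that for EVERY `b : ℤ` with `f4(Mb)³ ≠ f6(Mb)²` there is an
integral model `W'` with `(c₄, c₆)(W') = (f4(Mb), f6(Mb))`, `W' ≡ W` modulo `m₀`,
`Δ(W') ≠ 0`, `W'` semistable. -/
theorem exists_semistable_member (W : WeierstrassCurve ℤ) (hW : W.IsSemistableModel)
    (f4 f6 : ℚ[X]) (h4 : f4.eval 0 = W.c₄) (h6 : f6.eval 0 = W.c₆) (hcop : IsCoprime f4 f6)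
    (m₀ : ℤ) (hm₀ : m₀ ≠ 0) :
    ∃ M : ℤ, M ≠ 0 ∧ m₀ ∣ M ∧ ∀ b : ℤ,
      f4.eval ((M * b : ℤ) : ℚ) ^ 3 ≠ f6.eval ((M * b : ℤ) : ℚ) ^ 2 →
      ∃ W' : WeierstrassCurve ℤ, W'.a₁ = W.a₁ ∧ W'.a₂ = W.a₂ ∧ W'.a₃ = W.a₃ ∧
        m₀ ∣ W'.a₄ - W.a₄ ∧ m₀ ∣ W'.a₆ - W.a₆ ∧
        ((W'.c₄ : ℤ) : ℚ) = f4.eval ((M * b : ℤ) : ℚ) ∧
        ((W'.c₆ : ℤ) : ℚ) = f6.eval ((M * b : ℤ) : ℚ) ∧
        W'.Δ ≡ W.Δ [ZMOD m₀] ∧ W'.Δ ≠ 0 ∧ W'.IsSemistableModel := by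
  obtain ⟨a, a', haa'⟩ := hcop
  obtain ⟨Na, hNa0, hNa⟩ := exists_den a
  obtain ⟨Nb, hNb0, hNb⟩ := exists_den a'
  obtain ⟨d4, hd40, hd4⟩ := exists_den_congr f4 W.c₄ h4
  obtain ⟨d6, hd60, hd6⟩ := exists_den_congr f6 W.c₆ h6
  -- the modulus of the congruences
  set m : ℤ := m₀ * Na * Nb with hm
  have hm0 : m ≠ 0 := mul_ne_zero (mul_ne_zero hm₀ hNa0) hNb0
  refine ⟨d4 * d6 * (1728 * m), ?_, ?_, fun b hne => ?_⟩
  · exact mul_ne_zero (mul_ne_zero hd40 hd60) (mul_ne_zero (by norm_num) hm0)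
  · exact ⟨d4 * d6 * 1728 * Na * Nb, by rw [hm]; ring⟩
  set t : ℤ := d4 * d6 * (1728 * m) * b with ht
  obtain ⟨c4', hc4', hc4m⟩ := hd4 (d6 * (1728 * m)) b
  obtain ⟨c6', hc6', hc6m⟩ := hd6 (d4 * (1728 * m)) b
  have e4 : d4 * (d6 * (1728 * m)) * b = t := by rw [ht]; ring
  have e6 : d6 * (d4 * (1728 * m)) * b = t := by rw [ht]; ring
  rw [e4] at hc4'
  rw [e6] at hc6'
  have h4m : c4' ≡ W.c₄ [ZMOD 1728 * m] := by
    rw [Int.modEq_iff_dvd]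
    have : 1728 * m ∣ c4' - W.c₄ := dvd_trans ⟨d6, by ring⟩ hc4m
    simpa using (dvd_neg.mpr this)
  have h6m : c6' ≡ W.c₆ [ZMOD 1728 * m] := by
    rw [Int.modEq_iff_dvd]
    have : 1728 * m ∣ c6' - W.c₆ := dvd_trans ⟨d4, by ring⟩ hc6m
    simpa using (dvd_neg.mpr this)
  have hne' : c4' ^ 3 ≠ c6' ^ 2 := by
    intro h
    apply hne
    rw [← hc4', ← hc6']
    exact_mod_cast h
  -- coprimality outside `m` from the Bezout identity
  obtain ⟨ya, hya⟩ := hNa t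
  obtain ⟨yb, hyb⟩ := hNb t
  have hbez : ya * Nb * c4' + yb * Na * c6' = Na * Nb := by
    have h1 := congrArg (Polynomial.eval (t : ℚ)) haa'
    rw [eval_add, eval_mul, eval_mul, eval_one, ← hc4', ← hc6'] at h1
    have h2 : ((ya * Nb * c4' + yb * Na * c6' : ℤ) : ℚ) = ((Na * Nb : ℤ) : ℚ) := by
      push_cast
      rw [hya, hyb]
      linear_combination (Na : ℚ) * Nb * h1
    exact_mod_cast h2
  have hcop' : ∀ p : ℕ, p.Prime → ¬ (p : ℤ) ∣ m → (p : ℤ) ∣ c4' → ¬ (p : ℤ) ∣ c6' := by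
    intro p hp hpm h4' h6'
    apply hpm
    have h3 : (p : ℤ) ∣ Na * Nb := by
      rw [← hbez]
      exact dvd_add (Dvd.dvd.mul_left h4' _) (Dvd.dvd.mul_left h6' _)
    rw [hm, mul_assoc]
    exact Dvd.dvd.mul_left h3 m₀
  obtain ⟨W', h1, h2, h3, h4a, h6a, hW4, hW6, hΔm, hΔ0, hss⟩ :=
    exists_semistable_model W hW m c4' c6' h4m h6m hne' hcop'
  have hm₀m : m₀ ∣ m := ⟨Na * Nb, by rw [hm]; ring⟩
  refine ⟨W', h1, h2, h3, dvd_trans hm₀m h4a, dvd_trans hm₀m h6a, ?_, ?_,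
    hΔm.of_dvd hm₀m, hΔ0, hss⟩
  · rw [hW4, hc4', ht]
  · rw [hW6, hc6', ht]

end Family

end Fermat.Agent.G35.Integral
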