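/-
GATE-Q / S52 (3–5 switch), leaf Q4(C) "ShortIso" (helper63; key S52-Q4C-SHORTISO, named OPEN in
helper60's Q4 split).

For an integral Weierstrass model `W/ℤ` the change of variables `toShort` (G35/Integral.lean,
defined over `ℚ`) identifies `W_ℚ` with the short model `y² = x³ - 27 c₄ x - 54 c₆`.  Here we turn it
into a `G_ℚ`-EQUIVARIANT additive isomorphism on `ℚ̄`-points

  `shortIso W : (shortQb W).toAffine.Point ≃+ ((W.map (Int.castRingHom ℚ))⁄ℚ̄).Point`

(the target is the prelude / `GE.ECAssembly.EQb W` shape, with its `G_ℚ`-action), where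
`shortQb W = shortModel (c₄ W : ℚ̄) (c₆ W : ℚ̄)` is a PLAIN Weierstrass curve over `ℚ̄` (no base-change
shape, hence no `MulAction`): equivariance is stated COORDINATEWISE
  `shortIso W (some (σ x) (σ y) _) = σ • shortIso W (some x y _)`.
Variants: `curveIso` for any curve `E` over `ℚ̄` with `E = shortQb W`, and `kleinIso` for Klein's
curve `kleinCurve u v` with `kc4 (u^5) (v^5) = c₄ W`, `kT (u^5) (v^5) = - c₆ W`.
All maps are given by the explicit affine formulas
  `(x, y) ↦ (x / 36 - b₂ / 12, y / 216 - a₁ x / 72 - (a₃ - a₁ b₂ / 12) / 2)`.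
Everything rests on `S05/VarChange.lean` (`vcBaseChangeEquiv`, `vcBaseChangeEquiv_map`).
-/
import Fermat.Agent.S05.VarChange
import Fermat.Agent.G35.Integral
import Fermat.Agent.G35.Klein.Forms

set_option autoImplicit false

open scoped WeierstrassCurve.Affine

namespace Fermat.Agent.G35.ShortIso

open WeierstrassCurve Fermat.Agent.G35.Integral Fermat.Agent.S05 Fermat.Agent.G35.Klein

local notation "Qb" => AlgebraicClosure ℚ
local notation "GQ" => (AlgebraicClosure ℚ ≃ₐ[ℚ] AlgebraicClosure ℚ)

/-- the short model commutes with ring homomorphisms -/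
theorem shortModel_map {R S : Type*} [CommRing R] [CommRing S] (f : R →+* S) (c4 c6 : R) :
    (shortModel c4 c6).map f = shortModel (f c4) (f c6) := by
  ext <;> simp [shortModel, WeierstrassCurve.map, map_ofNat]

/-- `W` over `ℚ` -/
abbrev WQ (W : WeierstrassCurve ℤ) : WeierstrassCurve ℚ := W.map (Int.castRingHom ℚ)

/-- the short model `y² = x³ - 27 c₄(W) x - 54 c₆(W)` as a plain Weierstrass curve over `ℚ̄`. -/
noncomputable def shortQb (W : WeierstrassCurve ℤ) : WeierstrassCurve Qb :=
  shortModel (((W.c₄ : ℤ) : Qb)) (((W.c₆ : ℤ) : Qb))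

theorem toShort_smul_baseChange (W : WeierstrassCurve ℤ) :
    (toShort (WQ W) • WQ W)⁄Qb = shortQb W := by
  rw [toShort_smul]
  show (shortModel (WQ W).c₄ (WQ W).c₆).map (algebraMap ℚ Qb) = shortQb W
  rw [shortModel_map, map_c₄, map_c₆, shortQb]
  simp

variable (W : WeierstrassCurve ℤ)

/-- **the `G_ℚ`-equivariant isomorphism from the `ℚ̄`-points of the short model to the `ℚ̄`-points
of `W`** (target = prelude shape `(W_ℚ⁄ℚ̄).Point`, i.e. `GE.ECAssembly.EQb W`). -/
noncomputable def shortIso : (shortQb W).toAffine.Point ≃+ ((WQ W)⁄Qb).Point :=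
  (pointCongr (toShort_smul_baseChange W).symm).trans
    (vcBaseChangeEquiv (K := Qb) (WQ W) (toShort (WQ W)))

@[simp] theorem shortIso_zero : shortIso W 0 = 0 := rfl

/-- explicit affine formula for `shortIso` (coefficients of `toShort (W_ℚ)`:
`u = 1/6`, `r = -b₂/12`, `s = -a₁/2`, `t = -(a₃ + r a₁)/2`). -/
theorem shortIso_some {x y : Qb} (h : (shortQb W).toAffine.Nonsingular x y) :
    ∃ h', shortIso W (.some x y h) =
      .some (algebraMap ℚ Qb ((toShort (WQ W)).u : ℚ) ^ 2 * x + algebraMap ℚ Qb (toShort (WQ W)).r)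
        (algebraMap ℚ Qb ((toShort (WQ W)).u : ℚ) ^ 3 * y
          + algebraMap ℚ Qb ((toShort (WQ W)).u : ℚ) ^ 2 * algebraMap ℚ Qb (toShort (WQ W)).s * x
          + algebraMap ℚ Qb (toShort (WQ W)).t) h' := by
  obtain ⟨h', e⟩ := vcBaseChangeEquiv_some (K := Qb) (WQ W) (toShort (WQ W))
    (x := x) (y := y) ((toShort_smul_baseChange W).symm ▸ h)
  exact ⟨h', e⟩

/-- the Galois conjugate `(σ x, σ y)` of a nonsingular point of the short model is again a
nonsingular point of the short model (its coefficients are rational). -/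
theorem nonsingular_conj (σ : GQ) {x y : Qb} (h : (shortQb W).toAffine.Nonsingular x y) :
    (shortQb W).toAffine.Nonsingular (σ x) (σ y) := by
  have h0 : ((toShort (WQ W) • WQ W)⁄Qb).toAffine.Nonsingular x y :=
    (toShort_smul_baseChange W).symm ▸ h
  have h1 := (WeierstrassCurve.Affine.baseChange_nonsingular (toShort (WQ W) • WQ W)
    (σ : Qb →ₐ[ℚ] Qb).injective x y).2 h0
  exact (toShort_smul_baseChange W) ▸ h1

/-- **coordinatewise `G_ℚ`-equivariance of `shortIso`.** -/
theorem shortIso_conj (σ : GQ) {x y : Qb} (h : (shortQb W).toAffine.Nonsingular x y) :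
    shortIso W (.some (σ x) (σ y) (nonsingular_conj W σ h)) = σ • shortIso W (.some x y h) := by
  have h0 : ((toShort (WQ W) • WQ W)⁄Qb).toAffine.Nonsingular x y :=
    (toShort_smul_baseChange W).symm ▸ h
  have key := vcBaseChangeEquiv_smul (K := Qb) (S := ℚ) (WQ W) (toShort (WQ W)) σ (.some x y h0)
  exact key

/-! ### Any curve over `ℚ̄` which equals the short model of `W` -/

section Curve

variable {W}
variable {E : WeierstrassCurve Qb} (hE : E = shortQb W)

/-- the isomorphism `E(ℚ̄) ≃+ W(ℚ̄)` for a curve `E` over `ℚ̄` equal to the short model of `W`. -/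
noncomputable def curveIso : E.toAffine.Point ≃+ ((WQ W)⁄Qb).Point :=
  (pointCongr hE).trans (shortIso W)

@[simp] theorem curveIso_zero : curveIso hE 0 = 0 := rfl

theorem curveIso_some {x y : Qb} (h : E.toAffine.Nonsingular x y) :
    curveIso hE (.some x y h) = shortIso W (.some x y (hE ▸ h)) := rfl

include hE in
/-- Galois conjugates of nonsingular points of `E` are nonsingular points of `E`. -/
theorem nonsingular_conj_of_eq (σ : GQ) {x y : Qb} (h : E.toAffine.Nonsingular x y) :
    E.toAffine.Nonsingular (σ x) (σ y) := by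
  subst hE
  exact nonsingular_conj W σ h

/-- **coordinatewise `G_ℚ`-equivariance of `curveIso`.** -/
theorem curveIso_conj (σ : GQ) {x y : Qb} (h : E.toAffine.Nonsingular x y) :
    curveIso hE (.some (σ x) (σ y) (nonsingular_conj_of_eq hE σ h)) =
      σ • curveIso hE (.some x y h) := by
  subst hE
  exact shortIso_conj W σ h

/-- the coordinatewise Galois conjugation on the points of `E`, as an additive automorphism
(transport of the `G_ℚ`-action on `W(ℚ̄)` through `curveIso`). -/
noncomputable def conjPoint (σ : GQ) : E.toAffine.Point ≃+ E.toAffine.Point :=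
  ((curveIso hE).trans
    (DistribMulAction.toAddEquiv ((WQ W)⁄Qb).Point σ)).trans (curveIso hE).symm

theorem curveIso_conjPoint (σ : GQ) (P : E.toAffine.Point) :
    curveIso hE (conjPoint hE σ P) = σ • curveIso hE P := by
  simp [conjPoint]

@[simp] theorem conjPoint_zero (σ : GQ) : conjPoint hE σ 0 = 0 := map_zero _

theorem conjPoint_some (σ : GQ) {x y : Qb} (h : E.toAffine.Nonsingular x y) :
    conjPoint hE σ (.some x y h) = .some (σ x) (σ y) (nonsingular_conj_of_eq hE σ h) := by
  apply (curveIso hE).injective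
  rw [curveIso_conjPoint, curveIso_conj]

theorem conjPoint_mul (σ τ : GQ) (P : E.toAffine.Point) :
    conjPoint hE (σ * τ) P = conjPoint hE σ (conjPoint hE τ P) := by
  apply (curveIso hE).injective
  rw [curveIso_conjPoint, curveIso_conjPoint, curveIso_conjPoint, mul_smul]

@[simp] theorem conjPoint_one (P : E.toAffine.Point) : conjPoint hE 1 P = P := by
  apply (curveIso hE).injective
  rw [curveIso_conjPoint, one_smul]

/-- `curveIso` transports `n`-torsion both ways. -/
theorem nsmul_curveIso_eq_zero_iff (n : ℕ) (P : E.toAffine.Point) :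
    n • curveIso hE P = 0 ↔ n • P = 0 := by
  rw [← map_nsmul, AddEquivClass.map_eq_zero_iff]

/-- the equivariance in "transport" form: for a point `Q` of `W(ℚ̄)`,
`curveIso⁻¹ (σ • Q) = conjPoint σ (curveIso⁻¹ Q)`. -/
theorem curveIso_symm_smul (σ : GQ) (Q : ((WQ W)⁄Qb).Point) :
    (curveIso hE).symm (σ • Q) = conjPoint hE σ ((curveIso hE).symm Q) := by
  apply (curveIso hE).injective
  rw [curveIso_conjPoint, AddEquiv.apply_symm_apply, AddEquiv.apply_symm_apply]

end Curve

/-! ### Klein's curve -/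

section Klein

variable {W}

/-- Klein's curve `kleinCurve u v` is the short model of `W` as soon as
`kc4 (u^5) (v^5) = c₄(W)` and `kT (u^5) (v^5) = - c₆(W)`. -/
theorem kleinCurve_eq_shortQb {u v : Qb} (h4 : kc4 (u ^ 5) (v ^ 5) = ((W.c₄ : ℤ) : Qb))
    (h6 : kT (u ^ 5) (v ^ 5) = -((W.c₆ : ℤ) : Qb)) : kleinCurve u v = shortQb W := by
  unfold kleinCurve kleinCurveUV shortQb shortModel
  rw [h4, h6]
  ext <;> simp

/-- the `UV`-form: `kleinCurveUV U V` is the short model of `W` as soon as
`kc4 U V = c₄(W)` and `kT U V = - c₆(W)`. -/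
theorem kleinCurveUV_eq_shortQb {U V : Qb} (h4 : kc4 U V = ((W.c₄ : ℤ) : Qb))
    (h6 : kT U V = -((W.c₆ : ℤ) : Qb)) : kleinCurveUV U V = shortQb W := by
  unfold kleinCurveUV shortQb shortModel
  rw [h4, h6]
  ext <;> simp

/-- **the `G_ℚ`-equivariant isomorphism from the points of Klein's curve at `w = (u, v)` in the
fibre over `(c₄(W), -c₆(W))` to `W(ℚ̄)`.** -/
noncomputable def kleinIso {u v : Qb} (h4 : kc4 (u ^ 5) (v ^ 5) = ((W.c₄ : ℤ) : Qb))
    (h6 : kT (u ^ 5) (v ^ 5) = -((W.c₆ : ℤ) : Qb)) :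
    (kleinCurve u v).toAffine.Point ≃+ ((WQ W)⁄Qb).Point :=
  curveIso (kleinCurve_eq_shortQb h4 h6)

theorem kleinIso_conj {u v : Qb} (h4 : kc4 (u ^ 5) (v ^ 5) = ((W.c₄ : ℤ) : Qb))
    (h6 : kT (u ^ 5) (v ^ 5) = -((W.c₆ : ℤ) : Qb)) (σ : GQ) {x y : Qb}
    (h : (kleinCurve u v).toAffine.Nonsingular x y) :
    kleinIso h4 h6 (.some (σ x) (σ y)
        (nonsingular_conj_of_eq (kleinCurve_eq_shortQb h4 h6) σ h)) =
      σ • kleinIso h4 h6 (.some x y h) :=
  curveIso_conj _ σ h

end Klein

end Fermat.Agent.G35.ShortIso
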