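/-
GATE-Q / S52-Q3A-600 (helper60): the fibres of a pair of binary forms of degrees `dA < dB`
with `k * dA = l * dB` are finite of cardinality at most `(k * dA) * (dB - dA)`.

For Klein's icosahedral forms `c4` (degree 20 in `(u,v)`) and `T` (degree 30) this is the bound
`#{w : c4 w = c ∧ T w = t} ≤ 60 * 10 = 600` for `c ≠ 0`, `t ≠ 0`, `c ^ 3 ≠ t ^ 2`.

The forms enter only through their monic dehomogenisations `P`, `Q`:
`A u v = v ^ dA * P.eval (u / v)` for `v ≠ 0` and `A u 0 = u ^ dA` (same for `B`, `Q`, `dB`).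
Mathlib only.
-/
import Mathlib

set_option autoImplicit false

namespace Fermat.Agent.G35.Fibre600

open Polynomial

variable {K : Type*} [Field K]

/-- The polynomial `t ^ l * P ^ k - c ^ k * Q ^ l`: every ratio `u / v` of a point of the fibre is a
root of it. -/
noncomputable def ratioPoly (P Q : K[X]) (k l : ℕ) (c t : K) : K[X] :=
  C (t ^ l) * P ^ k - C (c ^ k) * Q ^ l

theorem ratioPoly_eval (P Q : K[X]) (k l : ℕ) (c t r : K) :
    (ratioPoly P Q k l c t).eval r = t ^ l * P.eval r ^ k - c ^ k * Q.eval r ^ l := by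
  simp [ratioPoly]

theorem natDegree_ratioPoly_le {P Q : K[X]} {k l dA dB : ℕ} (hP : P.natDegree = dA)
    (hQ : Q.natDegree = dB) (hkl : k * dA = l * dB) (c t : K) :
    (ratioPoly P Q k l c t).natDegree ≤ k * dA := by
  unfold ratioPoly
  refine (natDegree_sub_le _ _).trans (max_le ?_ ?_)
  · refine (natDegree_C_mul_le _ _).trans ?_
    refine natDegree_pow_le.trans ?_
    rw [hP]
  · refine (natDegree_C_mul_le _ _).trans ?_
    refine natDegree_pow_le.trans ?_
    rw [hQ, hkl]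

theorem ratioPoly_ne_zero {P Q : K[X]} (hPm : P.Monic) (hQm : Q.Monic) {k l dA dB : ℕ}
    (hP : P.natDegree = dA) (hQ : Q.natDegree = dB) (hkl : k * dA = l * dB) {c t : K}
    (hct : c ^ k ≠ t ^ l) : ratioPoly P Q k l c t ≠ 0 := by
  intro h0
  have h1 : (ratioPoly P Q k l c t).coeff (k * dA) = t ^ l - c ^ k := by
    unfold ratioPoly
    rw [coeff_sub, coeff_C_mul, coeff_C_mul]
    have e1 : (P ^ k).coeff (k * dA) = 1 := by
      have hm : (P ^ k).Monic := hPm.pow k
      have hd : (P ^ k).natDegree = k * dA := by rw [hPm.natDegree_pow, hP]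
      rw [← hd]
      exact hm.coeff_natDegree
    have e2 : (Q ^ l).coeff (k * dA) = 1 := by
      have hm : (Q ^ l).Monic := hQm.pow l
      have hd : (Q ^ l).natDegree = k * dA := by rw [hQm.natDegree_pow, hQ, hkl]
      rw [← hd]
      exact hm.coeff_natDegree
    rw [e1, e2, mul_one, mul_one]
  rw [h0, coeff_zero] at h1
  exact hct (sub_eq_zero.mp h1.symm).symm

section fibre

variable {P Q : K[X]} {k l dA dB : ℕ} {A B : K → K → K} {c t : K}

/-- Points of the fibre have `v ≠ 0`. -/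
theorem snd_ne_zero_of_mem (hkl : k * dA = l * dB) (hA0 : ∀ u, A u 0 = u ^ dA)
    (hB0 : ∀ u, B u 0 = u ^ dB) (hct : c ^ k ≠ t ^ l) {u v : K} (h1 : A u v = c)
    (h2 : B u v = t) : v ≠ 0 := by
  rintro rfl
  rw [hA0] at h1
  rw [hB0] at h2
  apply hct
  rw [← h1, ← h2, ← pow_mul, ← pow_mul, mul_comm dA k, mul_comm dB l, hkl]

/-- The ratio `u / v` of a point of the fibre is a root of `ratioPoly`. -/
theorem ratio_isRoot (hkl : k * dA = l * dB)
    (hA : ∀ u v, v ≠ 0 → A u v = v ^ dA * P.eval (u / v))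
    (hB : ∀ u v, v ≠ 0 → B u v = v ^ dB * Q.eval (u / v)) {u v : K} (hv : v ≠ 0)
    (h1 : A u v = c) (h2 : B u v = t) : (ratioPoly P Q k l c t).IsRoot (u / v) := by
  rw [IsRoot.def, ratioPoly_eval, ← h1, ← h2, hA u v hv, hB u v hv, mul_pow, mul_pow,
    ← pow_mul, ← pow_mul, mul_comm dA k, mul_comm dB l, hkl]
  ring

/-- `v ^ (dB - dA)` is determined by the ratio. -/
theorem pow_sub_eq (hAB : dA ≤ dB)
    (hA : ∀ u v, v ≠ 0 → A u v = v ^ dA * P.eval (u / v))
    (hB : ∀ u v, v ≠ 0 → B u v = v ^ dB * Q.eval (u / v)) (hc : c ≠ 0) (ht : t ≠ 0) {u v : K}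
    (hv : v ≠ 0) (h1 : A u v = c) (h2 : B u v = t) :
    v ^ (dB - dA) = t * P.eval (u / v) / (c * Q.eval (u / v)) := by
  have e1 := hA u v hv
  have e2 := hB u v hv
  rw [h1] at e1
  rw [h2] at e2
  have hQ0 : Q.eval (u / v) ≠ 0 := by
    intro h0
    rw [h0, mul_zero] at e2
    exact ht e2
  have hcQ : c * Q.eval (u / v) ≠ 0 := mul_ne_zero hc hQ0
  rw [eq_div_iff hcQ, e1, e2]
  have hpow : v ^ dB = v ^ (dB - dA) * v ^ dA := by
    rw [← pow_add, Nat.sub_add_cancel hAB]
  rw [hpow]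
  ring

end fibre

open Classical in
/-- **Fibre bound.** -/
theorem fibre_finite_ncard_le {P Q : K[X]} (hPm : P.Monic) (hQm : Q.Monic) {k l dA dB : ℕ}
    (hP : P.natDegree = dA) (hQ : Q.natDegree = dB) (hAB : dA < dB) (hkl : k * dA = l * dB)
    {A B : K → K → K}
    (hA : ∀ u v, v ≠ 0 → A u v = v ^ dA * P.eval (u / v)) (hA0 : ∀ u, A u 0 = u ^ dA)
    (hB : ∀ u v, v ≠ 0 → B u v = v ^ dB * Q.eval (u / v)) (hB0 : ∀ u, B u 0 = u ^ dB)
    {c t : K} (hc : c ≠ 0) (ht : t ≠ 0) (hct : c ^ k ≠ t ^ l) :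
    {w : K × K | A w.1 w.2 = c ∧ B w.1 w.2 = t}.Finite ∧
      {w : K × K | A w.1 w.2 = c ∧ B w.1 w.2 = t}.ncard ≤ (k * dA) * (dB - dA) := by
  set R := ratioPoly P Q k l c t with hR
  have hR0 : R ≠ 0 := ratioPoly_ne_zero hPm hQm hP hQ hkl hct
  have he : 0 < dB - dA := Nat.sub_pos_of_lt hAB
  set S : Finset (K × K) :=
    R.roots.toFinset.biUnion fun r =>
      ((nthRoots (dB - dA) (t * P.eval r / (c * Q.eval r))).toFinset).image fun v => (r * v, v)
    with hS
  have hsub : {w : K × K | A w.1 w.2 = c ∧ B w.1 w.2 = t} ⊆ (S : Set (K × K)) := by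
    rintro ⟨u, v⟩ ⟨h1, h2⟩
    have h1' : A u v = c := h1
    have h2' : B u v = t := h2
    have hv : v ≠ 0 := snd_ne_zero_of_mem hkl hA0 hB0 hct h1' h2'
    have hroot : R.IsRoot (u / v) := ratio_isRoot hkl hA hB hv h1' h2'
    have hpow := pow_sub_eq hAB.le hA hB hc ht hv h1' h2'
    rw [Finset.mem_coe, hS, Finset.mem_biUnion]
    refine ⟨u / v, ?_, ?_⟩
    · rw [Multiset.mem_toFinset, mem_roots hR0]
      exact hroot
    · rw [Finset.mem_image]
      refine ⟨v, ?_, ?_⟩
      · rw [Multiset.mem_toFinset, mem_nthRoots he]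
        exact hpow
      · rw [div_mul_cancel₀ u hv]
  have hcard : S.card ≤ (k * dA) * (dB - dA) := by
    rw [hS]
    refine Finset.card_biUnion_le.trans ?_
    have h1 : ∀ r ∈ R.roots.toFinset,
        (((nthRoots (dB - dA) (t * P.eval r / (c * Q.eval r))).toFinset).image
          fun v => (r * v, v)).card ≤ dB - dA := by
      intro r _
      refine Finset.card_image_le.trans ?_
      refine (Multiset.toFinset_card_le _).trans ?_
      exact card_nthRoots _ _
    refine (Finset.sum_le_card_nsmul _ _ _ h1).trans ?_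
    rw [smul_eq_mul]
    refine Nat.mul_le_mul_right _ ?_
    refine (Multiset.toFinset_card_le _).trans ?_
    refine (card_roots' R).trans ?_
    exact natDegree_ratioPoly_le hP hQ hkl c t
  refine ⟨S.finite_toSet.subset hsub, ?_⟩
  refine (Set.ncard_le_ncard hsub S.finite_toSet).trans ?_
  rw [Set.ncard_coe_finset]
  exact hcard

end Fermat.Agent.G35.Fibre600
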