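/-
GATE-Q / S52-Q3D-NONEMPTY (helper60), generic part: over an algebraically closed field the fibre
of a pair of binary forms `(A, B)` of degrees `l * g`, `(l + 1) * g` whose monic dehomogenisations
`P`, `Q` have no common root is NON-EMPTY over every `(c, t)` with `c ≠ 0`, `t ≠ 0`,
`c ^ (l + 1) ≠ t ^ l`.

Klein instance: `l = 2`, `g = 10` (degrees 20 and 30).
Mathlib only.
-/
import Mathlib

set_option autoImplicit false

namespace Fermat.Agent.G35.FibreNonempty

open Polynomial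

variable {K : Type*} [Field K]

/-- The polynomial `t ^ l * P ^ (l + 1) - c ^ (l + 1) * Q ^ l`. -/
noncomputable def ratioPoly' (P Q : K[X]) (l : ℕ) (c t : K) : K[X] :=
  C (t ^ l) * P ^ (l + 1) - C (c ^ (l + 1)) * Q ^ l

theorem ratioPoly'_eval (P Q : K[X]) (l : ℕ) (c t r : K) :
    (ratioPoly' P Q l c t).eval r =
      t ^ l * P.eval r ^ (l + 1) - c ^ (l + 1) * Q.eval r ^ l := by
  simp [ratioPoly']

/-- The coefficient of `ratioPoly'` in degree `(l + 1) * (l * g)` is `t ^ l - c ^ (l + 1)`. -/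
theorem ratioPoly'_coeff {P Q : K[X]} (hPm : P.Monic) (hQm : Q.Monic) {l g : ℕ}
    (hP : P.natDegree = l * g) (hQ : Q.natDegree = (l + 1) * g) (c t : K) :
    (ratioPoly' P Q l c t).coeff ((l + 1) * (l * g)) = t ^ l - c ^ (l + 1) := by
  unfold ratioPoly'
  rw [coeff_sub, coeff_C_mul, coeff_C_mul]
  have e1 : (P ^ (l + 1)).coeff ((l + 1) * (l * g)) = 1 := by
    have hm : (P ^ (l + 1)).Monic := hPm.pow _
    have hd : (P ^ (l + 1)).natDegree = (l + 1) * (l * g) := by rw [hPm.natDegree_pow, hP]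
    rw [← hd]
    exact hm.coeff_natDegree
  have e2 : (Q ^ l).coeff ((l + 1) * (l * g)) = 1 := by
    have hm : (Q ^ l).Monic := hQm.pow _
    have hd : (Q ^ l).natDegree = (l + 1) * (l * g) := by
      rw [hQm.natDegree_pow, hQ]; ring
    rw [← hd]
    exact hm.coeff_natDegree
  rw [e1, e2, mul_one, mul_one]

/-- `ratioPoly'` is not constant. -/
theorem ratioPoly'_degree_ne_zero {P Q : K[X]} (hPm : P.Monic) (hQm : Q.Monic) {l g : ℕ}
    (hl : 0 < l) (hg : 0 < g) (hP : P.natDegree = l * g) (hQ : Q.natDegree = (l + 1) * g)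
    {c t : K} (hct : c ^ (l + 1) ≠ t ^ l) : (ratioPoly' P Q l c t).degree ≠ 0 := by
  intro h0
  have hpos : 0 < (l + 1) * (l * g) := Nat.mul_pos (Nat.succ_pos l) (Nat.mul_pos hl hg)
  have hc0 : (ratioPoly' P Q l c t).coeff ((l + 1) * (l * g)) = 0 := by
    apply coeff_eq_zero_of_degree_lt
    rw [h0]
    exact_mod_cast hpos
  rw [ratioPoly'_coeff hPm hQm hP hQ] at hc0
  exact hct (sub_eq_zero.mp hc0).symm

/-- **Non-emptiness of the fibre** over an algebraically closed field. -/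
theorem exists_mem_fibre [IsAlgClosed K] {P Q : K[X]} (hPm : P.Monic) (hQm : Q.Monic) {l g : ℕ}
    (hl : 0 < l) (hg : 0 < g) (hP : P.natDegree = l * g) (hQ : Q.natDegree = (l + 1) * g)
    (hcop : ∀ r : K, P.eval r = 0 → Q.eval r = 0 → False)
    {A B : K → K → K}
    (hA : ∀ u v, v ≠ 0 → A u v = v ^ (l * g) * P.eval (u / v))
    (hB : ∀ u v, v ≠ 0 → B u v = v ^ ((l + 1) * g) * Q.eval (u / v))
    {c t : K} (hc : c ≠ 0) (ht : t ≠ 0) (hct : c ^ (l + 1) ≠ t ^ l) :
    ∃ u v : K, v ≠ 0 ∧ A u v = c ∧ B u v = t := by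
  obtain ⟨r, hr⟩ := IsAlgClosed.exists_root (ratioPoly' P Q l c t)
    (ratioPoly'_degree_ne_zero hPm hQm hl hg hP hQ hct)
  rw [IsRoot.def, ratioPoly'_eval, sub_eq_zero] at hr
  set p := P.eval r with hp
  set q := Q.eval r with hq
  have hq0 : q ≠ 0 := by
    intro h0
    rw [h0, zero_pow hl.ne', mul_zero] at hr
    have : p ^ (l + 1) = 0 := by
      rcases mul_eq_zero.mp hr with h | h
      · exact absurd (pow_eq_zero_iff hl.ne' |>.mp h) ht
      · exact h
    exact hcop r (pow_eq_zero_iff (Nat.succ_ne_zero l) |>.mp this) h0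
  have hp0 : p ≠ 0 := by
    intro h0
    rw [h0, zero_pow (Nat.succ_ne_zero l), mul_zero] at hr
    rcases mul_eq_zero.mp hr.symm with h | h
    · exact hc (pow_eq_zero_iff (Nat.succ_ne_zero l) |>.mp h)
    · exact hq0 (pow_eq_zero_iff hl.ne' |>.mp h)
  have hcq : c * q ≠ 0 := mul_ne_zero hc hq0
  obtain ⟨v, hv⟩ := IsAlgClosed.exists_pow_nat_eq (t * p / (c * q)) hg
  have hv0 : v ≠ 0 := by
    rintro rfl
    rw [zero_pow hg.ne'] at hv
    exact div_ne_zero (mul_ne_zero ht hp0) hcq hv.symm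
  have hdiv : r * v / v = r := mul_div_cancel_right₀ r hv0
  refine ⟨r * v, v, hv0, ?_, ?_⟩
  · rw [hA _ _ hv0, hdiv, ← hp, mul_comm l g, pow_mul, hv, div_pow, div_mul_eq_mul_div,
      div_eq_iff (pow_ne_zero _ hcq)]
    linear_combination hr
  · rw [hB _ _ hv0, hdiv, ← hq, mul_comm (l + 1) g, pow_mul, hv, div_pow, div_mul_eq_mul_div,
      div_eq_iff (pow_ne_zero _ hcq)]
    linear_combination (t * q) * hr

end Fermat.Agent.G35.FibreNonempty
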