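/-
GATE-Q / S52-Q3D-NONEMPTY (helper60), Klein instance: the fibres of `(c4, T6)` (Klein's forms of
degrees 20 and 30, as in `G35/Free.lean`) over `(c, t)` with `c ≠ 0`, `t ≠ 0`, `c ^ 3 ≠ t ^ 2`

* are finite with at most `600` points (any field);
* are non-empty over an algebraically closed field of characteristic `0`.
-/
import Fermat.Agent.G35.Fibre600
import Fermat.Agent.G35.FibreNonempty
import Fermat.Agent.G35.Free

set_option autoImplicit false

namespace Fermat.Agent.G35.FibreKlein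

open Polynomial Fermat.Agent.G35.Free

variable {K : Type*} [Field K]

/-- `c4 (X, 1)` -/
noncomputable def P20 : K[X] :=
  X ^ 20 + (-(C 228 * X ^ 15) + C 494 * X ^ 10 + C 228 * X ^ 5 + C 1)

/-- `T6 (X, 1)` -/
noncomputable def Q30 : K[X] :=
  X ^ 30 + (C 522 * X ^ 25 - C 10005 * X ^ 20 - C 10005 * X ^ 10 - C 522 * X ^ 5 + C 1)

theorem P20_eval (r : K) :
    (P20 : K[X]).eval r = r ^ 20 - 228 * r ^ 15 + 494 * r ^ 10 + 228 * r ^ 5 + 1 := by
  simp [P20]; ring

theorem Q30_eval (r : K) :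
    (Q30 : K[X]).eval r =
      r ^ 30 + 522 * r ^ 25 - 10005 * r ^ 20 - 10005 * r ^ 10 - 522 * r ^ 5 + 1 := by
  simp [Q30]; ring

theorem P20_lower_natDegree_le :
    (-(C (228 : K) * X ^ 15) + C 494 * X ^ 10 + C 228 * X ^ 5 + C 1 : K[X]).natDegree ≤ 15 := by
  compute_degree

theorem Q30_lower_natDegree_le :
    (C (522 : K) * X ^ 25 - C 10005 * X ^ 20 - C 10005 * X ^ 10 - C 522 * X ^ 5 + C 1 :
      K[X]).natDegree ≤ 25 := by
  compute_degree

theorem P20_monic : (P20 : K[X]).Monic := by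
  unfold P20
  apply monic_X_pow_add
  refine lt_of_le_of_lt (degree_le_of_natDegree_le P20_lower_natDegree_le) ?_
  exact_mod_cast (by norm_num : (15 : ℕ) < 20)

theorem Q30_monic : (Q30 : K[X]).Monic := by
  unfold Q30
  apply monic_X_pow_add
  refine lt_of_le_of_lt (degree_le_of_natDegree_le Q30_lower_natDegree_le) ?_
  exact_mod_cast (by norm_num : (25 : ℕ) < 30)

theorem P20_natDegree : (P20 : K[X]).natDegree = 20 := by
  unfold P20
  rw [natDegree_add_eq_left_of_natDegree_lt, natDegree_X_pow]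
  rw [natDegree_X_pow]
  exact lt_of_le_of_lt P20_lower_natDegree_le (by norm_num)

theorem Q30_natDegree : (Q30 : K[X]).natDegree = 30 := by
  unfold Q30
  rw [natDegree_add_eq_left_of_natDegree_lt, natDegree_X_pow]
  rw [natDegree_X_pow]
  exact lt_of_le_of_lt Q30_lower_natDegree_le (by norm_num)

theorem c4_dehom (u v : K) (hv : v ≠ 0) : c4 u v = v ^ 20 * (P20 : K[X]).eval (u / v) := by
  rw [P20_eval]
  unfold c4
  field_simp
  ring

theorem T6_dehom (u v : K) (hv : v ≠ 0) : T6 u v = v ^ 30 * (Q30 : K[X]).eval (u / v) := by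
  rw [Q30_eval]
  unfold T6
  field_simp
  ring

theorem c4_zero_right (u : K) : c4 u 0 = u ^ 20 := by
  unfold c4; ring

theorem T6_zero_right (u : K) : T6 u 0 = u ^ 30 := by
  unfold T6; ring

/-- The Klein fibre over `(c, t)`. -/
def kleinFibre (c t : K) : Set (K × K) := {w | c4 w.1 w.2 = c ∧ T6 w.1 w.2 = t}

theorem mem_kleinFibre {c t : K} {w : K × K} :
    w ∈ kleinFibre c t ↔ c4 w.1 w.2 = c ∧ T6 w.1 w.2 = t := Iff.rfl

/-- **Q3(a), Klein instance**: the fibre is finite with at most `600` points. -/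
theorem kleinFibre_finite_ncard_le {c t : K} (hc : c ≠ 0) (ht : t ≠ 0) (hct : c ^ 3 ≠ t ^ 2) :
    (kleinFibre c t).Finite ∧ (kleinFibre c t).ncard ≤ 600 := by
  have h := Fermat.Agent.G35.Fibre600.fibre_finite_ncard_le (K := K) (P := P20) (Q := Q30)
    P20_monic Q30_monic (k := 3) (l := 2) (dA := 20) (dB := 30) P20_natDegree Q30_natDegree
    (by norm_num) (by norm_num) (A := c4) (B := T6) c4_dehom c4_zero_right T6_dehom T6_zero_right
    hc ht hct
  exact h

theorem kleinFibre_finite {c t : K} (hc : c ≠ 0) (ht : t ≠ 0) (hct : c ^ 3 ≠ t ^ 2) :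
    (kleinFibre c t).Finite := (kleinFibre_finite_ncard_le hc ht hct).1

theorem kleinFibre_ncard_le {c t : K} (hc : c ≠ 0) (ht : t ≠ 0) (hct : c ^ 3 ≠ t ^ 2) :
    (kleinFibre c t).ncard ≤ 600 := (kleinFibre_finite_ncard_le hc ht hct).2

/-- `c4 (X, 1)` and `T6 (X, 1)` have no common root (characteristic `0`). -/
theorem P20_Q30_no_common_root [CharZero K] (r : K) (h1 : (P20 : K[X]).eval r = 0)
    (h2 : (Q30 : K[X]).eval r = 0) : False := by
  rw [P20_eval] at h1
  rw [Q30_eval] at h2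
  set s := r ^ 5 with hs
  have h1' : s ^ 4 - 228 * s ^ 3 + 494 * s ^ 2 + 228 * s + 1 = 0 := by
    rw [hs]; linear_combination h1
  have h2' : s ^ 6 + 522 * s ^ 5 - 10005 * s ^ 4 - 10005 * s ^ 2 - 522 * s + 1 = 0 := by
    rw [hs]; linear_combination h2
  -- syzygy at `(s, 1)`
  have hsyz : (1728 : K) * (s * (s ^ 2 + 11 * s - 1) ^ 5) = 0 := by
    linear_combination
      (-(s ^ 4 - 228 * s ^ 3 + 494 * s ^ 2 + 228 * s + 1) ^ 2) * h1'
        + (s ^ 6 + 522 * s ^ 5 - 10005 * s ^ 4 - 10005 * s ^ 2 - 522 * s + 1) * h2'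
  have h1728 : (1728 : K) ≠ 0 := by norm_num
  rcases mul_eq_zero.mp (mul_eq_zero.mp hsyz |>.resolve_left h1728) with h0 | h0
  · rw [h0] at h1'
    norm_num at h1'
  · have hq : s ^ 2 + 11 * s - 1 = 0 := pow_eq_zero_iff (by norm_num) |>.mp h0
    have h3 : (3125 : K) * (1 - 11 * s) = 0 := by
      linear_combination h1' - (s ^ 2 - 239 * s + 3124) * hq
    have h3125 : (3125 : K) ≠ 0 := by norm_num
    have h4 : 1 - 11 * s = 0 := (mul_eq_zero.mp h3).resolve_left h3125
    have h5 : s ^ 2 = 0 := by linear_combination hq + h4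
    have h6 : s = 0 := pow_eq_zero_iff (by norm_num) |>.mp h5
    rw [h6] at h4
    norm_num at h4

/-- **Non-emptiness of the Klein fibre** over an algebraically closed field of characteristic
`0`. -/
theorem kleinFibre_nonempty [IsAlgClosed K] [CharZero K] {c t : K} (hc : c ≠ 0) (ht : t ≠ 0)
    (hct : c ^ 3 ≠ t ^ 2) : ∃ u v : K, v ≠ 0 ∧ c4 u v = c ∧ T6 u v = t := by
  exact Fermat.Agent.G35.FibreNonempty.exists_mem_fibre (K := K) (P := P20) (Q := Q30)
    P20_monic Q30_monic (l := 2) (g := 10) (by norm_num) (by norm_num) P20_natDegree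
    Q30_natDegree P20_Q30_no_common_root (A := c4) (B := T6) c4_dehom T6_dehom hc ht hct

theorem kleinFibre_nonempty' [IsAlgClosed K] [CharZero K] {c t : K} (hc : c ≠ 0) (ht : t ≠ 0)
    (hct : c ^ 3 ≠ t ^ 2) : (kleinFibre c t).Nonempty := by
  obtain ⟨u, v, _, h1, h2⟩ := kleinFibre_nonempty hc ht hct
  exact ⟨(u, v), h1, h2⟩

/-- Points of the Klein fibre are off the cone `f12 = 0`. -/
theorem f12_ne_zero_of_mem {c t : K} (hct : c ^ 3 ≠ t ^ 2) {w : K × K} (hw : w ∈ kleinFibre c t) :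
    f12 w.1 w.2 ≠ 0 := by
  intro h0
  have hs := syzygy w.1 w.2
  rw [hw.1, hw.2, h0] at hs
  apply hct
  have : c ^ 3 - t ^ 2 = 0 := by rw [hs]; ring
  exact sub_eq_zero.mp this

end Fermat.Agent.G35.FibreKlein
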