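/-
GATE-Q / S52-Q3B-TRANS (helper60): abstract form of node Q3(b).

A group `Γ` acts on `X`; `F ⊆ X` is a finite set stable under a generating set `gens`; a
labelling `B : X → Y` is equivariant on generators, `B (g • x) = m g • B x`, for an action of a
finite group `H` on `Y`; the labels `m g` generate `H`; `H` acts freely at `B w0`; a twist `z`
(in the closure of `gens`) leaves `B` unchanged and `z ^ k • x ≠ x` for `0 < k < n`.
If `F` has at most `n * card H` elements, the closure-orbit of `w0` is the whole of `F`.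

Klein instance: `X = Qb × Qb`, `F` the fibre of `(c4, T)`, `gens = {S, T~, Z}`, `H = SL2(F5)`,
`B w = (P0 w, Q0 w)`, `z = Z`, `n = 5`, bound `600`.
Mathlib only.
-/
import Mathlib

set_option autoImplicit false

namespace Fermat.Agent.G35.OrbitCount

variable {Γ X H Y : Type*} [Group Γ] [MulAction Γ X] [Group H] [MulAction H Y]

section closure

variable {gens : Set Γ} {m : Γ → H} {F : Set X} {B : X → Y}

/-- A set stable (in the `↔` sense) under generators is stable under the closure. -/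
theorem mem_iff_of_mem_closure (hF : ∀ g ∈ gens, ∀ x, g • x ∈ F ↔ x ∈ F) {γ : Γ}
    (hγ : γ ∈ Subgroup.closure gens) (x : X) : γ • x ∈ F ↔ x ∈ F := by
  induction hγ using Subgroup.closure_induction generalizing x with
  | mem g hg => exact hF g hg x
  | one => rw [one_smul]
  | mul a b _ _ iha ihb => rw [mul_smul, iha, ihb]
  | inv a _ iha => rw [← iha (a⁻¹ • x), smul_inv_smul]

/-- Generator induction: every element of the closure acts on labels through some element of
the closure of the generator labels. -/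
theorem exists_label_of_mem_closure (hF : ∀ g ∈ gens, ∀ x, g • x ∈ F ↔ x ∈ F)
    (hB : ∀ g ∈ gens, ∀ x ∈ F, B (g • x) = m g • B x) {γ : Γ}
    (hγ : γ ∈ Subgroup.closure gens) :
    ∃ M ∈ Subgroup.closure (m '' gens), ∀ x ∈ F, B (γ • x) = M • B x := by
  induction hγ using Subgroup.closure_induction with
  | mem g hg =>
    exact ⟨m g, Subgroup.subset_closure ⟨g, hg, rfl⟩, hB g hg⟩
  | one =>
    exact ⟨1, Subgroup.one_mem _, fun x _ => by rw [one_smul, one_smul]⟩
  | mul a b _ hb iha ihb =>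
    obtain ⟨Ma, hMa, ha'⟩ := iha
    obtain ⟨Mb, hMb, hb'⟩ := ihb
    refine ⟨Ma * Mb, Subgroup.mul_mem _ hMa hMb, fun x hx => ?_⟩
    have hbx : b • x ∈ F := (mem_iff_of_mem_closure hF hb x).mpr hx
    rw [mul_smul, ha' _ hbx, hb' _ hx, mul_smul]
  | inv a ha iha =>
    obtain ⟨Ma, hMa, ha'⟩ := iha
    refine ⟨Ma⁻¹, Subgroup.inv_mem _ hMa, fun x hx => ?_⟩
    have hax : a⁻¹ • x ∈ F :=
      (mem_iff_of_mem_closure hF (Subgroup.inv_mem _ ha) x).mpr hx
    have h1 := ha' _ hax
    rw [smul_inv_smul] at h1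
    rw [h1, inv_smul_smul]

/-- Every element of the closure of the generator labels is the label of an element of the
closure of the generators. -/
theorem exists_mem_closure_of_label (hF : ∀ g ∈ gens, ∀ x, g • x ∈ F ↔ x ∈ F)
    (hB : ∀ g ∈ gens, ∀ x ∈ F, B (g • x) = m g • B x) {M : H}
    (hM : M ∈ Subgroup.closure (m '' gens)) :
    ∃ γ ∈ Subgroup.closure gens, ∀ x ∈ F, B (γ • x) = M • B x := by
  induction hM using Subgroup.closure_induction with
  | mem M hM =>
    obtain ⟨g, hg, rfl⟩ := hM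
    exact ⟨g, Subgroup.subset_closure hg, hB g hg⟩
  | one =>
    exact ⟨1, Subgroup.one_mem _, fun x _ => by rw [one_smul, one_smul]⟩
  | mul a b _ _ iha ihb =>
    obtain ⟨γa, hγa, ha'⟩ := iha
    obtain ⟨γb, hγb, hb'⟩ := ihb
    refine ⟨γa * γb, Subgroup.mul_mem _ hγa hγb, fun x hx => ?_⟩
    have hbx : γb • x ∈ F := (mem_iff_of_mem_closure hF hγb x).mpr hx
    rw [mul_smul, ha' _ hbx, hb' _ hx, mul_smul]
  | inv a _ iha =>
    obtain ⟨γa, hγa, ha'⟩ := iha
    refine ⟨γa⁻¹, Subgroup.inv_mem _ hγa, fun x hx => ?_⟩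
    have hax : γa⁻¹ • x ∈ F :=
      (mem_iff_of_mem_closure hF (Subgroup.inv_mem _ hγa) x).mpr hx
    have h1 := ha' _ hax
    rw [smul_inv_smul] at h1
    rw [h1, inv_smul_smul]

end closure

section count

variable {gens : Set Γ} {m : Γ → H} {F : Set X} {B : X → Y} {w0 : X}

open Classical in
/-- **Transitivity from counting, general twist set.** `T` is a finite set of elements of the
closure that do not change labels and act 'injectively' at every point of `F`. -/
theorem exists_smul_eq_of_ncard_le [Fintype H]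
    (hF : ∀ g ∈ gens, ∀ x, g • x ∈ F ↔ x ∈ F)
    (hB : ∀ g ∈ gens, ∀ x ∈ F, B (g • x) = m g • B x)
    (hgen : Subgroup.closure (m '' gens) = ⊤) (hw0 : w0 ∈ F)
    (hfree : ∀ h : H, h • B w0 = B w0 → h = 1)
    (T : Finset Γ) (hT : ∀ t ∈ T, t ∈ Subgroup.closure gens)
    (hTB : ∀ t ∈ T, ∀ x ∈ F, B (t • x) = B x)
    (hTinj : ∀ t ∈ T, ∀ t' ∈ T, ∀ x ∈ F, t • x = t' • x → t = t')
    (hfin : F.Finite) (hcard : F.ncard ≤ T.card * Fintype.card H) :
    ∀ w ∈ F, ∃ γ ∈ Subgroup.closure gens, γ • w0 = w := by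
  have hex : ∀ M : H, ∃ γ ∈ Subgroup.closure gens, ∀ x ∈ F, B (γ • x) = M • B x := fun M =>
    exists_mem_closure_of_label hF hB (hgen ▸ Subgroup.mem_top M)
  choose γ hγ hγB using hex
  have hγF : ∀ M, γ M • w0 ∈ F := fun M => (mem_iff_of_mem_closure hF (hγ M) w0).mpr hw0
  -- the `card T * card H` points `t • γ M • w0`
  set f : T × H → X := fun p => (p.1 : Γ) • γ p.2 • w0 with hf
  have hfF : ∀ p, f p ∈ F := fun p =>
    (mem_iff_of_mem_closure hF (hT _ p.1.2) _).mpr (hγF p.2)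
  have hfB : ∀ p, B (f p) = p.2 • B w0 := fun p => by
    rw [hf]
    simp only
    rw [hTB _ p.1.2 _ (hγF p.2), hγB _ _ hw0]
  have hinj : Function.Injective f := by
    rintro ⟨t, M⟩ ⟨t', M'⟩ h
    have hMM : M = M' := by
      have h1 : M • B w0 = M' • B w0 := by
        have := congrArg B h
        rwa [hfB, hfB] at this
      have h2 : (M'⁻¹ * M) • B w0 = B w0 := by
        rw [mul_smul, h1, inv_smul_smul]
      have h3 := hfree _ h2
      exact (inv_mul_eq_one.mp h3).symm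
    subst hMM
    have htt : (t : Γ) = t' := hTinj _ t.2 _ t'.2 _ (hγF M) h
    rw [Subtype.ext htt]
  have himg : Set.range f ⊆ F := by
    rintro _ ⟨p, rfl⟩
    exact hfF p
  have hrange : (Set.range f).ncard = T.card * Fintype.card H := by
    rw [Set.ncard_range_of_injective hinj, Nat.card_eq_fintype_card, Fintype.card_prod,
      Fintype.card_coe]
  have heq : Set.range f = F :=
    Set.eq_of_subset_of_ncard_le himg (hrange ▸ hcard) hfin
  intro w hw
  rw [← heq] at hw
  obtain ⟨p, rfl⟩ := hw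
  exact ⟨(p.1 : Γ) * γ p.2, Subgroup.mul_mem _ (hT _ p.1.2) (hγ p.2), by rw [hf, mul_smul]⟩

/-- Labels are unchanged by powers of a label-preserving element of the closure. -/
theorem label_pow_smul (hF : ∀ g ∈ gens, ∀ x, g • x ∈ F ↔ x ∈ F) {z : Γ}
    (hz : z ∈ Subgroup.closure gens) (hzB : ∀ x ∈ F, B (z • x) = B x) (k : ℕ) :
    ∀ x ∈ F, B (z ^ k • x) = B x := by
  induction k with
  | zero => intro x _; rw [pow_zero, one_smul]
  | succ k ih =>
    intro x hx
    have hzx : z • x ∈ F := (mem_iff_of_mem_closure hF hz x).mpr hx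
    rw [pow_succ, mul_smul, ih _ hzx, hzB _ hx]

/-- Powers `z ^ k`, `k < n`, act injectively at `x` when `z ^ k • x ≠ x` for `0 < k < n`. -/
theorem pow_smul_injOn {z : Γ} {n : ℕ} {x : X} (hzfree : ∀ k, 0 < k → k < n → z ^ k • x ≠ x)
    {a b : ℕ} (ha : a < n) (hb : b < n) (h : z ^ a • x = z ^ b • x) : a = b := by
  by_contra hne
  rcases Nat.lt_or_gt_of_ne hne with hab | hab
  · have e : z ^ b = z ^ a * z ^ (b - a) := by rw [← pow_add, Nat.add_sub_cancel' hab.le]
    rw [e, mul_smul] at h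
    have h' := smul_left_cancel (z ^ a) h
    exact hzfree (b - a) (Nat.sub_pos_of_lt hab) (lt_of_le_of_lt (Nat.sub_le _ _) hb) h'.symm
  · have e : z ^ a = z ^ b * z ^ (a - b) := by rw [← pow_add, Nat.add_sub_cancel' hab.le]
    rw [e, mul_smul] at h
    have h' := smul_left_cancel (z ^ b) h
    exact hzfree (a - b) (Nat.sub_pos_of_lt hab) (lt_of_le_of_lt (Nat.sub_le _ _) ha) h'

open Classical in
/-- **Transitivity from counting (Q3(b)).** Twist by the powers of one element `z`. -/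
theorem exists_smul_eq_of_ncard_le_pow [Fintype H]
    (hF : ∀ g ∈ gens, ∀ x, g • x ∈ F ↔ x ∈ F)
    (hB : ∀ g ∈ gens, ∀ x ∈ F, B (g • x) = m g • B x)
    (hgen : Subgroup.closure (m '' gens) = ⊤) (hw0 : w0 ∈ F)
    (hfree : ∀ h : H, h • B w0 = B w0 → h = 1)
    {z : Γ} (hz : z ∈ Subgroup.closure gens) (hzB : ∀ x ∈ F, B (z • x) = B x) {n : ℕ}
    (hzfree : ∀ x ∈ F, ∀ k, 0 < k → k < n → z ^ k • x ≠ x)
    (hfin : F.Finite) (hcard : F.ncard ≤ n * Fintype.card H) :
    ∀ w ∈ F, ∃ γ ∈ Subgroup.closure gens, γ • w0 = w := by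
  set T : Finset Γ := (Finset.range n).image fun k => z ^ k with hTdef
  have hTcard : T.card = n := by
    rw [hTdef, Finset.card_image_of_injOn, Finset.card_range]
    intro a ha b hb hab
    have ha' : a < n := Finset.mem_range.mp ha
    have hb' : b < n := Finset.mem_range.mp hb
    have hab' : z ^ a = z ^ b := hab
    exact pow_smul_injOn (hzfree w0 hw0) ha' hb' (by rw [hab'])
  refine exists_smul_eq_of_ncard_le hF hB hgen hw0 hfree T ?_ ?_ ?_ hfin (hTcard.symm ▸ hcard)
  · intro t ht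
    obtain ⟨k, _, rfl⟩ := Finset.mem_image.mp ht
    exact Subgroup.pow_mem _ hz k
  · intro t ht x hx
    obtain ⟨k, _, rfl⟩ := Finset.mem_image.mp ht
    exact label_pow_smul hF hz hzB k x hx
  · intro t ht t' ht' x hx h
    obtain ⟨a, ha, rfl⟩ := Finset.mem_image.mp ht
    obtain ⟨b, hb, rfl⟩ := Finset.mem_image.mp ht'
    have hab : a = b :=
      pow_smul_injOn (hzfree x hx) (Finset.mem_range.mp ha) (Finset.mem_range.mp hb) h
    rw [hab]

/-- Transitivity + freeness at `w0` ⟹ the element of the closure carrying `w0` to `w` is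
unique. -/
theorem existsUnique_smul_eq [Fintype H]
    (hF : ∀ g ∈ gens, ∀ x, g • x ∈ F ↔ x ∈ F)
    (hB : ∀ g ∈ gens, ∀ x ∈ F, B (g • x) = m g • B x)
    (hgen : Subgroup.closure (m '' gens) = ⊤) (hw0 : w0 ∈ F)
    (hfree : ∀ h : H, h • B w0 = B w0 → h = 1)
    {z : Γ} (hz : z ∈ Subgroup.closure gens) (hzB : ∀ x ∈ F, B (z • x) = B x) {n : ℕ}
    (hzfree : ∀ x ∈ F, ∀ k, 0 < k → k < n → z ^ k • x ≠ x)
    (hfin : F.Finite) (hcard : F.ncard ≤ n * Fintype.card H)
    (hstab : ∀ γ ∈ Subgroup.closure gens, γ • w0 = w0 → γ = 1) :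
    ∀ w ∈ F, ∃! γ : Γ, γ ∈ Subgroup.closure gens ∧ γ • w0 = w := by
  intro w hw
  obtain ⟨γ, hγ, hγw⟩ :=
    exists_smul_eq_of_ncard_le_pow hF hB hgen hw0 hfree hz hzB hzfree hfin hcard w hw
  refine ⟨γ, ⟨hγ, hγw⟩, ?_⟩
  rintro γ' ⟨hγ', hγ'w⟩
  have h1 : (γ⁻¹ * γ') • w0 = w0 := by
    rw [mul_smul, hγ'w, ← hγw, inv_smul_smul]
  have h2 := hstab _ (Subgroup.mul_mem _ (Subgroup.inv_mem _ hγ) hγ') h1
  exact (inv_mul_eq_one.mp h2).symm

end count

end Fermat.Agent.G35.OrbitCount
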