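/-
GATE-Q / S52-Q3B-KLEINTRANS (helper60): the concrete transitivity statement `htrans` of
`Q4Family.exists_rational_family`, from the Q2 labelling data only.

`L` a field of characteristic `0`, `ζ` a primitive fifth root of unity.  The three generators
`gS ζ`, `gT ζ`, `gZ ζ : GL₂(L)` (Klein's `S`, `T̃ = diag(ζ³, ζ²)`, `Z = ζ • 1`) lie in `formStab L`
(helper3's `KleinInv`).  Given an equivariant labelling `B` of the fibre by an `H`-set with
`card H = 120` (Q2(b), (d)), `OrbitCount` and the bound `600` of `FibreKlein` give: `formStab L`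
is transitive on every fibre `fibreVec c t` (`c ≠ 0`, `t ≠ 0`, `c ^ 3 ≠ t ^ 2`).
-/
import Fermat.Agent.G35.OrbitCount
import Fermat.Agent.G35.FibreKlein
import Fermat.Agent.G35.Cocycle
import Fermat.Agent.G35.Sym.KleinInv

set_option autoImplicit false
set_option linter.unusedSectionVars false

namespace Fermat.Agent.G35.KleinTrans

open Matrix Fermat.Agent.G35.Free Fermat.Agent.G35.Cocycle

variable {L : Type*} [Field L]

/-! ### bridge between `Free.c4`, `Free.T6` and `KleinInv.kc4`, `KleinInv.kT` -/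

theorem c4_eq_kc4 (u v : L) : c4 u v = Fermat.Agent.G35.KleinInv.kc4 (u ^ 5) (v ^ 5) := by
  unfold c4 Fermat.Agent.G35.KleinInv.kc4; ring

theorem T6_eq_kT (u v : L) : T6 u v = Fermat.Agent.G35.KleinInv.kT (u ^ 5) (v ^ 5) := by
  unfold T6 Fermat.Agent.G35.KleinInv.kT; ring

/-! ### the three matrices -/

/-- Klein's `S`. -/
noncomputable def Smat (ζ : L) : Matrix (Fin 2) (Fin 2) L :=
  !![(Fermat.Agent.G35.KleinInv.sq5 ζ)⁻¹ * (ζ ^ 4 - ζ),
      (Fermat.Agent.G35.KleinInv.sq5 ζ)⁻¹ * (ζ ^ 2 - ζ ^ 3);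
    (Fermat.Agent.G35.KleinInv.sq5 ζ)⁻¹ * (ζ ^ 2 - ζ ^ 3),
      (Fermat.Agent.G35.KleinInv.sq5 ζ)⁻¹ * (ζ - ζ ^ 4)]

/-- `T̃ = diag(ζ³, ζ²)`. -/
def Tmat (ζ : L) : Matrix (Fin 2) (Fin 2) L := !![ζ ^ 3, 0; 0, ζ ^ 2]

/-- `Z = ζ • 1`. -/
def Zmat (ζ : L) : Matrix (Fin 2) (Fin 2) L := !![ζ, 0; 0, ζ]

theorem Smat_mulVec (ζ : L) (w : Fin 2 → L) :
    Smat ζ *ᵥ w = ![(Fermat.Agent.G35.KleinInv.sq5 ζ)⁻¹
        * Fermat.Agent.G35.KleinInv.Su ζ (w 0) (w 1),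
      (Fermat.Agent.G35.KleinInv.sq5 ζ)⁻¹ * Fermat.Agent.G35.KleinInv.Sv ζ (w 0) (w 1)] := by
  funext i
  fin_cases i <;>
    simp [Smat, Matrix.mulVec, dotProduct, Fin.sum_univ_two, Fermat.Agent.G35.KleinInv.Su,
      Fermat.Agent.G35.KleinInv.Sv] <;> ring

theorem Tmat_mulVec (ζ : L) (w : Fin 2 → L) : Tmat ζ *ᵥ w = ![ζ ^ 3 * w 0, ζ ^ 2 * w 1] := by
  funext i
  fin_cases i <;> simp [Tmat, Matrix.mulVec, dotProduct, Fin.sum_univ_two]

theorem Zmat_mulVec (ζ : L) (w : Fin 2 → L) : Zmat ζ *ᵥ w = ![ζ * w 0, ζ * w 1] := by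
  funext i
  fin_cases i <;> simp [Zmat, Matrix.mulVec, dotProduct, Fin.sum_univ_two]

theorem Zmat_eq_smul (ζ : L) : Zmat ζ = ζ • (1 : Matrix (Fin 2) (Fin 2) L) := by
  ext i j
  fin_cases i <;> fin_cases j <;> simp [Zmat]

theorem five_ne_zero' [CharZero L] : (5 : L) ≠ 0 := by norm_num

/-- `formStab` preserves every fibre. -/
theorem smul_mem_fibreVec_iff {M : GL (Fin 2) L} (hM : M ∈ formStab L) (c t : L)
    (x : Fin 2 → L) : M • x ∈ fibreVec c t ↔ x ∈ fibreVec c t := by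
  have h := hM x
  change (c4 (((M : Matrix (Fin 2) (Fin 2) L) *ᵥ x) 0) (((M : Matrix (Fin 2) (Fin 2) L) *ᵥ x) 1)
      = c ∧ T6 (((M : Matrix (Fin 2) (Fin 2) L) *ᵥ x) 0)
        (((M : Matrix (Fin 2) (Fin 2) L) *ᵥ x) 1) = t) ↔ (c4 (x 0) (x 1) = c ∧ T6 (x 0) (x 1) = t)
  rw [h.1, h.2]

/-- the fibre is finite with at most `600` points (vector form of `FibreKlein`). -/
theorem fibreVec_finite_ncard_le {c t : L} (hc : c ≠ 0) (ht : t ≠ 0) (hct : c ^ 3 ≠ t ^ 2) :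
    (fibreVec c t).Finite ∧ (fibreVec c t).ncard ≤ 600 := by
  obtain ⟨hfin, hcard⟩ :=
    Fermat.Agent.G35.FibreKlein.kleinFibre_finite_ncard_le (K := L) hc ht hct
  set e : (Fin 2 → L) → L × L := fun w => (w 0, w 1) with he
  have hinj : Function.Injective e := by
    intro w w' h
    funext i
    fin_cases i
    · exact congrArg Prod.fst h
    · exact congrArg Prod.snd h
  have hmaps : ∀ w ∈ fibreVec c t, e w ∈ Fermat.Agent.G35.FibreKlein.kleinFibre c t :=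
    fun w hw => hw
  have hsub : fibreVec c t ⊆ e ⁻¹' Fermat.Agent.G35.FibreKlein.kleinFibre c t := hmaps
  refine ⟨(hfin.preimage hinj.injOn).subset hsub, ?_⟩
  exact (Set.ncard_le_ncard_of_injOn e hmaps hinj.injOn hfin).trans hcard

section cyclo

variable {ζ : L} (hζ : ζ ^ 4 + ζ ^ 3 + ζ ^ 2 + ζ + 1 = 0)
include hζ

theorem zeta_pow_five : ζ ^ 5 = 1 := Fermat.Agent.G35.KleinInv.zeta_pow5 hζ

theorem zeta_ne_zero : ζ ≠ 0 := by
  intro h
  have := zeta_pow_five hζ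
  rw [h] at this
  norm_num at this

theorem det_Tmat : (Tmat ζ).det = 1 := by
  rw [Tmat, Matrix.det_fin_two_of]
  have := zeta_pow_five hζ
  linear_combination this

theorem det_Zmat_ne_zero : (Zmat ζ).det ≠ 0 := by
  rw [Zmat, Matrix.det_fin_two_of]
  have h0 := zeta_ne_zero hζ
  simpa using h0

/-- `ζ ^ k ≠ 1` for `0 < k < 5` (characteristic `0`). -/
theorem zeta_pow_ne_one [CharZero L] {k : ℕ} (hk0 : 0 < k) (hk5 : k < 5) : ζ ^ k ≠ 1 := by
  have h5 := zeta_pow_five hζ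
  have hne1 : ζ ≠ 1 := by
    intro h1
    rw [h1] at hζ
    norm_num at hζ
  intro hk
  apply hne1
  interval_cases k
  · simpa using hk
  · -- ζ² = 1
    have : ζ ^ 5 = (ζ ^ 2) ^ 2 * ζ := by ring
    rw [hk, h5] at this
    simpa using this.symm
  · -- ζ³ = 1
    have : ζ ^ 5 * ζ = (ζ ^ 3) ^ 2 := by ring
    rw [hk, h5] at this
    simpa using this
  · -- ζ⁴ = 1
    have : ζ ^ 5 = ζ ^ 4 * ζ := by ring
    rw [hk, h5] at this
    simpa using this.symm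

variable [CharZero L]

theorem det_Smat : (Smat ζ).det = 1 := by
  rw [Smat, Matrix.det_fin_two_of]
  have hs := Fermat.Agent.G35.KleinInv.sq5_inv_sq hζ (five_ne_zero' (L := L))
  have hab := Fermat.Agent.G35.KleinInv.a_sq_add_b_sq hζ
  linear_combination hs - ((Fermat.Agent.G35.KleinInv.sq5 ζ)⁻¹) ^ 2 * hab

/-- Klein's `S` in `GL₂`. -/
noncomputable def gS : GL (Fin 2) L :=
  Matrix.GeneralLinearGroup.mkOfDetNeZero (Smat ζ) (by rw [det_Smat hζ]; exact one_ne_zero)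

/-- `T̃` in `GL₂`. -/
noncomputable def gT : GL (Fin 2) L :=
  Matrix.GeneralLinearGroup.mkOfDetNeZero (Tmat ζ) (by rw [det_Tmat hζ]; exact one_ne_zero)

/-- `Z` in `GL₂`. -/
noncomputable def gZ : GL (Fin 2) L :=
  Matrix.GeneralLinearGroup.mkOfDetNeZero (Zmat ζ) (det_Zmat_ne_zero hζ)

theorem coe_gS : ((gS hζ : GL (Fin 2) L) : Matrix (Fin 2) (Fin 2) L) = Smat ζ := rfl
theorem coe_gT : ((gT hζ : GL (Fin 2) L) : Matrix (Fin 2) (Fin 2) L) = Tmat ζ := rfl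
theorem coe_gZ : ((gZ hζ : GL (Fin 2) L) : Matrix (Fin 2) (Fin 2) L) = Zmat ζ := rfl

theorem gS_mem_formStab : gS hζ ∈ formStab L := by
  intro w
  rw [coe_gS, Smat_mulVec]
  simp only [Matrix.cons_val_zero, Matrix.cons_val_one]
  rw [c4_eq_kc4, T6_eq_kT, c4_eq_kc4, T6_eq_kT]
  exact ⟨Fermat.Agent.G35.KleinInv.kc4_S_inv hζ five_ne_zero' _ _,
    Fermat.Agent.G35.KleinInv.kT_S_inv hζ five_ne_zero' _ _⟩

theorem gT_mem_formStab : gT hζ ∈ formStab L := by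
  intro w
  rw [coe_gT, Tmat_mulVec]
  simp only [Matrix.cons_val_zero, Matrix.cons_val_one]
  rw [c4_eq_kc4, T6_eq_kT, c4_eq_kc4, T6_eq_kT]
  exact ⟨Fermat.Agent.G35.KleinInv.kc4_Ttilde hζ _ _,
    Fermat.Agent.G35.KleinInv.kT_Ttilde hζ _ _⟩

theorem gZ_mem_formStab : gZ hζ ∈ formStab L := by
  intro w
  rw [coe_gZ, Zmat_mulVec]
  simp only [Matrix.cons_val_zero, Matrix.cons_val_one]
  rw [c4_eq_kc4, T6_eq_kT, c4_eq_kc4, T6_eq_kT]
  exact ⟨Fermat.Agent.G35.KleinInv.kc4_Z hζ _ _, Fermat.Agent.G35.KleinInv.kT_Z hζ _ _⟩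

/-- The three generators. -/
noncomputable def kleinGens : Set (GL (Fin 2) L) := {gS hζ, gT hζ, gZ hζ}

theorem kleinGens_subset_formStab : kleinGens hζ ⊆ (formStab L : Set (GL (Fin 2) L)) := by
  intro g hg
  rcases hg with rfl | rfl | rfl
  · exact gS_mem_formStab hζ
  · exact gT_mem_formStab hζ
  · exact gZ_mem_formStab hζ

theorem closure_kleinGens_le : Subgroup.closure (kleinGens hζ) ≤ formStab L :=
  (Subgroup.closure_le _).mpr (kleinGens_subset_formStab hζ)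

/-- `gZ ^ k` acts as the scalar `ζ ^ k`. -/
theorem gZ_pow_smul (k : ℕ) (x : Fin 2 → L) : (gZ hζ) ^ k • x = ζ ^ k • x := by
  change (((gZ hζ) ^ k : GL (Fin 2) L) : Matrix (Fin 2) (Fin 2) L) *ᵥ x = ζ ^ k • x
  rw [Units.val_pow_eq_pow_val, coe_gZ, Zmat_eq_smul, smul_pow, one_pow, Matrix.smul_mulVec,
    Matrix.one_mulVec]

/-- **Transitivity of `formStab` on the Klein fibres** (the `htrans` of `Q4Family`), from the Q2
labelling data. -/
theorem klein_htrans {H Y : Type*} [Group H] [Fintype H] [MulAction H Y]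
    (hH : Fintype.card H = 120) (m : GL (Fin 2) L → H) (B : (Fin 2 → L) → Y) {c t : L}
    (hc : c ≠ 0) (ht : t ≠ 0) (hct : c ^ 3 ≠ t ^ 2)
    (hB : ∀ g ∈ kleinGens hζ, ∀ x ∈ fibreVec c t, B (g • x) = m g • B x)
    (hgen : Subgroup.closure (m '' kleinGens hζ) = ⊤)
    (hZB : ∀ x ∈ fibreVec c t, B (gZ hζ • x) = B x)
    (hfreeB : ∀ w ∈ fibreVec c t, ∀ h : H, h • B w = B w → h = 1) :
    ∀ w₀ ∈ fibreVec c t, ∀ w ∈ fibreVec c t,
      ∃ M ∈ formStab L, (M : Matrix (Fin 2) (Fin 2) L) *ᵥ w₀ = w := by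
  intro w₀ hw₀ w hw
  obtain ⟨hfin, hcard⟩ := fibreVec_finite_ncard_le hc ht hct
  have hF : ∀ g ∈ kleinGens hζ, ∀ x, g • x ∈ fibreVec c t ↔ x ∈ fibreVec c t :=
    fun g hg x => smul_mem_fibreVec_iff (kleinGens_subset_formStab hζ hg) c t x
  have hz : gZ hζ ∈ Subgroup.closure (kleinGens hζ) :=
    Subgroup.subset_closure (by simp [kleinGens])
  have hzfree : ∀ x ∈ fibreVec c t, ∀ k, 0 < k → k < 5 → (gZ hζ) ^ k • x ≠ x := by
    intro x hx k hk0 hk5 hfix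
    rw [gZ_pow_smul] at hfix
    have hx0 : x ≠ 0 := by
      intro h0
      apply hc
      have := hx.1
      rw [h0] at this
      simp only [Pi.zero_apply] at this
      rw [← this]
      unfold c4; ring
    obtain ⟨i, hi⟩ := Function.ne_iff.mp hx0
    have h1 := congrFun hfix i
    simp only [Pi.smul_apply, smul_eq_mul] at h1
    have h2 : (ζ ^ k - 1) * x i = 0 := by linear_combination h1
    rcases mul_eq_zero.mp h2 with h3 | h3
    · exact zeta_pow_ne_one hζ hk0 hk5 (sub_eq_zero.mp h3)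
    · exact hi h3
  have hcard' : (fibreVec c t).ncard ≤ 5 * Fintype.card H := by
    rw [hH]; exact hcard
  obtain ⟨γ, hγ, hγw⟩ :=
    Fermat.Agent.G35.OrbitCount.exists_smul_eq_of_ncard_le_pow hF hB hgen hw₀ (hfreeB w₀ hw₀) hz
      hZB hzfree hfin hcard' w hw
  exact ⟨γ, closure_kleinGens_le hζ hγ, hγw⟩

end cyclo

end Fermat.Agent.G35.KleinTrans
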