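/-
GATE-Q (S52) leaf L-SL2 (helper20): `SL(2, ZMod p)` is generated by
`S = [[0,-1],[1,0]]` and `T = [[1,1],[0,1]]` (any prime `p`), and has `p * (p^2 - 1)` elements;
in particular `SL(2, ZMod 5)` has 120 elements.  Mathlib only.
-/
import Mathlib

set_option autoImplicit false

namespace Fermat.Agent.G35.SL2F5

open Matrix

section Field

variable {F : Type*} [Field F]

/-- The upper unipotent matrix `[[1,x],[0,1]]`. -/
def upper (x : F) : Matrix.SpecialLinearGroup (Fin 2) F :=
  ⟨!![1, x; 0, 1], by simp [Matrix.det_fin_two_of]⟩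

/-- The lower unipotent matrix `[[1,0],[c,1]]`. -/
def lower (c : F) : Matrix.SpecialLinearGroup (Fin 2) F :=
  ⟨!![1, 0; c, 1], by simp [Matrix.det_fin_two_of]⟩

/-- The Weyl element `[[0,-1],[1,0]]`. -/
def weyl : Matrix.SpecialLinearGroup (Fin 2) F :=
  ⟨!![0, -1; 1, 0], by simp [Matrix.det_fin_two_of]⟩

@[simp] lemma coe_upper (x : F) :
    ((upper x : Matrix.SpecialLinearGroup (Fin 2) F) : Matrix (Fin 2) (Fin 2) F) = !![1, x; 0, 1] :=
  rfl

@[simp] lemma coe_lower (c : F) :
    ((lower c : Matrix.SpecialLinearGroup (Fin 2) F) : Matrix (Fin 2) (Fin 2) F) = !![1, 0; c, 1] :=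
  rfl

@[simp] lemma coe_weyl :
    ((weyl : Matrix.SpecialLinearGroup (Fin 2) F) : Matrix (Fin 2) (Fin 2) F) = !![0, -1; 1, 0] :=
  rfl

lemma upper_zero : upper (0 : F) = 1 := by
  ext i j; fin_cases i <;> fin_cases j <;> simp [upper]

lemma upper_add (x y : F) : upper (x + y) = upper x * upper y := by
  ext i j
  fin_cases i <;> fin_cases j <;>
    simp [upper, Matrix.mul_apply, Fin.sum_univ_two, add_comm]

lemma upper_natCast (n : ℕ) : upper (n : F) = upper (1 : F) ^ n := by
  induction n with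
  | zero => simp [upper_zero]
  | succ n ih => rw [Nat.cast_succ, upper_add, ih, pow_succ]

lemma lower_eq (c : F) : lower c = weyl * upper (-c) * weyl⁻¹ := by
  ext i j
  fin_cases i <;> fin_cases j <;>
    simp [lower, weyl, upper, Matrix.mul_apply, Fin.sum_univ_two,
      Matrix.SpecialLinearGroup.coe_inv, Matrix.adjugate_fin_two]

/-- Bruhat-type decomposition: `g = upper * lower * upper` when the lower-left entry is non-zero. -/
theorem eq_upper_lower_upper (g : Matrix.SpecialLinearGroup (Fin 2) F) (hc : g 1 0 ≠ 0) :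
    g = upper ((g 0 0 - 1) / g 1 0) * lower (g 1 0) * upper ((g 1 1 - 1) / g 1 0) := by
  have hdet : g 0 0 * g 1 1 - g 0 1 * g 1 0 = 1 := by
    have := g.det_coe
    rwa [Matrix.det_fin_two] at this
  ext i j
  fin_cases i <;> fin_cases j
  · simp [upper, lower, Matrix.mul_apply, Fin.sum_univ_two]
    field_simp
    ring
  · simp [upper, lower, Matrix.mul_apply, Fin.sum_univ_two]
    field_simp
    linear_combination (-1 : F) * hdet
  · simp [upper, lower, Matrix.mul_apply, Fin.sum_univ_two]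
  · simp [upper, lower, Matrix.mul_apply, Fin.sum_univ_two]
    field_simp
    ring

end Field

section ZModP

variable (p : ℕ) [Fact p.Prime]

/-- `S = [[0,-1],[1,0]]` in `SL(2, ZMod p)`. -/
def Sg : Matrix.SpecialLinearGroup (Fin 2) (ZMod p) := weyl

/-- `T = [[1,1],[0,1]]` in `SL(2, ZMod p)`. -/
def Tg : Matrix.SpecialLinearGroup (Fin 2) (ZMod p) := upper 1

@[simp] lemma coe_Sg :
    ((Sg p : Matrix.SpecialLinearGroup (Fin 2) (ZMod p)) : Matrix (Fin 2) (Fin 2) (ZMod p))
      = !![0, -1; 1, 0] := rfl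

@[simp] lemma coe_Tg :
    ((Tg p : Matrix.SpecialLinearGroup (Fin 2) (ZMod p)) : Matrix (Fin 2) (Fin 2) (ZMod p))
      = !![1, 1; 0, 1] := rfl

lemma upper_mem (x : ZMod p) : upper x ∈ Subgroup.closure {Sg p, Tg p} := by
  have hx : upper x = Tg p ^ x.val := by
    rw [Tg, ← upper_natCast, ZMod.natCast_zmod_val]
  rw [hx]
  exact Subgroup.pow_mem _ (Subgroup.subset_closure (by simp)) _

lemma lower_mem (c : ZMod p) : lower c ∈ Subgroup.closure {Sg p, Tg p} := by
  rw [lower_eq]
  have hS : (weyl : Matrix.SpecialLinearGroup (Fin 2) (ZMod p)) ∈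
      Subgroup.closure {Sg p, Tg p} := Subgroup.subset_closure (by simp [Sg])
  exact Subgroup.mul_mem _ (Subgroup.mul_mem _ hS (upper_mem p _)) (Subgroup.inv_mem _ hS)

/-- `SL(2, ZMod p)` is generated by `S` and `T`. -/
theorem closure_S_T_eq_top : Subgroup.closure {Sg p, Tg p} = ⊤ := by
  rw [eq_top_iff]
  intro g _
  have key : ∀ h : Matrix.SpecialLinearGroup (Fin 2) (ZMod p), h 1 0 ≠ 0 →
      h ∈ Subgroup.closure {Sg p, Tg p} := by
    intro h hc
    rw [eq_upper_lower_upper h hc]
    exact Subgroup.mul_mem _ (Subgroup.mul_mem _ (upper_mem p _) (lower_mem p _)) (upper_mem p _)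
  by_cases hc : g 1 0 = 0
  · -- then `g 0 0 ≠ 0` and `S * g` has lower-left entry `g 0 0`
    have hdet : g 0 0 * g 1 1 - g 0 1 * g 1 0 = 1 := by
      have := g.det_coe
      rwa [Matrix.det_fin_two] at this
    have ha : g 0 0 ≠ 0 := by
      intro h0
      rw [h0, hc] at hdet
      simp at hdet
    have hSg : (Sg p * g) 1 0 = g 0 0 := by
      simp [Sg, weyl, Matrix.mul_apply, Fin.sum_univ_two]
    have h1 : Sg p * g ∈ Subgroup.closure {Sg p, Tg p} := key _ (by rw [hSg]; exact ha)
    have hS : Sg p ∈ Subgroup.closure {Sg p, Tg p} := Subgroup.subset_closure (by simp)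
    have : g = (Sg p)⁻¹ * (Sg p * g) := by group
    rw [this]
    exact Subgroup.mul_mem _ (Subgroup.inv_mem _ hS) h1
  · exact key g hc

/-- Induction principle for `SL(2, ZMod p)` along the generators `S`, `T`. -/
theorem induction_S_T {C : Matrix.SpecialLinearGroup (Fin 2) (ZMod p) → Prop}
    (one : C 1) (hS : C (Sg p)) (hT : C (Tg p))
    (mul : ∀ g h, C g → C h → C (g * h)) (inv : ∀ g, C g → C g⁻¹)
    (g : Matrix.SpecialLinearGroup (Fin 2) (ZMod p)) : C g := by
  have hg : g ∈ Subgroup.closure {Sg p, Tg p} := by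
    rw [closure_S_T_eq_top]; exact Subgroup.mem_top g
  induction hg using Subgroup.closure_induction with
  | mem x hx =>
    rcases hx with rfl | rfl
    · exact hS
    · exact hT
  | one => exact one
  | mul x y _ _ hx hy => exact mul x y hx hy
  | inv x _ hx => exact inv x hx

end ZModP

end Fermat.Agent.G35.SL2F5

namespace Fermat.Agent.G35.SL2F5

open Matrix

section Card

variable (p : ℕ) [Fact p.Prime]

/-- `SL(2, ZMod p)` is the kernel of `det` on `GL(2, ZMod p)`. -/
noncomputable def slEquivKerDet :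
    Matrix.SpecialLinearGroup (Fin 2) (ZMod p) ≃
      (Matrix.GeneralLinearGroup.det (n := Fin 2) (R := ZMod p)).ker :=
  Equiv.ofBijective
    (fun g => ⟨Matrix.SpecialLinearGroup.toGL g, by
      rw [MonoidHom.mem_ker]
      apply Units.ext
      simp⟩)
    ⟨fun g h hgh => by
        have := congrArg Subtype.val hgh
        exact Matrix.SpecialLinearGroup.toGL_injective this,
      fun ⟨A, hA⟩ => by
        rw [MonoidHom.mem_ker] at hA
        have hdet : (A : Matrix (Fin 2) (Fin 2) (ZMod p)).det = 1 := by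
          have := congrArg Units.val hA
          simpa using this
        refine ⟨⟨(A : Matrix (Fin 2) (Fin 2) (ZMod p)), hdet⟩, ?_⟩
        apply Subtype.ext
        apply Units.ext
        rfl⟩

/-- `#SL(2, 𝔽_p) = p (p² - 1)`. -/
theorem card_SL2_zmod :
    Nat.card (Matrix.SpecialLinearGroup (Fin 2) (ZMod p)) = p * (p ^ 2 - 1) := by
  have hp : p.Prime := Fact.out
  have hGL : Nat.card (GL (Fin 2) (ZMod p)) = (p ^ 2 - 1) * (p ^ 2 - p) := by
    rw [Matrix.card_GL_field, Fin.prod_univ_two, ZMod.card]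
    simp
  have hsplit : Nat.card (GL (Fin 2) (ZMod p)) =
      Nat.card (Matrix.GeneralLinearGroup.det (n := Fin 2) (R := ZMod p)).ker * (p - 1) := by
    rw [← Subgroup.card_mul_index (Matrix.GeneralLinearGroup.det (n := Fin 2) (R := ZMod p)).ker,
      Subgroup.index_ker,
      MonoidHom.range_eq_top.mpr (Matrix.GeneralLinearGroup.det_surjective (n := Fin 2)),
      Subgroup.card_top]
    congr 1
    rw [Nat.card_eq_fintype_card, ZMod.card_units_eq_totient, Nat.totient_prime hp]
  rw [Nat.card_congr (slEquivKerDet p)]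
  have h2 : 2 ≤ p := hp.two_le
  have hpos : 0 < p - 1 := by omega
  apply Nat.eq_of_mul_eq_mul_right hpos
  rw [← hsplit, hGL]
  have : p ^ 2 - p = p * (p - 1) := by
    rw [Nat.mul_sub, mul_one, pow_two]
  rw [this]
  ring

/-- `#SL(2, 𝔽_5) = 120`. -/
theorem card_SL2_five [Fact (Nat.Prime 5)] :
    Nat.card (Matrix.SpecialLinearGroup (Fin 2) (ZMod 5)) = 120 := by
  rw [card_SL2_zmod 5]
  norm_num

end Card

end Fermat.Agent.G35.SL2F5
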