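/-
GATE-Q / S52, node Q4(F) (helper23): the ABSTRACT Klein instance of `OrbitCount` (helper60) with
`H = SL(2, ZMod 5)` (helper20's `SL2F5`), plus the kernel-of-the-label lemma.

Setting: a group `Γ` acts on `V`; `F ⊆ V` is a finite set (a fibre of `(c4, T)`), stable under three
elements `s t z : Γ` (Klein's `S`, `T~`, `Z`); `N` is a `ZMod 5`-module (the `5`-torsion of the
fibre curve) and `P Q : V → N` are two labellings with, on `F`,

  `P (s x) = Q x`, `Q (s x) = -P x`;  `P (t x) = P x`, `Q (t x) = Q x - P x`;  `P (z x) = P x`,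
  `Q (z x) = Q x`;

`P w0, Q w0` are independent; `z ^ k x ≠ x` for `0 < k < 5`; `F` has at most `600` elements.  Then

* `exists_smul_eq` : `closure {s, t, z}` is transitive on `F`;
* `exists_zpow_of_label_eq` : a point of `F` with the same label as `w0` is `z ^ k • w0`, `k < 5`;
* `exists_label` : every element of the closure acts on labels through a matrix of `SL(2, ZMod 5)`.

The label of `x` is the pair `![Q x, P x]` and `M • b = fun i => ∑ j, M i j • b j`, so that
`m(s) = [[0,-1],[1,0]] = SL2F5.Sg` and `m(t) = [[1,-1],[0,1]] = (SL2F5.Tg)⁻¹`.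
-/
import Mathlib
import Fermat.Agent.G35.OrbitCount
import Fermat.Agent.G35.SL2F5

set_option autoImplicit false
set_option linter.unusedSectionVars false

namespace Fermat.Agent.G35.TransAbs

open Matrix

/-! ### the counting argument, structured form -/

section count

variable {Γ X H Y : Type*} [Group Γ] [MulAction Γ X] [Group H] [MulAction H Y]
variable {gens : Set Γ} {m : Γ → H} {F : Set X} {B : X → Y} {w0 : X}

open Fermat.Agent.G35.OrbitCount

open Classical in
/-- Structured form of `OrbitCount.exists_smul_eq_of_ncard_le`: every point of `F` is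
`t • γ M • w0` with `t ∈ T` and `γ M` an element of the closure with label `M`. -/
theorem exists_twist_label [Fintype H]
    (hF : ∀ g ∈ gens, ∀ x, g • x ∈ F ↔ x ∈ F)
    (hB : ∀ g ∈ gens, ∀ x ∈ F, B (g • x) = m g • B x)
    (hgen : Subgroup.closure (m '' gens) = ⊤) (hw0 : w0 ∈ F)
    (hfree : ∀ h : H, h • B w0 = B w0 → h = 1)
    (T : Finset Γ) (hT : ∀ t ∈ T, t ∈ Subgroup.closure gens)
    (hTB : ∀ t ∈ T, ∀ x ∈ F, B (t • x) = B x)
    (hTinj : ∀ t ∈ T, ∀ t' ∈ T, ∀ x ∈ F, t • x = t' • x → t = t')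
    (hfin : F.Finite) (hcard : F.ncard ≤ T.card * Fintype.card H) :
    ∃ γ : H → Γ, (∀ M, γ M ∈ Subgroup.closure gens) ∧
      (∀ M, ∀ x ∈ F, B (γ M • x) = M • B x) ∧
      ∀ w ∈ F, ∃ t ∈ T, ∃ M : H, t • γ M • w0 = w := by
  have hex : ∀ M : H, ∃ γ ∈ Subgroup.closure gens, ∀ x ∈ F, B (γ • x) = M • B x := fun M =>
    exists_mem_closure_of_label hF hB (hgen ▸ Subgroup.mem_top M)
  choose γ hγ hγB using hex
  refine ⟨γ, hγ, hγB, ?_⟩
  have hγF : ∀ M, γ M • w0 ∈ F := fun M => (mem_iff_of_mem_closure hF (hγ M) w0).mpr hw0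
  set f : T × H → X := fun p => (p.1 : Γ) • γ p.2 • w0 with hf
  have hfF : ∀ p, f p ∈ F := fun p =>
    (mem_iff_of_mem_closure hF (hT _ p.1.2) _).mpr (hγF p.2)
  have hfB : ∀ p, B (f p) = p.2 • B w0 := fun p => by
    rw [hf]
    simp only
    rw [hTB _ p.1.2 _ (hγF p.2), hγB _ _ hw0]
  have hinj : Function.Injective f := by
    rintro ⟨t, M⟩ ⟨t', M'⟩ h
    have hMM : M = M' := by
      have h1 : M • B w0 = M' • B w0 := by
        have := congrArg B h
        rwa [hfB, hfB] at this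
      have h2 : (M'⁻¹ * M) • B w0 = B w0 := by
        rw [mul_smul, h1, inv_smul_smul]
      have h3 := hfree _ h2
      exact (inv_mul_eq_one.mp h3).symm
    subst hMM
    have htt : (t : Γ) = t' := hTinj _ t.2 _ t'.2 _ (hγF M) h
    rw [Subtype.ext htt]
  have himg : Set.range f ⊆ F := by
    rintro _ ⟨p, rfl⟩
    exact hfF p
  have hrange : (Set.range f).ncard = T.card * Fintype.card H := by
    rw [Set.ncard_range_of_injective hinj, Nat.card_eq_fintype_card, Fintype.card_prod,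
      Fintype.card_coe]
  have heq : Set.range f = F :=
    Set.eq_of_subset_of_ncard_le himg (hrange ▸ hcard) hfin
  intro w hw
  rw [← heq] at hw
  obtain ⟨p, rfl⟩ := hw
  exact ⟨p.1, p.1.2, p.2, rfl⟩

open Classical in
/-- **Kernel of the label map.** If `D ⊆ F` is a set of `card T` points with the label of `w0`,
then every point of `F` with the label of `w0` lies in `D`. -/
theorem mem_of_label_eq [Fintype H]
    (hF : ∀ g ∈ gens, ∀ x, g • x ∈ F ↔ x ∈ F)
    (hB : ∀ g ∈ gens, ∀ x ∈ F, B (g • x) = m g • B x)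
    (hgen : Subgroup.closure (m '' gens) = ⊤) (hw0 : w0 ∈ F)
    (hfree : ∀ h : H, h • B w0 = B w0 → h = 1)
    (T : Finset Γ) (hT : ∀ t ∈ T, t ∈ Subgroup.closure gens)
    (hTB : ∀ t ∈ T, ∀ x ∈ F, B (t • x) = B x)
    (hTinj : ∀ t ∈ T, ∀ t' ∈ T, ∀ x ∈ F, t • x = t' • x → t = t')
    (hfin : F.Finite) (hcard : F.ncard ≤ T.card * Fintype.card H)
    (D : Set X) (hDF : D ⊆ F) (hDB : ∀ d ∈ D, B d = B w0) (hDcard : T.card ≤ D.ncard) :
    ∀ w ∈ F, B w = B w0 → w ∈ D := by
  obtain ⟨γ, hγ, hγB, hsurj⟩ :=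
    exists_twist_label hF hB hgen hw0 hfree T hT hTB hTinj hfin hcard
  have hγF : ∀ M, γ M • w0 ∈ F := fun M => (mem_iff_of_mem_closure hF (hγ M) w0).mpr hw0
  -- points with the label of `w0` lie in `S1 := {t • γ 1 • w0 | t ∈ T}`
  set S1 : Set X := (fun t : Γ => t • γ 1 • w0) '' (T : Set Γ) with hS1
  have hlab : ∀ w ∈ F, B w = B w0 → w ∈ S1 := by
    intro w hw hBw
    obtain ⟨t, ht, M, rfl⟩ := hsurj w hw
    have h1 : M • B w0 = B w0 := by
      have h2 := hBw
      rwa [hTB t ht _ (hγF M), hγB M _ hw0] at h2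
    have hM : M = 1 := hfree M h1
    subst hM
    exact ⟨t, ht, rfl⟩
  have hS1fin : S1.Finite := (T.finite_toSet).image _
  have hS1card : S1.ncard ≤ T.card := by
    have := Set.ncard_image_le (f := fun t : Γ => t • γ 1 • w0) (T.finite_toSet)
    simpa [hS1, Set.ncard_coe_finset] using this
  have hDS1 : D ⊆ S1 := fun d hd => hlab d (hDF hd) (hDB d hd)
  have hDeq : D = S1 :=
    Set.eq_of_subset_of_ncard_le hDS1 (le_trans hS1card hDcard) hS1fin
  intro w hw hBw
  rw [hDeq]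
  exact hlab w hw hBw

open Classical in
/-- Kernel of the label map, twist by the powers of one element `z`. -/
theorem exists_pow_smul_eq_of_label_eq [Fintype H]
    (hF : ∀ g ∈ gens, ∀ x, g • x ∈ F ↔ x ∈ F)
    (hB : ∀ g ∈ gens, ∀ x ∈ F, B (g • x) = m g • B x)
    (hgen : Subgroup.closure (m '' gens) = ⊤) (hw0 : w0 ∈ F)
    (hfree : ∀ h : H, h • B w0 = B w0 → h = 1)
    {z : Γ} (hz : z ∈ Subgroup.closure gens) (hzB : ∀ x ∈ F, B (z • x) = B x) {n : ℕ}
    (hzfree : ∀ x ∈ F, ∀ k, 0 < k → k < n → z ^ k • x ≠ x)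
    (hfin : F.Finite) (hcard : F.ncard ≤ n * Fintype.card H) :
    ∀ w ∈ F, B w = B w0 → ∃ k, k < n ∧ z ^ k • w0 = w := by
  set T : Finset Γ := (Finset.range n).image fun k => z ^ k with hTdef
  have hTcard : T.card = n := by
    rw [hTdef, Finset.card_image_of_injOn, Finset.card_range]
    intro a ha b hb hab
    have ha' : a < n := Finset.mem_range.mp ha
    have hb' : b < n := Finset.mem_range.mp hb
    have hab' : z ^ a = z ^ b := hab
    exact pow_smul_injOn (hzfree w0 hw0) ha' hb' (by rw [hab'])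
  set D : Set X := (fun k : ℕ => z ^ k • w0) '' (Finset.range n : Set ℕ) with hD
  have hDF : D ⊆ F := by
    rintro _ ⟨k, _, rfl⟩
    exact (mem_iff_of_mem_closure hF (Subgroup.pow_mem _ hz k) w0).mpr hw0
  have hDB : ∀ d ∈ D, B d = B w0 := by
    rintro _ ⟨k, _, rfl⟩
    exact label_pow_smul hF hz hzB k w0 hw0
  have hDcard : T.card ≤ D.ncard := by
    have hinjD : Set.InjOn (fun k : ℕ => z ^ k • w0) (Finset.range n : Set ℕ) := by
      intro a ha b hb hab
      exact pow_smul_injOn (hzfree w0 hw0) (Finset.mem_range.mp ha) (Finset.mem_range.mp hb) hab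
    rw [hTcard, hD, Set.InjOn.ncard_image hinjD, Set.ncard_coe_finset, Finset.card_range]
  have key := mem_of_label_eq hF hB hgen hw0 hfree T ?_ ?_ ?_ hfin (hTcard.symm ▸ hcard)
    D hDF hDB hDcard
  · intro w hw hBw
    obtain ⟨k, hk, hkw⟩ := key w hw hBw
    exact ⟨k, Finset.mem_range.mp hk, hkw⟩
  · intro t ht
    obtain ⟨k, _, rfl⟩ := Finset.mem_image.mp ht
    exact Subgroup.pow_mem _ hz k
  · intro t ht x hx
    obtain ⟨k, _, rfl⟩ := Finset.mem_image.mp ht
    exact label_pow_smul hF hz hzB k x hx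
  · intro t ht t' ht' x hx h
    obtain ⟨a, ha, rfl⟩ := Finset.mem_image.mp ht
    obtain ⟨b, hb, rfl⟩ := Finset.mem_image.mp ht'
    have hab : a = b :=
      pow_smul_injOn (hzfree x hx) (Finset.mem_range.mp ha) (Finset.mem_range.mp hb) h
    rw [hab]

end count

/-! ### the action of `SL(2, ZMod 5)` on pairs -/

section action

/-- `SL(2, ZMod 5)`. -/
abbrev SL25 : Type := Matrix.SpecialLinearGroup (Fin 2) (ZMod 5)

/-- Pairs of elements of `N` (type synonym carrying the matrix action). -/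
def Lab (N : Type*) : Type _ := Fin 2 → N

variable {N : Type*} [AddCommGroup N] [Module (ZMod 5) N]

instance : SMul SL25 (Lab N) :=
  ⟨fun M b i => ∑ j, (M : Matrix (Fin 2) (Fin 2) (ZMod 5)) i j • b j⟩

theorem lab_smul_apply (M : SL25) (b : Lab N) (i : Fin 2) :
    (M • b) i = (M : Matrix (Fin 2) (Fin 2) (ZMod 5)) i 0 • b 0 +
      (M : Matrix (Fin 2) (Fin 2) (ZMod 5)) i 1 • b 1 := by
  show ∑ j, (M : Matrix (Fin 2) (Fin 2) (ZMod 5)) i j • b j = _
  rw [Fin.sum_univ_two]

instance : MulAction SL25 (Lab N) where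
  one_smul b := by
    funext i
    rw [lab_smul_apply]
    fin_cases i <;> simp
  mul_smul M M' b := by
    funext i
    simp only [lab_smul_apply, Matrix.SpecialLinearGroup.coe_mul, Matrix.mul_apply,
      Fin.sum_univ_two, smul_add, add_smul, mul_smul]
    abel

/-- the label `![Q x, P x]`. -/
def lab {V : Type*} (P Q : V → N) (x : V) : Lab N := ![Q x, P x]

theorem lab_zero {V : Type*} (P Q : V → N) (x : V) : lab P Q x 0 = Q x := rfl

theorem lab_one {V : Type*} (P Q : V → N) (x : V) : lab P Q x 1 = P x := rfl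

theorem lab_ext {b b' : Lab N} (h0 : b 0 = b' 0) (h1 : b 1 = b' 1) : b = b' := by
  funext i
  fin_cases i
  · exact h0
  · exact h1

end action

/-! ### the abstract Klein instance -/

section klein

variable {N : Type*} [AddCommGroup N] [Module (ZMod 5) N]
variable {Γ V : Type*} [Group Γ] [MulAction Γ V]

/-- The symmetry hypotheses on a fibre `F`: `s, t, z` preserve `F` and act on the labellings
`P, Q` as Klein's `S`, `T~`, `Z`. -/
structure KleinSym (s t z : Γ) (P Q : V → N) (F : Set V) : Prop where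
  hFs : ∀ x, s • x ∈ F ↔ x ∈ F
  hFt : ∀ x, t • x ∈ F ↔ x ∈ F
  hFz : ∀ x, z • x ∈ F ↔ x ∈ F
  Ps : ∀ x ∈ F, P (s • x) = Q x
  Qs : ∀ x ∈ F, Q (s • x) = -P x
  Pt : ∀ x ∈ F, P (t • x) = P x
  Qt : ∀ x ∈ F, Q (t • x) = Q x - P x
  Pz : ∀ x ∈ F, P (z • x) = P x
  Qz : ∀ x ∈ F, Q (z • x) = Q x

variable {s t z : Γ} {P Q : V → N} {F : Set V} {w0 : V}

instance : Fact (Nat.Prime 5) := ⟨by norm_num⟩

open Fermat.Agent.G35.SL2F5 in
theorem lab_s (h : KleinSym s t z P Q F) (x : V) (hx : x ∈ F) :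
    lab P Q (s • x) = Sg 5 • lab P Q x := by
  apply lab_ext
  · rw [lab_smul_apply, lab_zero, lab_zero, lab_one, h.Qs x hx]
    simp [Sg, weyl]
  · rw [lab_smul_apply, lab_one, lab_zero, lab_one, h.Ps x hx]
    simp [Sg, weyl]

open Fermat.Agent.G35.SL2F5 in
theorem lab_t (h : KleinSym s t z P Q F) (x : V) (hx : x ∈ F) :
    lab P Q (t • x) = (Tg 5)⁻¹ • lab P Q x := by
  have hT : ((Tg 5)⁻¹ : SL25) = upper (-1) := by
    rw [inv_eq_iff_mul_eq_one, Tg, ← upper_add]
    simp [upper_zero]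
  rw [hT]
  apply lab_ext
  · rw [lab_smul_apply, lab_zero, lab_zero, lab_one, h.Qt x hx]
    simp [upper, sub_eq_add_neg]
  · rw [lab_smul_apply, lab_one, lab_zero, lab_one, h.Pt x hx]
    simp [upper]

theorem lab_z (h : KleinSym s t z P Q F) (x : V) (hx : x ∈ F) :
    lab P Q (z • x) = lab P Q x := by
  apply lab_ext
  · rw [lab_zero, lab_zero, h.Qz x hx]
  · rw [lab_one, lab_one, h.Pz x hx]

/-- freeness of `SL(2, ZMod 5)` at an independent pair -/
theorem lab_free (hind : ∀ a b : ZMod 5, a • P w0 + b • Q w0 = 0 → a = 0 ∧ b = 0)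
    (M : SL25) (hM : M • lab P Q w0 = lab P Q w0) : M = 1 := by
  have h0 := congrFun hM 0
  have h1 := congrFun hM 1
  rw [lab_smul_apply, lab_zero, lab_one] at h0 h1
  have e0 : ((M : Matrix (Fin 2) (Fin 2) (ZMod 5)) 0 1) • P w0 +
      ((M : Matrix (Fin 2) (Fin 2) (ZMod 5)) 0 0 - 1) • Q w0 = 0 := by
    rw [sub_smul, one_smul, add_sub_assoc', add_comm, h0, sub_self]
  have e1 : ((M : Matrix (Fin 2) (Fin 2) (ZMod 5)) 1 1 - 1) • P w0 +
      ((M : Matrix (Fin 2) (Fin 2) (ZMod 5)) 1 0) • Q w0 = 0 := by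
    rw [sub_smul, one_smul, sub_add_eq_add_sub, add_comm, h1, sub_self]
  obtain ⟨a01, a00⟩ := hind _ _ e0
  obtain ⟨a11, a10⟩ := hind _ _ e1
  ext i j
  fin_cases i <;> fin_cases j
  · simpa using sub_eq_zero.mp a00
  · simpa using a01
  · simpa using a10
  · simpa using sub_eq_zero.mp a11

open Classical in
/-- the label of a generator -/
noncomputable def genLabel (s t : Γ) (g : Γ) : SL25 :=
  if g = s then SL2F5.Sg 5 else if g = t then (SL2F5.Tg 5)⁻¹ else 1

/-- the three generators are distinct (consequence of the independence of `P w0, Q w0`) -/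
theorem gens_ne (h : KleinSym s t z P Q F) (hw0 : w0 ∈ F)
    (hind : ∀ a b : ZMod 5, a • P w0 + b • Q w0 = 0 → a = 0 ∧ b = 0) :
    s ≠ t ∧ s ≠ z ∧ t ≠ z := by
  have h10 : (1 : ZMod 5) ≠ 0 := one_ne_zero
  have hPQ : Q w0 ≠ P w0 := by
    intro e
    have : (1 : ZMod 5) • P w0 + (-1 : ZMod 5) • Q w0 = 0 := by
      rw [one_smul, neg_smul, one_smul, e, add_neg_cancel]
    exact h10 (hind _ _ this).1
  have hP : P w0 ≠ 0 := by
    intro e
    have : (1 : ZMod 5) • P w0 + (0 : ZMod 5) • Q w0 = 0 := by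
      rw [one_smul, zero_smul, e, add_zero]
    exact h10 (hind _ _ this).1
  refine ⟨?_, ?_, ?_⟩
  · intro e
    have h1 := h.Ps w0 hw0
    rw [e, h.Pt w0 hw0] at h1
    exact hPQ h1.symm
  · intro e
    have h1 := h.Ps w0 hw0
    rw [e, h.Pz w0 hw0] at h1
    exact hPQ h1.symm
  · intro e
    have h1 := h.Qt w0 hw0
    rw [e, h.Qz w0 hw0] at h1
    apply hP
    have : Q w0 - (Q w0 - P w0) = 0 := by rw [← h1, sub_self]
    simpa using this

theorem genLabel_spec (h : KleinSym s t z P Q F) (hw0 : w0 ∈ F)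
    (hind : ∀ a b : ZMod 5, a • P w0 + b • Q w0 = 0 → a = 0 ∧ b = 0) :
    ∀ g ∈ ({s, t, z} : Set Γ), ∀ x ∈ F, lab P Q (g • x) = genLabel s t g • lab P Q x := by
  obtain ⟨hst, hsz, htz⟩ := gens_ne h hw0 hind
  intro g hg x hx
  rcases hg with rfl | rfl | rfl
  · rw [genLabel, if_pos rfl]
    exact lab_s h x hx
  · rw [genLabel, if_neg (Ne.symm hst), if_pos rfl]
    exact lab_t h x hx
  · rw [genLabel, if_neg (Ne.symm hsz), if_neg (Ne.symm htz), one_smul]
    exact lab_z h x hx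

theorem genLabel_closure (h : KleinSym s t z P Q F) (hw0 : w0 ∈ F)
    (hind : ∀ a b : ZMod 5, a • P w0 + b • Q w0 = 0 → a = 0 ∧ b = 0) :
    Subgroup.closure (genLabel s t '' ({s, t, z} : Set Γ)) = ⊤ := by
  obtain ⟨hst, _, _⟩ := gens_ne h hw0 hind
  rw [eq_top_iff, ← SL2F5.closure_S_T_eq_top 5, Subgroup.closure_le]
  rintro g (rfl | rfl)
  · apply Subgroup.subset_closure
    refine ⟨s, by simp, ?_⟩
    rw [genLabel, if_pos rfl]
  · have : (SL2F5.Tg 5)⁻¹ ∈ Subgroup.closure (genLabel s t '' ({s, t, z} : Set Γ)) := by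
      apply Subgroup.subset_closure
      refine ⟨t, by simp, ?_⟩
      rw [genLabel, if_neg (Ne.symm hst), if_pos rfl]
    simpa using Subgroup.inv_mem _ this

theorem stable_gens (h : KleinSym s t z P Q F) :
    ∀ g ∈ ({s, t, z} : Set Γ), ∀ x, g • x ∈ F ↔ x ∈ F := by
  intro g hg x
  rcases hg with rfl | rfl | rfl
  · exact h.hFs x
  · exact h.hFt x
  · exact h.hFz x

theorem card_SL25 [Fintype SL25] : Fintype.card SL25 = 120 := by
  rw [← Nat.card_eq_fintype_card]
  exact SL2F5.card_SL2_five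

/-- **Transitivity** of `closure {s, t, z}` on the fibre. -/
theorem exists_smul_eq (h : KleinSym s t z P Q F) (hw0 : w0 ∈ F)
    (hind : ∀ a b : ZMod 5, a • P w0 + b • Q w0 = 0 → a = 0 ∧ b = 0)
    (hzfree : ∀ x ∈ F, ∀ k, 0 < k → k < 5 → z ^ k • x ≠ x)
    (hfin : F.Finite) (hcard : F.ncard ≤ 600) :
    ∀ w ∈ F, ∃ γ ∈ Subgroup.closure ({s, t, z} : Set Γ), γ • w0 = w := by
  classical
  have : Fintype SL25 := Fintype.ofFinite SL25
  refine OrbitCount.exists_smul_eq_of_ncard_le_pow (H := SL25) (B := lab P Q)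
    (m := genLabel s t) (stable_gens h) (genLabel_spec h hw0 hind)
    (genLabel_closure h hw0 hind) hw0 (lab_free hind)
    (z := z) (Subgroup.subset_closure (by simp)) (lab_z h) (n := 5) hzfree hfin ?_
  rw [card_SL25]
  exact hcard

/-- **Kernel of the label map**: a point of the fibre with the same `P` and `Q` as `w0` is
`z ^ k • w0` with `k < 5`. -/
theorem exists_pow_of_label_eq (h : KleinSym s t z P Q F) (hw0 : w0 ∈ F)
    (hind : ∀ a b : ZMod 5, a • P w0 + b • Q w0 = 0 → a = 0 ∧ b = 0)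
    (hzfree : ∀ x ∈ F, ∀ k, 0 < k → k < 5 → z ^ k • x ≠ x)
    (hfin : F.Finite) (hcard : F.ncard ≤ 600) :
    ∀ w ∈ F, P w = P w0 → Q w = Q w0 → ∃ k, k < 5 ∧ z ^ k • w0 = w := by
  classical
  have : Fintype SL25 := Fintype.ofFinite SL25
  intro w hw hP hQ
  refine exists_pow_smul_eq_of_label_eq (H := SL25) (B := lab P Q)
    (m := genLabel s t) (stable_gens h) (genLabel_spec h hw0 hind)
    (genLabel_closure h hw0 hind) hw0 (lab_free hind)
    (z := z) (Subgroup.subset_closure (by simp)) (lab_z h) (n := 5) hzfree hfin ?_ w hw ?_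
  · rw [card_SL25]
    exact hcard
  · exact lab_ext hQ hP

/-- **Labels**: every element of `closure {s, t, z}` acts on the labels through a matrix of
`SL(2, ZMod 5)`. -/
theorem exists_label (h : KleinSym s t z P Q F) (hw0 : w0 ∈ F)
    (hind : ∀ a b : ZMod 5, a • P w0 + b • Q w0 = 0 → a = 0 ∧ b = 0)
    {γ : Γ} (hγ : γ ∈ Subgroup.closure ({s, t, z} : Set Γ)) :
    ∃ M : SL25, ∀ x ∈ F, lab P Q (γ • x) = M • lab P Q x := by
  obtain ⟨M, _, hM⟩ := OrbitCount.exists_label_of_mem_closure (B := lab P Q)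
    (m := genLabel s t) (stable_gens h) (genLabel_spec h hw0 hind) hγ
  exact ⟨M, hM⟩

/-- the closure preserves the fibre -/
theorem smul_mem_iff (h : KleinSym s t z P Q F) {γ : Γ}
    (hγ : γ ∈ Subgroup.closure ({s, t, z} : Set Γ)) (x : V) : γ • x ∈ F ↔ x ∈ F :=
  OrbitCount.mem_iff_of_mem_closure (stable_gens h) hγ x

end klein

end Fermat.Agent.G35.TransAbs
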