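/-
GATE-Q / S52 (3–5 switch), node Q4(G) `S52-Q4G-CONGCOCYCLE` (helper13): the `(cong)` clause of the
Q4 output contract T1 as ONE standalone theorem.

`fiveCongTN_of_cocycle` : let `W, W'` be integral Weierstrass curves with `Δ ≠ 0`, `ζ` a primitive
5th root of unity in `ℚ̄`, `w₀` a point of the Klein fibre over `(c₄(W), -c₆(W))` and `w₁` a point
of the Klein fibre over `(c₄(W'), -c₆(W'))`.  If for every `σ ∈ G_ℚ` there is ONE matrix
`A σ ∈ ⟨S, T̃, Z⟩` with `σ w₀ = A σ • w₀` and `σ w₁ = A σ • w₁`, then `W` and `W'` are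
`5`-congruent: `TopTN.FiveCongTN W W'`.

Route: labels `P, Q = P ∘ S` (helper43 `Sym.P5`, `Sym.Q5` on `shortQb W`, pushed to `W(ℚ̄)` by
helper63's `curveIso`); generator identities = `Sym.kleinSym`; generator induction and the Galois
matrix = `GalMatrix` (helper13); Galois action on the labels = helper16 `GalPoints`
(`σ • P_ζ(w) = k • P_ζ(σ w)`, `σ • Q(w) = Q(σ w)`); independence = helper43 `Basis`;
conclusion = helper56 `fiveCongTN_of_basis`.
-/
import Fermat.Agent.G35.GalMatrix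
import Fermat.Agent.G35.Sym.GalPoints
import Fermat.Agent.G35.Sym.KleinSymInst
import Fermat.Agent.G35.FiveCongOfBasis

set_option autoImplicit false

open scoped WeierstrassCurve.Affine

namespace Fermat.Agent.G35.CongOfCocycle

open Fermat.Agent.G35.GalMatrix

/-! ### two generic complements to `GalMatrix` -/

section generic

variable {V : Type*} {Γ : Type*} [Group Γ] {I : Type*} {E : I → Type*} [∀ i, AddCommGroup (E i)]
variable {act : Γ → V → V} {X : I → Set V} {P : ∀ i, V → E i} {s : Γ}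

set_option linter.unusedSectionVars false

/-- the inverse of a unimodular label matrix: no finite-order hypothesis needed -/
theorem lin_inv_of_det (hone : ∀ w, act 1 w = w)
    (hmul : ∀ g h w, act (g * h) w = act g (act h w)) {g : Γ} {a b c d : ℤ}
    (hs : Stab act X g) (hg : Lin act X P s g a b c d) (hdet : a * d - b * c = 1) :
    Lin act X P s g⁻¹ d (-b) (-c) a := by
  intro i w hw
  have hw' : act g⁻¹ w ∈ X i := (hs i w hw).2
  obtain ⟨h1, h2⟩ := hg i _ hw'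
  have e : act g (act g⁻¹ w) = w := by rw [← hmul, mul_inv_cancel, hone]
  rw [e] at h1 h2
  have k1 : (a * d - b * c) • P i (act g⁻¹ w) = P i (act g⁻¹ w) := by rw [hdet, one_smul]
  have k2 : (a * d - b * c) • P i (act s (act g⁻¹ w)) = P i (act s (act g⁻¹ w)) := by
    rw [hdet, one_smul]
  constructor
  · rw [h1, h2]
    conv_lhs => rw [← k1]
    module
  · rw [h1, h2]
    conv_lhs => rw [← k2]
    module

theorem hasLin_inv_of_det (hone : ∀ w, act 1 w = w)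
    (hmul : ∀ g h w, act (g * h) w = act g (act h w)) {g : Γ} {a b c d : ℤ}
    (hs : Stab act X g) (hg : Lin act X P s g a b c d) (hdet : a * d - b * c = 1) :
    HasLin act X P s g⁻¹ :=
  ⟨_, _, _, _, lin_inv_of_det hone hmul hs hg hdet⟩

/-- variant of `GalMatrix.exists_galois_matrix` when the second label `Q = P ∘ s` is RATIONAL
(`σ • Q w = Q (σ w)`): no hypothesis on `σ(s)`. -/
theorem exists_galois_matrix_rat (σV : V → V) (σE : ∀ i, E i → E i) (k : ℤ)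
    (hσP : ∀ i, ∀ w ∈ X i, σE i (P i w) = k • P i (σV w))
    (hσQ : ∀ i, ∀ w ∈ X i, σE i (P i (act s w)) = P i (act s (σV w)))
    (A : Γ) (hA : HasLin act X P s A) :
    ∃ a b c d : ℤ, ∀ i, ∀ w ∈ X i, σV w = act A w →
      σE i (P i w) = a • P i w + c • P i (act s w) ∧
      σE i (P i (act s w)) = b • P i w + d • P i (act s w) := by
  obtain ⟨a, b, c, d, hA⟩ := hA
  refine ⟨k * a, b, k * c, d, ?_⟩
  intro i w hw hσw
  constructor
  · rw [hσP i w hw, hσw, (hA i w hw).1, smul_add, smul_smul, smul_smul]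
  · rw [hσQ i w hw, hσw, (hA i w hw).2]

end generic

/-! ### the Klein instance -/

open WeierstrassCurve Matrix
open Fermat.Agent.G35.Sym Fermat.Agent.G35.Sym.GalPoints Fermat.Agent.G35.ShortIso
open Fermat.Agent.G35.Cocycle Fermat.Agent.G35.KleinTrans Fermat.Agent.GE.ECAssembly

local notation "Qb" => AlgebraicClosure ℚ
local notation "GQ" => (AlgebraicClosure ℚ ≃ₐ[ℚ] AlgebraicClosure ℚ)

/-- index set: integral curves with nonzero discriminant -/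
abbrev Idx : Type := {W : WeierstrassCurve ℤ // W.Δ ≠ 0}

/-- `c₄(W)` in `ℚ̄` -/
noncomputable def cQ (i : Idx) : Qb := ((i.1.c₄ : ℤ) : Qb)

/-- `-c₆(W)` in `ℚ̄` -/
noncomputable def tQ (i : Idx) : Qb := -((i.1.c₆ : ℤ) : Qb)

theorem shortQb_a₄_eq (i : Idx) : (shortQb i.1).a₄ = -27 * cQ i := rfl

theorem shortQb_a₆_eq (i : Idx) : (shortQb i.1).a₆ = 54 * tQ i := by
  rw [shortQb_a₆, tQ]; ring

theorem cQ_cube_ne (i : Idx) : cQ i ^ 3 ≠ tQ i ^ 2 := by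
  intro h
  have hΔ := shortQb_Δ_ne_zero i.1 i.2
  rw [(isShort_shortQb i.1).Δ_eq, shortQb_a₄_eq, shortQb_a₆_eq] at hΔ
  apply hΔ
  linear_combination (16 * 78732 : Qb) * h

/-- the fibre over `(c₄(W), -c₆(W))` -/
noncomputable def fib (i : Idx) : Set (Fin 2 → Qb) := fibreVec (cQ i) (tQ i)

theorem inFib_of_mem {i : Idx} {w : Fin 2 → Qb} (hw : w ∈ fib i) :
    InFib (shortQb i.1) (w 0) (w 1) :=
  (inFib_iff_mem_fibreVec (shortQb_a₄_eq i) (shortQb_a₆_eq i) w).mpr hw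

theorem mem_of_inFib {i : Idx} {w : Fin 2 → Qb} (hw : InFib (shortQb i.1) (w 0) (w 1)) :
    w ∈ fib i :=
  (inFib_iff_mem_fibreVec (shortQb_a₄_eq i) (shortQb_a₆_eq i) w).mp hw

section klein

variable {ζ : Qb} (hζ : ζ ^ 4 + ζ ^ 3 + ζ ^ 2 + ζ + 1 = 0)

/-- the label `P` in `W(ℚ̄)` (total map) -/
noncomputable def PW (i : Idx) (w : Fin 2 → Qb) : (EQb i.1).Point :=
  curveIso (W := i.1) rfl
    ((P5 (isShort_shortQb i.1) (shortQb_Δ_ne_zero i.1 i.2) hζ w : Tors5 (shortQb i.1)) :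
      (shortQb i.1).toAffine.Point)

/-- the label `Q` in `W(ℚ̄)` (total map) -/
noncomputable def QW (i : Idx) (w : Fin 2 → Qb) : (EQb i.1).Point :=
  curveIso (W := i.1) rfl
    ((Q5 (isShort_shortQb i.1) (shortQb_Δ_ne_zero i.1 i.2) hζ w : Tors5 (shortQb i.1)) :
      (shortQb i.1).toAffine.Point)

theorem PW_of_mem {i : Idx} {w : Fin 2 → Qb} (h : InFib (shortQb i.1) (w 0) (w 1)) :
    PW hζ i w = curveIso (W := i.1) rfl
      (ptP (isShort_shortQb i.1) (shortQb_Δ_ne_zero i.1 i.2) hζ h) := by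
  unfold PW; rw [coe_P5_of_mem]

theorem QW_of_mem {i : Idx} {w : Fin 2 → Qb} (h : InFib (shortQb i.1) (w 0) (w 1)) :
    QW hζ i w = curveIso (W := i.1) rfl
      (ptQ (isShort_shortQb i.1) (shortQb_Δ_ne_zero i.1 i.2) h) := by
  unfold QW; rw [coe_Q5_of_mem]

/-- the `KleinSym` package of helper43 on the fibre of `W` -/
theorem kleinSymW (i : Idx) :
    Fermat.Agent.G35.TransAbs.KleinSym (gS hζ) (gT hζ) (gZ hζ)
      (P5 (isShort_shortQb i.1) (shortQb_Δ_ne_zero i.1 i.2) hζ)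
      (Q5 (isShort_shortQb i.1) (shortQb_Δ_ne_zero i.1 i.2) hζ) (fib i) :=
  kleinSym (isShort_shortQb i.1) (shortQb_a₄_eq i) (shortQb_a₆_eq i) (cQ_cube_ne i) hζ

theorem PW_gS {i : Idx} {w : Fin 2 → Qb} (hw : w ∈ fib i) :
    PW hζ i (gS hζ • w) = QW hζ i w := by
  unfold PW QW; rw [(kleinSymW hζ i).Ps w hw]

theorem QW_gS {i : Idx} {w : Fin 2 → Qb} (hw : w ∈ fib i) :
    QW hζ i (gS hζ • w) = -PW hζ i w := by
  unfold PW QW; rw [(kleinSymW hζ i).Qs w hw, Submodule.coe_neg, map_neg]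

theorem PW_gT {i : Idx} {w : Fin 2 → Qb} (hw : w ∈ fib i) :
    PW hζ i (gT hζ • w) = PW hζ i w := by
  unfold PW; rw [(kleinSymW hζ i).Pt w hw]

theorem QW_gT {i : Idx} {w : Fin 2 → Qb} (hw : w ∈ fib i) :
    QW hζ i (gT hζ • w) = QW hζ i w - PW hζ i w := by
  unfold PW QW; rw [(kleinSymW hζ i).Qt w hw, Submodule.coe_sub, map_sub]

theorem PW_gZ {i : Idx} {w : Fin 2 → Qb} (hw : w ∈ fib i) :
    PW hζ i (gZ hζ • w) = PW hζ i w := by
  unfold PW; rw [(kleinSymW hζ i).Pz w hw]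

theorem QW_gZ {i : Idx} {w : Fin 2 → Qb} (hw : w ∈ fib i) :
    QW hζ i (gZ hζ • w) = QW hζ i w := by
  unfold QW; rw [(kleinSymW hζ i).Qz w hw]

/-- the action of `GL₂(ℚ̄)` on the cone -/
noncomputable def actGL : GL (Fin 2) Qb → (Fin 2 → Qb) → (Fin 2 → Qb) := fun M w => M • w

theorem actGL_one (w : Fin 2 → Qb) : actGL 1 w = w := one_smul _ w

theorem actGL_mul (g h : GL (Fin 2) Qb) (w : Fin 2 → Qb) :
    actGL (g * h) w = actGL g (actGL h w) := mul_smul g h w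

theorem stab_of_mem_formStab {M : GL (Fin 2) Qb} (hM : M ∈ formStab Qb) :
    Stab actGL fib M := by
  intro i w hw
  exact ⟨(smul_mem_fibreVec_iff hM _ _ w).mpr hw,
    (smul_mem_fibreVec_iff ((formStab Qb).inv_mem hM) _ _ w).mpr hw⟩

theorem lin_gS : Lin actGL fib (PW hζ) (gS hζ) (gS hζ) 0 (-1) 1 0 := by
  intro i w hw
  have hSw : gS hζ • w ∈ fib i := (smul_mem_fibreVec_iff (gS_mem_formStab hζ) _ _ w).mpr hw
  constructor
  · show PW hζ i (gS hζ • w) = (0 : ℤ) • PW hζ i w + (1 : ℤ) • PW hζ i (gS hζ • w)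
    rw [zero_zsmul, one_zsmul, zero_add]
  · show PW hζ i (gS hζ • (gS hζ • w)) = (-1 : ℤ) • PW hζ i w + (0 : ℤ) • PW hζ i (gS hζ • w)
    rw [PW_gS hζ hSw, QW_gS hζ hw, zero_zsmul, add_zero, neg_one_zsmul]

theorem lin_gT : Lin actGL fib (PW hζ) (gS hζ) (gT hζ) 1 (-1) 0 1 := by
  intro i w hw
  have hTw : gT hζ • w ∈ fib i := (smul_mem_fibreVec_iff (gT_mem_formStab hζ) _ _ w).mpr hw
  constructor
  · show PW hζ i (gT hζ • w) = (1 : ℤ) • PW hζ i w + (0 : ℤ) • PW hζ i (gS hζ • w)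
    rw [PW_gT hζ hw, zero_zsmul, one_zsmul, add_zero]
  · show PW hζ i (gS hζ • (gT hζ • w)) = (-1 : ℤ) • PW hζ i w + (1 : ℤ) • PW hζ i (gS hζ • w)
    rw [PW_gS hζ hTw, QW_gT hζ hw, PW_gS hζ hw, neg_one_zsmul, one_zsmul]
    abel

theorem lin_gZ : Lin actGL fib (PW hζ) (gS hζ) (gZ hζ) 1 0 0 1 := by
  intro i w hw
  have hZw : gZ hζ • w ∈ fib i := (smul_mem_fibreVec_iff (gZ_mem_formStab hζ) _ _ w).mpr hw
  constructor
  · show PW hζ i (gZ hζ • w) = (1 : ℤ) • PW hζ i w + (0 : ℤ) • PW hζ i (gS hζ • w)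
    rw [PW_gZ hζ hw, zero_zsmul, one_zsmul, add_zero]
  · show PW hζ i (gS hζ • (gZ hζ • w)) = (0 : ℤ) • PW hζ i w + (1 : ℤ) • PW hζ i (gS hζ • w)
    rw [PW_gS hζ hZw, QW_gZ hζ hw, PW_gS hζ hw, zero_zsmul, one_zsmul, zero_add]

/-- **generator induction, Klein instance**: every `M ∈ ⟨S, T̃, Z⟩` acts on the labels by an
integer matrix, uniformly over all curves `W`. -/
theorem hasLin_of_mem_closure {M : GL (Fin 2) Qb} (hM : M ∈ Subgroup.closure (kleinGens hζ)) :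
    HasLin actGL fib (PW hζ) (gS hζ) M := by
  have hstab : ∀ g ∈ kleinGens hζ, Stab actGL fib g := fun g hg =>
    stab_of_mem_formStab (kleinGens_subset_formStab hζ hg)
  have hgen : ∀ g ∈ kleinGens hζ, HasLin actGL fib (PW hζ) (gS hζ) g := by
    intro g hg
    rcases hg with rfl | rfl | rfl
    · exact ⟨_, _, _, _, lin_gS hζ⟩
    · exact ⟨_, _, _, _, lin_gT hζ⟩
    · exact ⟨_, _, _, _, lin_gZ hζ⟩
  have hgeninv : ∀ g ∈ kleinGens hζ, HasLin actGL fib (PW hζ) (gS hζ) g⁻¹ := by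
    intro g hg
    have hs := hstab g hg
    rcases hg with rfl | rfl | rfl
    · exact hasLin_inv_of_det actGL_one actGL_mul hs (lin_gS hζ) (by norm_num)
    · exact hasLin_inv_of_det actGL_one actGL_mul hs (lin_gT hζ) (by norm_num)
    · exact hasLin_inv_of_det actGL_one actGL_mul hs (lin_gZ hζ) (by norm_num)
  exact (exists_lin_of_mem_closure actGL_one actGL_mul (kleinGens hζ) hstab hgen hgeninv hM).2.1

/-! ### the Galois action on the labels -/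

/-- coordinatewise Galois action on the cone -/
noncomputable def galV (σ : GQ) (w : Fin 2 → Qb) : Fin 2 → Qb := fun j => σ (w j)

theorem galV_mem (σ : GQ) {i : Idx} {w : Fin 2 → Qb} (hw : w ∈ fib i) : galV σ w ∈ fib i :=
  mem_of_inFib (inFib_conj (W := i.1) rfl σ (inFib_of_mem hw))

theorem smul_PW (σ : GQ) (k : ℕ) (hσ : σ ζ = ζ ^ k) {i : Idx} {w : Fin 2 → Qb} (hw : w ∈ fib i) :
    σ • PW hζ i w = (k : ℤ) • PW hζ i (galV σ w) := by
  have h := inFib_of_mem hw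
  have h' : InFib (shortQb i.1) (galV σ w 0) (galV σ w 1) := inFib_of_mem (galV_mem σ hw)
  rw [PW_of_mem hζ h, PW_of_mem hζ h', natCast_zsmul]
  exact smul_curveIso_ptP (W := i.1) rfl (isShort_shortQb i.1) (shortQb_Δ_ne_zero i.1 i.2) hζ σ k
    hσ h

theorem smul_QW (σ : GQ) {i : Idx} {w : Fin 2 → Qb} (hw : w ∈ fib i) :
    σ • QW hζ i w = QW hζ i (galV σ w) := by
  have h := inFib_of_mem hw
  have h' : InFib (shortQb i.1) (galV σ w 0) (galV σ w 1) := inFib_of_mem (galV_mem σ hw)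
  rw [QW_of_mem hζ h, QW_of_mem hζ h']
  exact smul_curveIso_ptQ (W := i.1) rfl (isShort_shortQb i.1) (shortQb_Δ_ne_zero i.1 i.2) σ h

/-- **the Galois matrix of the labels depends on `(σ, A σ)` only** -/
theorem exists_galois_matrix_klein (σ : GQ) {A : GL (Fin 2) Qb}
    (hA : A ∈ Subgroup.closure (kleinGens hζ)) :
    ∃ a b c d : ℤ, ∀ i : Idx, ∀ w ∈ fib i, galV σ w = A • w →
      σ • PW hζ i w = a • PW hζ i w + c • QW hζ i w ∧
      σ • QW hζ i w = b • PW hζ i w + d • QW hζ i w := by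
  obtain ⟨k, -, -, hk⟩ := exists_pow_eq_conj' hζ σ
  obtain ⟨a, b, c, d, h⟩ := exists_galois_matrix_rat (act := actGL) (X := fib) (P := PW hζ)
    (s := gS hζ) (galV σ) (fun i (R : (EQb i.1).Point) => σ • R) (k : ℤ)
    (fun i w hw => smul_PW hζ σ k hk hw)
    (fun i w hw => by
      show σ • PW hζ i (gS hζ • w) = PW hζ i (gS hζ • galV σ w)
      rw [PW_gS hζ hw, PW_gS hζ (galV_mem σ hw)]
      exact smul_QW hζ σ hw)
    A (hasLin_of_mem_closure hζ hA)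
  refine ⟨a, b, c, d, fun i w hw hσw => ?_⟩
  have := h i w hw hσw
  simp only [actGL] at this
  rw [PW_gS hζ hw] at this
  exact this

/-! ### torsion and independence of the labels -/

theorem five_nsmul_PW {i : Idx} {w : Fin 2 → Qb} (hw : w ∈ fib i) : (5 : ℕ) • PW hζ i w = 0 := by
  rw [PW_of_mem hζ (inFib_of_mem hw), ← map_nsmul, five_nsmul_ptP, map_zero]

theorem five_nsmul_QW {i : Idx} {w : Fin 2 → Qb} (hw : w ∈ fib i) : (5 : ℕ) • QW hζ i w = 0 := by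
  rw [QW_of_mem hζ (inFib_of_mem hw), ← map_nsmul, five_nsmul_ptQ _ _ hζ, map_zero]

theorem indep_PW_QW {i : Idx} {w : Fin 2 → Qb} (hw : w ∈ fib i) (a b : ℤ)
    (hab : a • PW hζ i w + b • QW hζ i w = 0) : (5 : ℤ) ∣ a ∧ (5 : ℤ) ∣ b := by
  have h := inFib_of_mem hw
  rw [PW_of_mem hζ h, QW_of_mem hζ h, ← map_zsmul, ← map_zsmul, ← map_add,
    AddEquivClass.map_eq_zero_iff] at hab
  exact five_dvd_of_zsmul_add_zsmul _ _ hζ h a b hab

end klein

/-- **T1 (cong)**: a common `⟨S, T̃, Z⟩`-valued cocycle for a point of the Klein fibre of `W` and a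
point of the Klein fibre of `W'` makes `W` and `W'` `5`-congruent. -/
theorem fiveCongTN_of_cocycle {W W' : WeierstrassCurve ℤ} (hΔ : W.Δ ≠ 0) (hΔ' : W'.Δ ≠ 0)
    {ζ : Qb} (hζ : ζ ^ 4 + ζ ^ 3 + ζ ^ 2 + ζ + 1 = 0) (w₀ w₁ : Fin 2 → Qb)
    (h₀ : w₀ ∈ fibreVec (((W.c₄ : ℤ) : Qb)) (-((W.c₆ : ℤ) : Qb)))
    (h₁ : w₁ ∈ fibreVec (((W'.c₄ : ℤ) : Qb)) (-((W'.c₆ : ℤ) : Qb)))
    (A : GQ → GL (Fin 2) Qb) (hA : ∀ σ, A σ ∈ Subgroup.closure (kleinGens hζ))
    (hσ₀ : ∀ σ : GQ, (fun j => σ (w₀ j)) = A σ • w₀)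
    (hσ₁ : ∀ σ : GQ, (fun j => σ (w₁ j)) = A σ • w₁) :
    Fermat.Agent.G35.TopTN.FiveCongTN W W' := by
  have hw₀ : w₀ ∈ fib ⟨W, hΔ⟩ := h₀
  have hw₁ : w₁ ∈ fib ⟨W', hΔ'⟩ := h₁
  refine Fermat.Agent.G35.FiveCongOfBasis.fiveCongTN_of_basis hΔ
    (PW hζ ⟨W, hΔ⟩ w₀) (QW hζ ⟨W, hΔ⟩ w₀) (PW hζ ⟨W', hΔ'⟩ w₁) (QW hζ ⟨W', hΔ'⟩ w₁)
    (five_nsmul_PW hζ hw₀) (five_nsmul_QW hζ hw₀) (five_nsmul_PW hζ hw₁) (five_nsmul_QW hζ hw₁)
    (indep_PW_QW hζ hw₀) (indep_PW_QW hζ hw₁) ?_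
  intro σ
  obtain ⟨a, b, c, d, h⟩ := exists_galois_matrix_klein hζ σ (hA σ)
  have e₀ := h ⟨W, hΔ⟩ w₀ hw₀ (hσ₀ σ)
  have e₁ := h ⟨W', hΔ'⟩ w₁ hw₁ (hσ₁ σ)
  exact ⟨a, b, c, d, e₀.1, e₀.2, e₁.1, e₁.2⟩

end Fermat.Agent.G35.CongOfCocycle
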