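/-
GATE-Q / S52-Q4B-RATFORMS (helper60): the rational one-parameter family of node Q4, in the exact
input shape of `Integral.exists_semistable_member` (helper92, node Q5).

`L/K` Galois with `L` algebraically closed of characteristic `0` (think `ℚ̄/ℚ`).  Let
`A : Gal(L/K) → GL₂(L)` take values in `formStab` (the substitutions preserving Klein's forms
`c4`, `T6`) and let `w₀, w₁ ∈ L²` be linearly independent twisted invariants,
`σ wᵢ = A σ *ᵥ wᵢ` (the output of `H90.descent_algClosure`: `wᵢ = ι eᵢ`).  Then the restrictions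
of `c4` and `-T6` to the line `w₀ + t w₁` are polynomials `f4, f6 ∈ K[X]`, and they are coprime.
-/
import Fermat.Agent.G35.Cocycle
import Fermat.Agent.G35.FibreKlein

set_option autoImplicit false

namespace Fermat.Agent.G35.RatForms

open Polynomial Matrix Fermat.Agent.G35.Free Fermat.Agent.G35.Cocycle

section generic

variable {K L : Type*} [Field K] [Field L] [Algebra K L]

/-- A polynomial over `L` fixed by all `K`-automorphisms descends to `K` (when `L^G = K`). -/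
theorem exists_map_eq_of_fixed
    (hfix : ∀ x : L, (∀ σ : L ≃ₐ[K] L, σ x = x) → x ∈ Set.range (algebraMap K L))
    (F : L[X]) (hF : ∀ σ : L ≃ₐ[K] L, F.map (σ : L →+* L) = F) :
    ∃ f : K[X], f.map (algebraMap K L) = F := by
  have hmem : F ∈ lifts (algebraMap K L) := by
    rw [lifts_iff_coeff_lifts]
    intro n
    apply hfix
    intro σ
    have h := congrArg (fun p : L[X] => p.coeff n) (hF σ)
    simpa [coeff_map] using h
  exact (mem_lifts F).mp hmem

end generic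

section klein

variable {L : Type*} [Field L]

/-- `c4` restricted to the line `w₀ + X w₁`, as a polynomial. -/
noncomputable def lineC4 (w₀ w₁ : Fin 2 → L) : L[X] :=
  c4 (C (w₀ 0) + C (w₁ 0) * X) (C (w₀ 1) + C (w₁ 1) * X)

/-- `T6` restricted to the line `w₀ + X w₁`, as a polynomial. -/
noncomputable def lineT6 (w₀ w₁ : Fin 2 → L) : L[X] :=
  T6 (C (w₀ 0) + C (w₁ 0) * X) (C (w₀ 1) + C (w₁ 1) * X)

theorem lineC4_eval (w₀ w₁ : Fin 2 → L) (r : L) :
    (lineC4 w₀ w₁).eval r = c4 (w₀ 0 + w₁ 0 * r) (w₀ 1 + w₁ 1 * r) := by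
  unfold lineC4
  rw [← coe_evalRingHom, map_c4 (evalRingHom r)]
  simp

theorem lineT6_eval (w₀ w₁ : Fin 2 → L) (r : L) :
    (lineT6 w₀ w₁).eval r = T6 (w₀ 0 + w₁ 0 * r) (w₀ 1 + w₁ 1 * r) := by
  unfold lineT6
  rw [← coe_evalRingHom, map_T6 (evalRingHom r)]
  simp

theorem lineC4_map {L' : Type*} [Field L'] (φ : L →+* L') (w₀ w₁ : Fin 2 → L) :
    (lineC4 w₀ w₁).map φ = lineC4 (fun i => φ (w₀ i)) (fun i => φ (w₁ i)) := by
  unfold lineC4
  rw [← coe_mapRingHom, map_c4 (mapRingHom φ)]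
  simp

theorem lineT6_map {L' : Type*} [Field L'] (φ : L →+* L') (w₀ w₁ : Fin 2 → L) :
    (lineT6 w₀ w₁).map φ = lineT6 (fun i => φ (w₀ i)) (fun i => φ (w₁ i)) := by
  unfold lineT6
  rw [← coe_mapRingHom, map_T6 (mapRingHom φ)]
  simp

theorem mulVec_line (M : Matrix (Fin 2) (Fin 2) L) (w₀ w₁ : Fin 2 → L) (r : L) (i : Fin 2) :
    (M *ᵥ w₀) i + (M *ᵥ w₁) i * r = (M *ᵥ (fun j => w₀ j + w₁ j * r)) i := by
  fin_cases i <;> simp [Matrix.mulVec, dotProduct, Fin.sum_univ_two] <;> ring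

/-- The line polynomials are unchanged when both points are moved by an element of
`formStab`. -/
theorem lineC4_mulVec [Infinite L] {M : GL (Fin 2) L} (hM : M ∈ formStab L)
    (w₀ w₁ : Fin 2 → L) :
    lineC4 ((M : Matrix (Fin 2) (Fin 2) L) *ᵥ w₀) ((M : Matrix (Fin 2) (Fin 2) L) *ᵥ w₁)
      = lineC4 w₀ w₁ := by
  apply Polynomial.funext
  intro r
  rw [lineC4_eval, lineC4_eval, mulVec_line, mulVec_line]
  exact (hM _).1

theorem lineT6_mulVec [Infinite L] {M : GL (Fin 2) L} (hM : M ∈ formStab L)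
    (w₀ w₁ : Fin 2 → L) :
    lineT6 ((M : Matrix (Fin 2) (Fin 2) L) *ᵥ w₀) ((M : Matrix (Fin 2) (Fin 2) L) *ᵥ w₁)
      = lineT6 w₀ w₁ := by
  apply Polynomial.funext
  intro r
  rw [lineT6_eval, lineT6_eval, mulVec_line, mulVec_line]
  exact (hM _).2

/-- Klein's forms `c4`, `T6` have no common zero except the origin (characteristic `0`). -/
theorem eq_zero_of_c4_T6_eq_zero [CharZero L] {u v : L} (h4 : c4 u v = 0) (h6 : T6 u v = 0) :
    u = 0 ∧ v = 0 := by
  by_cases hv : v = 0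
  · subst hv
    rw [Fermat.Agent.G35.FibreKlein.c4_zero_right] at h4
    exact ⟨pow_eq_zero_iff (by norm_num) |>.mp h4, rfl⟩
  · exfalso
    rw [Fermat.Agent.G35.FibreKlein.c4_dehom u v hv] at h4
    rw [Fermat.Agent.G35.FibreKlein.T6_dehom u v hv] at h6
    have h4' := (mul_eq_zero.mp h4).resolve_left (pow_ne_zero _ hv)
    have h6' := (mul_eq_zero.mp h6).resolve_left (pow_ne_zero _ hv)
    exact Fermat.Agent.G35.FibreKlein.P20_Q30_no_common_root (u / v) h4' h6'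

variable {K : Type*} [Field K] [Algebra K L]

/-- **The rational line forms** (node Q4 → node Q5). -/
theorem exists_line_forms [IsAlgClosed L] [CharZero L]
    (hfix : ∀ x : L, (∀ σ : L ≃ₐ[K] L, σ x = x) → x ∈ Set.range (algebraMap K L))
    (A : (L ≃ₐ[K] L) → GL (Fin 2) L) (hA : ∀ σ, A σ ∈ formStab L) (w₀ w₁ : Fin 2 → L)
    (h0 : ∀ σ : L ≃ₐ[K] L, (fun i => σ (w₀ i)) = (A σ : Matrix (Fin 2) (Fin 2) L) *ᵥ w₀)
    (h1 : ∀ σ : L ≃ₐ[K] L, (fun i => σ (w₁ i)) = (A σ : Matrix (Fin 2) (Fin 2) L) *ᵥ w₁)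
    (hli : LinearIndependent L ![w₀, w₁]) :
    ∃ f4 f6 : K[X],
      (∀ t : K, algebraMap K L (f4.eval t)
        = c4 (w₀ 0 + w₁ 0 * algebraMap K L t) (w₀ 1 + w₁ 1 * algebraMap K L t)) ∧
      (∀ t : K, algebraMap K L (f6.eval t)
        = -T6 (w₀ 0 + w₁ 0 * algebraMap K L t) (w₀ 1 + w₁ 1 * algebraMap K L t)) ∧
      IsCoprime f4 f6 := by
  have hinf : Infinite L := inferInstance
  obtain ⟨f4, hf4⟩ := exists_map_eq_of_fixed hfix (lineC4 w₀ w₁) (fun σ => by
    rw [lineC4_map]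
    have e0 : (fun i => (σ : L →+* L) (w₀ i)) = (A σ : Matrix (Fin 2) (Fin 2) L) *ᵥ w₀ := h0 σ
    have e1 : (fun i => (σ : L →+* L) (w₁ i)) = (A σ : Matrix (Fin 2) (Fin 2) L) *ᵥ w₁ := h1 σ
    rw [e0, e1]
    exact lineC4_mulVec (hA σ) w₀ w₁)
  obtain ⟨g6, hg6⟩ := exists_map_eq_of_fixed hfix (lineT6 w₀ w₁) (fun σ => by
    rw [lineT6_map]
    have e0 : (fun i => (σ : L →+* L) (w₀ i)) = (A σ : Matrix (Fin 2) (Fin 2) L) *ᵥ w₀ := h0 σ
    have e1 : (fun i => (σ : L →+* L) (w₁ i)) = (A σ : Matrix (Fin 2) (Fin 2) L) *ᵥ w₁ := h1 σ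
    rw [e0, e1]
    exact lineT6_mulVec (hA σ) w₀ w₁)
  have ev4 : ∀ a : L, aeval a f4 = c4 (w₀ 0 + w₁ 0 * a) (w₀ 1 + w₁ 1 * a) := by
    intro a
    rw [aeval_def, ← eval_map, hf4, lineC4_eval]
  have ev6 : ∀ a : L, aeval a g6 = T6 (w₀ 0 + w₁ 0 * a) (w₀ 1 + w₁ 1 * a) := by
    intro a
    rw [aeval_def, ← eval_map, hg6, lineT6_eval]
  refine ⟨f4, -g6, ?_, ?_, ?_⟩
  · intro t
    rw [← ev4, aeval_algebraMap_apply_eq_algebraMap_eval]
  · intro t
    rw [← ev6, aeval_algebraMap_apply_eq_algebraMap_eval, eval_neg, map_neg]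
  · rw [IsCoprime.neg_right_iff]
    rw [Polynomial.isCoprime_iff_aeval_ne_zero_of_isAlgClosed (k := K) L]
    intro a
    by_contra hcon
    obtain ⟨hn4, hn6⟩ := not_or.mp hcon
    have ha4 := not_not.mp hn4
    have ha6 := not_not.mp hn6
    rw [ev4] at ha4
    rw [ev6] at ha6
    obtain ⟨hu, hv⟩ := eq_zero_of_c4_T6_eq_zero ha4 ha6
    have hzero : (1 : L) • w₀ + a • w₁ = 0 := by
      funext i
      fin_cases i
      · simpa [mul_comm] using hu
      · simpa [mul_comm] using hv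
    have := (LinearIndependent.pair_iff.mp hli) 1 a hzero
    exact one_ne_zero this.1

end klein

end Fermat.Agent.G35.RatForms
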