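/-
GATE-Q / node Q4, first half in ONE statement (helper60): for a rational point `(c₀, t₀)` with
`c₀ ≠ 0`, `t₀ ≠ 0`, `c₀ ^ 3 ≠ t₀ ^ 2`, given transitivity of `formStab ℚ̄` on the Klein fibre over
`(c₀, t₀)` (from Q2 + `OrbitCount`), there are

* a point `w₀` of the fibre and a second vector `w₁`, linearly independent over `ℚ̄`,
* a `formStab`-valued cocycle `A` with `σ wᵢ = A σ *ᵥ wᵢ`,
* a `ℚ`-linear injective `ι : ℚ² → ℚ̄²` with `ι (1,0) = w₀`, `ι (0,1) = w₁`, `σ (ι v) = A σ *ᵥ ι v`,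
* coprime polynomials `f4, f6 ∈ ℚ[X]` with `f4 (t) = c4 (w₀ + t w₁)`, `f6 (t) = -T6 (w₀ + t w₁)`,
  `f4 (0) = c₀`, `f6 (0) = -t₀`.

Chain: `FibreKlein.kleinFibre_nonempty` → `Cocycle.exists_klein_cocycle` →
`H90.descent_algClosure` → `RatForms.exists_line_forms`.
-/
import Fermat.Agent.G35.RatForms

set_option autoImplicit false

namespace Fermat.Agent.G35.Q4Family

open Polynomial Matrix Fermat.Agent.G35.Free Fermat.Agent.G35.Cocycle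

/-- the fixed field of `Gal(ℚ̄/ℚ)` is `ℚ` -/
theorem fixed_mem_range (x : AlgebraicClosure ℚ)
    (hx : ∀ σ : AlgebraicClosure ℚ ≃ₐ[ℚ] AlgebraicClosure ℚ, σ x = x) :
    x ∈ Set.range (algebraMap ℚ (AlgebraicClosure ℚ)) := by
  have : Algebra.IsAlgebraic ℚ (AlgebraicClosure ℚ) := AlgebraicClosure.isAlgebraic ℚ
  have : IsAlgClosure ℚ (AlgebraicClosure ℚ) := ⟨inferInstance, inferInstance⟩
  have : IsGalois ℚ (AlgebraicClosure ℚ) := IsAlgClosure.isGalois ℚ _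
  exact (InfiniteGalois.mem_range_algebraMap_iff_fixed x).2 hx

/-- **Node Q4, first half.** -/
theorem exists_rational_family (c₀ t₀ : ℚ) (hc : c₀ ≠ 0) (ht : t₀ ≠ 0) (hct : c₀ ^ 3 ≠ t₀ ^ 2)
    (htrans : ∀ w₀ ∈ fibreVec (algebraMap ℚ (AlgebraicClosure ℚ) c₀)
        (algebraMap ℚ (AlgebraicClosure ℚ) t₀),
      ∀ w ∈ fibreVec (algebraMap ℚ (AlgebraicClosure ℚ) c₀)
        (algebraMap ℚ (AlgebraicClosure ℚ) t₀),
      ∃ M ∈ formStab (AlgebraicClosure ℚ),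
        (M : Matrix (Fin 2) (Fin 2) (AlgebraicClosure ℚ)) *ᵥ w₀ = w) :
    ∃ (w₀ w₁ : Fin 2 → AlgebraicClosure ℚ)
      (A : (AlgebraicClosure ℚ ≃ₐ[ℚ] AlgebraicClosure ℚ) → GL (Fin 2) (AlgebraicClosure ℚ))
      (ι : (Fin 2 → ℚ) →ₗ[ℚ] (Fin 2 → AlgebraicClosure ℚ)) (f4 f6 : ℚ[X]),
      w₀ ∈ fibreVec (algebraMap ℚ (AlgebraicClosure ℚ) c₀)
        (algebraMap ℚ (AlgebraicClosure ℚ) t₀) ∧
      (∀ σ, A σ ∈ formStab (AlgebraicClosure ℚ)) ∧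
      (∀ σ τ : AlgebraicClosure ℚ ≃ₐ[ℚ] AlgebraicClosure ℚ,
        (A (σ * τ) : Matrix (Fin 2) (Fin 2) (AlgebraicClosure ℚ)) =
          (A τ : Matrix (Fin 2) (Fin 2) (AlgebraicClosure ℚ)).map σ *
            (A σ : Matrix (Fin 2) (Fin 2) (AlgebraicClosure ℚ))) ∧
      (∀ ρ : AlgebraicClosure ℚ ≃ₐ[ℚ] AlgebraicClosure ℚ, (∀ i, ρ (w₀ i) = w₀ i) → A ρ = 1) ∧
      Function.Injective ι ∧ ι ![1, 0] = w₀ ∧ ι ![0, 1] = w₁ ∧
      (∀ (σ : AlgebraicClosure ℚ ≃ₐ[ℚ] AlgebraicClosure ℚ) (v : Fin 2 → ℚ),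
        (fun i => σ (ι v i)) = (A σ : Matrix (Fin 2) (Fin 2) (AlgebraicClosure ℚ)) *ᵥ ι v) ∧
      LinearIndependent (AlgebraicClosure ℚ) ![w₀, w₁] ∧
      (∀ t : ℚ, algebraMap ℚ (AlgebraicClosure ℚ) (f4.eval t)
        = c4 (w₀ 0 + w₁ 0 * algebraMap ℚ (AlgebraicClosure ℚ) t)
            (w₀ 1 + w₁ 1 * algebraMap ℚ (AlgebraicClosure ℚ) t)) ∧
      (∀ t : ℚ, algebraMap ℚ (AlgebraicClosure ℚ) (f6.eval t)
        = -T6 (w₀ 0 + w₁ 0 * algebraMap ℚ (AlgebraicClosure ℚ) t)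
            (w₀ 1 + w₁ 1 * algebraMap ℚ (AlgebraicClosure ℚ) t)) ∧
      f4.eval 0 = c₀ ∧ f6.eval 0 = -t₀ ∧ IsCoprime f4 f6 := by
  have hinj : Function.Injective (algebraMap ℚ (AlgebraicClosure ℚ)) :=
    (algebraMap ℚ (AlgebraicClosure ℚ)).injective
  have hc' : algebraMap ℚ (AlgebraicClosure ℚ) c₀ ≠ 0 := by
    rw [Ne, map_eq_zero_iff _ hinj]; exact hc
  have ht' : algebraMap ℚ (AlgebraicClosure ℚ) t₀ ≠ 0 := by
    rw [Ne, map_eq_zero_iff _ hinj]; exact ht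
  have hct' : (algebraMap ℚ (AlgebraicClosure ℚ) c₀) ^ 3
      ≠ (algebraMap ℚ (AlgebraicClosure ℚ) t₀) ^ 2 := by
    rw [← map_pow, ← map_pow]
    exact fun h => hct (hinj h)
  -- a point of the fibre
  obtain ⟨u, v, hv, h4, h6⟩ :=
    Fermat.Agent.G35.FibreKlein.kleinFibre_nonempty (K := AlgebraicClosure ℚ) hc' ht' hct'
  set w₀ : Fin 2 → AlgebraicClosure ℚ := ![u, v] with hw₀def
  have hw₀F : w₀ ∈ fibreVec (algebraMap ℚ (AlgebraicClosure ℚ) c₀)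
      (algebraMap ℚ (AlgebraicClosure ℚ) t₀) := by
    refine ⟨?_, ?_⟩
    · simpa [hw₀def] using h4
    · simpa [hw₀def] using h6
  have hw₀ne : w₀ ≠ 0 := by
    intro h0
    apply hv
    have := congrFun h0 1
    simpa [hw₀def] using this
  -- the cocycle
  obtain ⟨A, hA, hAw, hcoc, hlev⟩ :=
    exists_klein_cocycle (K := ℚ) (L := AlgebraicClosure ℚ) c₀ t₀ hct' w₀ hw₀F (htrans w₀ hw₀F)
  -- descent
  classical
  obtain ⟨ι, hιinj, hι0, hιA, hιli, _⟩ :=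
    Fermat.Agent.G35.H90.descent_algClosure A hcoc ({w₀ 0, w₀ 1} : Finset (AlgebraicClosure ℚ))
      (fun ρ hρ => hlev ρ (fun i => by
        fin_cases i
        · exact hρ _ (by simp)
        · exact hρ _ (by simp)))
      w₀ hw₀ne hAw
  set w₁ : Fin 2 → AlgebraicClosure ℚ := ι ![0, 1] with hw₁def
  have hli : LinearIndependent (AlgebraicClosure ℚ) ![w₀, w₁] := by
    rw [← hι0]
    exact hιli
  -- the line forms
  obtain ⟨f4, f6, hf4, hf6, hcop⟩ :=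
    Fermat.Agent.G35.RatForms.exists_line_forms (K := ℚ) (L := AlgebraicClosure ℚ)
      fixed_mem_range A hA w₀ w₁ hAw (fun σ => hιA σ ![0, 1]) hli
  refine ⟨w₀, w₁, A, ι, f4, f6, hw₀F, hA, hcoc, hlev, hιinj, hι0, rfl, hιA, hli, hf4, hf6,
    ?_, ?_, hcop⟩
  · apply hinj
    rw [hf4 0, map_zero, mul_zero, mul_zero, add_zero, add_zero]
    exact hw₀F.1
  · apply hinj
    rw [hf6 0, map_zero, mul_zero, mul_zero, add_zero, add_zero, map_neg]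
    rw [hw₀F.2]

end Fermat.Agent.G35.Q4Family
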