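/-
GATE-Q / S52-Q4-CT-NE (helper60): a semistable integral Weierstrass model with `Δ ≠ 0` has
`c₄ ≠ 0` and `c₆ ≠ 0` (and of course `c₄ ^ 3 ≠ c₆ ^ 2`), so the point
`(c, t) = (c₄ W, -c₆ W)` satisfies the hypotheses `c ≠ 0`, `t ≠ 0`, `c ^ 3 ≠ t ^ 2` of the
Klein fibre lemmas.

* `c₄ = 0`: no prime divides `Δ`, so `Δ = ±1` and `c₆ ^ 2 = ∓1728`: impossible.
* `c₆ = 0`: `c₄ ^ 3 = 1728 Δ`, every prime dividing `Δ` divides `c₄`, so `Δ = ±1`, `c₄ = ±12`,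
  and `b₂ ^ 2 = ±12 + 24 b₄` with `b₂ = a₁ ^ 2 + 4 a₂` is impossible modulo `8`.
-/
import Fermat.Prelude.Def_FLTPrelim_Modularity
import Mathlib

set_option autoImplicit false

namespace Fermat.Agent.G35.SemistableNe

open WeierstrassCurve

/-- An integer without prime divisors is `±1`. -/
theorem natAbs_eq_one_of_forall_prime_not_dvd {d : ℤ}
    (h : ∀ p : ℕ, p.Prime → ¬ (p : ℤ) ∣ d) : d.natAbs = 1 := by
  by_contra hne
  obtain ⟨p, hp, hpd⟩ := Nat.exists_prime_and_dvd hne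
  exact h p hp (Int.natCast_dvd.mpr hpd)

theorem eq_one_or_neg_one_of_forall_prime_not_dvd {d : ℤ}
    (h : ∀ p : ℕ, p.Prime → ¬ (p : ℤ) ∣ d) : d = 1 ∨ d = -1 :=
  Int.natAbs_eq_natAbs_iff.mp (by simpa using natAbs_eq_one_of_forall_prime_not_dvd h)

theorem c4_cube_ne_c6_sq (W : WeierstrassCurve ℤ) (hΔ : W.Δ ≠ 0) : W.c₄ ^ 3 ≠ W.c₆ ^ 2 := by
  intro h
  have hrel := W.c_relation
  rw [h, sub_self] at hrel
  have : W.Δ = 0 := by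
    rcases mul_eq_zero.mp hrel with h1 | h1
    · norm_num at h1
    · exact h1
  exact hΔ this

theorem c4_ne_zero (W : WeierstrassCurve ℤ) (hss : W.IsSemistableModel) : W.c₄ ≠ 0 := by
  intro h0
  have hnodvd : ∀ p : ℕ, p.Prime → ¬ (p : ℤ) ∣ W.Δ := by
    intro p hp hpd
    exact hss p hp hpd (h0 ▸ dvd_zero _)
  have hrel := W.c_relation
  rw [h0] at hrel
  rcases eq_one_or_neg_one_of_forall_prime_not_dvd hnodvd with h1 | h1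
  · rw [h1] at hrel
    nlinarith [sq_nonneg W.c₆]
  · rw [h1] at hrel
    have hsq : W.c₆ ^ 2 = 1728 := by linarith
    have h41 : 41 < |W.c₆| := by nlinarith [abs_nonneg W.c₆, sq_abs W.c₆]
    have h42 : |W.c₆| < 42 := by nlinarith [abs_nonneg W.c₆, sq_abs W.c₆]
    omega

theorem c6_ne_zero (W : WeierstrassCurve ℤ) (hss : W.IsSemistableModel) : W.c₆ ≠ 0 := by
  intro h0
  have hrel := W.c_relation
  rw [h0] at hrel
  have hrel' : 1728 * W.Δ = W.c₄ ^ 3 := by linarith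
  have hnodvd : ∀ p : ℕ, p.Prime → ¬ (p : ℤ) ∣ W.Δ := by
    intro p hp hpd
    have hp' : Prime (p : ℤ) := Nat.prime_iff_prime_int.mp hp
    have h1 : (p : ℤ) ∣ W.c₄ ^ 3 := hrel' ▸ Dvd.dvd.mul_left hpd 1728
    exact hss p hp hpd (hp'.dvd_of_dvd_pow h1)
  -- `c₄ = b₂ ^ 2 - 24 b₄`, `b₂ = a₁ ^ 2 + 4 a₂`
  have hc4 : W.c₄ = W.b₂ ^ 2 - 24 * W.b₄ := rfl
  have hb2 : W.b₂ = W.a₁ ^ 2 + 4 * W.a₂ := rfl
  have hc4' : W.c₄ = 12 ∨ W.c₄ = -12 := by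
    rcases eq_one_or_neg_one_of_forall_prime_not_dvd hnodvd with h1 | h1
    · left
      rw [h1] at hrel'
      have hlo : 11 < W.c₄ := by nlinarith [sq_nonneg W.c₄, sq_nonneg (W.c₄ + 11)]
      have hhi : W.c₄ < 13 := by nlinarith [sq_nonneg W.c₄, sq_nonneg (W.c₄ + 13)]
      omega
    · right
      rw [h1] at hrel'
      have hlo : -13 < W.c₄ := by nlinarith [sq_nonneg W.c₄, sq_nonneg (W.c₄ - 13)]
      have hhi : W.c₄ < -11 := by nlinarith [sq_nonneg W.c₄, sq_nonneg (W.c₄ - 11)]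
      omega
  -- parity analysis
  have hsq : W.b₂ ^ 2 = 12 + 24 * W.b₄ ∨ W.b₂ ^ 2 = -12 + 24 * W.b₄ := by
    rcases hc4' with h | h
    · left; rw [hc4] at h; linarith
    · right; rw [hc4] at h; linarith
  rcases Int.even_or_odd' W.a₁ with ⟨k, hk | hk⟩
  · -- `a₁ = 2 k`, `b₂ = 4 (k ^ 2 + a₂)`, `16 ∣ b₂ ^ 2`
    have hb : W.b₂ ^ 2 = 16 * ((k ^ 2 + W.a₂) ^ 2) := by rw [hb2, hk]; ring
    rw [hb] at hsq
    generalize (k ^ 2 + W.a₂) ^ 2 = N at hsq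
    omega
  · -- `a₁` odd, `b₂` odd
    have hb : W.b₂ ^ 2 = 2 * (8 * k ^ 4 + 16 * k ^ 3 + 12 * k ^ 2 + 4 * k
        + 4 * W.a₂ * (2 * k + 1) ^ 2 + 8 * W.a₂ ^ 2) + 1 := by
      rw [hb2, hk]; ring
    rw [hb] at hsq
    generalize (8 * k ^ 4 + 16 * k ^ 3 + 12 * k ^ 2 + 4 * k
        + 4 * W.a₂ * (2 * k + 1) ^ 2 + 8 * W.a₂ ^ 2) = N at hsq
    omega

/-- The point `(c, t) = (c₄ W, -c₆ W)` satisfies the hypotheses of the Klein fibre lemmas, over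
any field of characteristic `0`. -/
theorem fibre_hyps (W : WeierstrassCurve ℤ) (hΔ : W.Δ ≠ 0) (hss : W.IsSemistableModel)
    (K : Type*) [Field K] [CharZero K] :
    ((W.c₄ : ℤ) : K) ≠ 0 ∧ (-((W.c₆ : ℤ) : K)) ≠ 0 ∧
      ((W.c₄ : ℤ) : K) ^ 3 ≠ (-((W.c₆ : ℤ) : K)) ^ 2 := by
  refine ⟨Int.cast_ne_zero.mpr (c4_ne_zero W hss),
    neg_ne_zero.mpr (Int.cast_ne_zero.mpr (c6_ne_zero W hss)), ?_⟩
  intro h
  apply c4_cube_ne_c6_sq W hΔ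
  have h' : (((W.c₄ ^ 3 : ℤ)) : K) = ((W.c₆ ^ 2 : ℤ) : K) := by
    push_cast
    rw [h]; ring
  exact_mod_cast h'

end Fermat.Agent.G35.SemistableNe
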