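/-
GATE-Q / S52, node Q4(G), part 1 (helper23): the ALGEBRAIC half of the Q4 output contract T1
(board 4123 D3 + amendments 4149/4208), for an integral semistable `W`, from transitivity of
`formStab ℚ̄` on the Klein fibre over `(c₄(W), -c₆(W))`:

* a point `w₀` of the fibre, a `formStab`-valued cocycle `A`, a `ℚ`-linear `ι : ℚ² → ℚ̄²` with
  `ι (1,0) = w₀`, `σ (ι v) = A σ *ᵥ ι v`, `ι (1,0), ι (0,1)` independent over `ℚ̄`;
* (I2) `ρ w₀ = w₀ ⟹ ρ (ι v) = ι v`;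
* (fam) for EVERY direction `d` with `d 1 ≠ 0`, coprime `f4 f6 ∈ ℚ[X]` with
  `c4 (ι ((1,0) + t d)) = f4 t`, `T6 (ι ((1,0) + t d)) = - f6 t`, `f4 0 = c₄(W)`, `f6 0 = c₆(W)`.

Chain: `Q4Family.exists_rational_family` (helper60) + `RatForms.exists_line_forms` (helper60) for the
extra directions + `SemistableNe.fibre_hyps` (helper60).
-/
import Fermat.Agent.G35.Q4Family
import Fermat.Agent.G35.SemistableNe

set_option autoImplicit false

namespace Fermat.Agent.G35.FamilyDir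

open Polynomial Matrix Fermat.Agent.G35.Free Fermat.Agent.G35.Cocycle

local notation "Qb" => AlgebraicClosure ℚ
local notation "GQ" => (AlgebraicClosure ℚ ≃ₐ[ℚ] AlgebraicClosure ℚ)

/-- independence of `w₀` and `a • w₀ + b • w₁`, `b ≠ 0` -/
theorem linearIndependent_pair_combo {L : Type*} [Field L] {w₀ w₁ : Fin 2 → L}
    (hli : LinearIndependent L ![w₀, w₁]) (a b : L) (hb : b ≠ 0) :
    LinearIndependent L ![w₀, a • w₀ + b • w₁] := by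
  rw [LinearIndependent.pair_iff] at hli ⊢
  intro s t hst
  have h1 : (s + t * a) • w₀ + (t * b) • w₁ = 0 := by
    rw [← hst]
    simp only [smul_add, add_smul, mul_smul]
    abel
  obtain ⟨h2, h3⟩ := hli _ _ h1
  have ht : t = 0 := (mul_eq_zero.mp h3).resolve_right hb
  rw [ht, zero_mul, add_zero] at h2
  exact ⟨h2, ht⟩

/-- **T1, algebraic half.** -/
theorem exists_family_dir (W : WeierstrassCurve ℤ) (hΔ : W.Δ ≠ 0) (hW : W.IsSemistableModel)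
    (htrans : ∀ w₀ ∈ fibreVec (((W.c₄ : ℤ) : Qb)) (-((W.c₆ : ℤ) : Qb)),
      ∀ w ∈ fibreVec (((W.c₄ : ℤ) : Qb)) (-((W.c₆ : ℤ) : Qb)),
      ∃ M ∈ formStab Qb, (M : Matrix (Fin 2) (Fin 2) Qb) *ᵥ w₀ = w) :
    ∃ (w₀ : Fin 2 → Qb) (A : GQ → GL (Fin 2) Qb) (ι : (Fin 2 → ℚ) →ₗ[ℚ] (Fin 2 → Qb)),
      w₀ ∈ fibreVec (((W.c₄ : ℤ) : Qb)) (-((W.c₆ : ℤ) : Qb)) ∧
      (∀ σ, A σ ∈ formStab Qb) ∧
      (∀ σ τ : GQ, (A (σ * τ) : Matrix (Fin 2) (Fin 2) Qb) =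
          (A τ : Matrix (Fin 2) (Fin 2) Qb).map σ * (A σ : Matrix (Fin 2) (Fin 2) Qb)) ∧
      (∀ ρ : GQ, (∀ i, ρ (w₀ i) = w₀ i) → A ρ = 1) ∧
      Function.Injective ι ∧ ι ![1, 0] = w₀ ∧
      (∀ (σ : GQ) (v : Fin 2 → ℚ),
        (fun i => σ (ι v i)) = (A σ : Matrix (Fin 2) (Fin 2) Qb) *ᵥ ι v) ∧
      LinearIndependent Qb ![ι ![1, 0], ι ![0, 1]] ∧
      (∀ ρ : GQ, (∀ i, ρ (w₀ i) = w₀ i) → ∀ v i, ρ (ι v i) = ι v i) ∧
      (∀ d : Fin 2 → ℚ, d 1 ≠ 0 → ∃ f4 f6 : ℚ[X],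
        (∀ t : ℚ, c4 (ι (![1, 0] + t • d) 0) (ι (![1, 0] + t • d) 1) = ((f4.eval t : ℚ) : Qb) ∧
          T6 (ι (![1, 0] + t • d) 0) (ι (![1, 0] + t • d) 1) = -((f6.eval t : ℚ) : Qb)) ∧
        f4.eval 0 = ((W.c₄ : ℤ) : ℚ) ∧ f6.eval 0 = ((W.c₆ : ℤ) : ℚ) ∧ IsCoprime f4 f6) := by
  obtain ⟨h4ne, h6ne, hne⟩ := Fermat.Agent.G35.SemistableNe.fibre_hyps W hΔ hW ℚ
  have hinj : Function.Injective (algebraMap ℚ Qb) := (algebraMap ℚ Qb).injective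
  have ec : algebraMap ℚ Qb ((W.c₄ : ℤ) : ℚ) = ((W.c₄ : ℤ) : Qb) := by simp
  have et : algebraMap ℚ Qb (-((W.c₆ : ℤ) : ℚ)) = -((W.c₆ : ℤ) : Qb) := by simp
  obtain ⟨w₀, w₁, A, ι, _f4, _f6, hw₀, hA, hcoc, hlev, hιinj, hι0, hι1, hιA, hli, -, -, -, -, -⟩ :=
    Fermat.Agent.G35.Q4Family.exists_rational_family ((W.c₄ : ℤ) : ℚ) (-((W.c₆ : ℤ) : ℚ))
      h4ne h6ne hne (by rw [ec, et]; exact htrans)
  rw [ec, et] at hw₀
  have hI2 : ∀ ρ : GQ, (∀ i, ρ (w₀ i) = w₀ i) → ∀ v i, ρ (ι v i) = ι v i := by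
    intro ρ hρ v i
    have h1 := congrFun (hιA ρ v) i
    rw [hlev ρ hρ] at h1
    simpa using h1
  refine ⟨w₀, A, ι, hw₀, hA, hcoc, hlev, hιinj, hι0, hιA, ?_, hI2, ?_⟩
  · rw [hι0, hι1]; exact hli
  · intro d hd
    -- the second vector of the line
    have hιd : ι d = (algebraMap ℚ Qb (d 0)) • w₀ + (algebraMap ℚ Qb (d 1)) • w₁ := by
      have hd' : d = d 0 • ![1, 0] + d 1 • ![0, 1] := by
        funext i; fin_cases i <;> simp
      conv_lhs => rw [hd']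
      rw [map_add, map_smul, map_smul, hι0, hι1]
      funext i
      simp [Algebra.smul_def]
    have hli' : LinearIndependent Qb ![w₀, ι d] := by
      rw [hιd]
      apply linearIndependent_pair_combo hli
      rw [Ne, map_eq_zero_iff _ hinj]
      exact hd
    have h0 : ∀ σ : GQ, (fun i => σ (w₀ i)) = (A σ : Matrix (Fin 2) (Fin 2) Qb) *ᵥ w₀ := by
      intro σ
      have := hιA σ ![1, 0]
      rwa [hι0] at this
    obtain ⟨f4, f6, hf4, hf6, hcop⟩ :=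
      Fermat.Agent.G35.RatForms.exists_line_forms (K := ℚ) (L := Qb)
        Fermat.Agent.G35.Q4Family.fixed_mem_range A hA w₀ (ι d) h0 (fun σ => hιA σ d) hli'
    have hpt : ∀ (t : ℚ) (i : Fin 2),
        ι (![1, 0] + t • d) i = w₀ i + ι d i * algebraMap ℚ Qb t := by
      intro t i
      rw [map_add, map_smul, hι0]
      simp [Algebra.smul_def, mul_comm]
    refine ⟨f4, f6, ?_, ?_, ?_, hcop⟩
    · intro t
      rw [hpt t 0, hpt t 1, ← eq_ratCast (algebraMap ℚ Qb) (f4.eval t),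
        ← eq_ratCast (algebraMap ℚ Qb) (f6.eval t), hf4 t, hf6 t, neg_neg]
      exact ⟨rfl, rfl⟩
    · apply hinj
      rw [hf4 0, map_zero, mul_zero, mul_zero, add_zero, add_zero, ec]
      exact hw₀.1
    · apply hinj
      rw [hf6 0, map_zero, mul_zero, mul_zero, add_zero, add_zero, hw₀.2]
      simp
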