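/-
GATE-Q / S52-Q4F-CLOSURE (helper56): glue behind T1 (I4) and behind the generator induction of
`GalMatrix`.

`KleinTrans.klein_htrans` exports transitivity of `formStab L` on a Klein fibre, although its proof
produces a witness in `Subgroup.closure (kleinGens hζ)`.  Here (same labelling binders):

* `klein_htrans_closure` : transitivity with the witness in `closure {gS, gT, gZ}`;
* `mem_closure_of_mem_formStab` : `formStab L ≤ closure {gS, gT, gZ}` (closure-transitivity +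
  freeness `Cocycle.formStab_free`), hence `formStab_eq_closure`;
* `map_eq_of_mem_closure` : an automorphism `ρ` with `ρ ζ = ζ` fixes every element of
  `closure {gS, gT, gZ}` entrywise;
* `galois_fix_of_fix` : (I4) in abstract form: `M ∈ closure`, `ρ ζ = ζ`, `ρ w = w` ⟹
  `ρ (M *ᵥ w) = M *ᵥ w`.
NEW file; imports `G35/KleinTrans` only.
-/
import Fermat.Agent.G35.KleinTrans

set_option autoImplicit false
set_option linter.unusedSectionVars false

namespace Fermat.Agent.G35.KleinClosure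

open Matrix Fermat.Agent.G35.Free Fermat.Agent.G35.Cocycle Fermat.Agent.G35.KleinTrans

variable {L : Type*} [Field L] [CharZero L]
variable {ζ : L} (hζ : ζ ^ 4 + ζ ^ 3 + ζ ^ 2 + ζ + 1 = 0)
include hζ

/-- **Transitivity of `closure {gS, gT, gZ}` on the Klein fibres**: `klein_htrans` with the witness
kept in the closure of the generators. -/
theorem klein_htrans_closure {H Y : Type*} [Group H] [Fintype H] [MulAction H Y]
    (hH : Fintype.card H = 120) (m : GL (Fin 2) L → H) (B : (Fin 2 → L) → Y) {c t : L}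
    (hc : c ≠ 0) (ht : t ≠ 0) (hct : c ^ 3 ≠ t ^ 2)
    (hB : ∀ g ∈ kleinGens hζ, ∀ x ∈ fibreVec c t, B (g • x) = m g • B x)
    (hgen : Subgroup.closure (m '' kleinGens hζ) = ⊤)
    (hZB : ∀ x ∈ fibreVec c t, B (gZ hζ • x) = B x)
    (hfreeB : ∀ w ∈ fibreVec c t, ∀ h : H, h • B w = B w → h = 1) :
    ∀ w₀ ∈ fibreVec c t, ∀ w ∈ fibreVec c t,
      ∃ M ∈ Subgroup.closure (kleinGens hζ), (M : Matrix (Fin 2) (Fin 2) L) *ᵥ w₀ = w := by
  intro w₀ hw₀ w hw
  obtain ⟨hfin, hcard⟩ := fibreVec_finite_ncard_le hc ht hct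
  have hF : ∀ g ∈ kleinGens hζ, ∀ x, g • x ∈ fibreVec c t ↔ x ∈ fibreVec c t :=
    fun g hg x => smul_mem_fibreVec_iff (kleinGens_subset_formStab hζ hg) c t x
  have hz : gZ hζ ∈ Subgroup.closure (kleinGens hζ) :=
    Subgroup.subset_closure (by simp [kleinGens])
  have hzfree : ∀ x ∈ fibreVec c t, ∀ k, 0 < k → k < 5 → (gZ hζ) ^ k • x ≠ x := by
    intro x hx k hk0 hk5 hfix
    rw [gZ_pow_smul] at hfix
    have hx0 : x ≠ 0 := by
      intro h0
      apply hc
      have := hx.1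
      rw [h0] at this
      simp only [Pi.zero_apply] at this
      rw [← this]
      unfold c4; ring
    obtain ⟨i, hi⟩ := Function.ne_iff.mp hx0
    have h1 := congrFun hfix i
    simp only [Pi.smul_apply, smul_eq_mul] at h1
    have h2 : (ζ ^ k - 1) * x i = 0 := by linear_combination h1
    rcases mul_eq_zero.mp h2 with h3 | h3
    · exact zeta_pow_ne_one hζ hk0 hk5 (sub_eq_zero.mp h3)
    · exact hi h3
  have hcard' : (fibreVec c t).ncard ≤ 5 * Fintype.card H := by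
    rw [hH]; exact hcard
  obtain ⟨γ, hγ, hγw⟩ :=
    Fermat.Agent.G35.OrbitCount.exists_smul_eq_of_ncard_le_pow hF hB hgen hw₀ (hfreeB w₀ hw₀) hz
      hZB hzfree hfin hcard' w hw
  exact ⟨γ, hγ, hγw⟩

/-- points of a fibre off the discriminant are off the cone `f12 = 0` (vector form). -/
theorem f12_ne_zero_of_mem_fibreVec {c t : L} (hct : c ^ 3 ≠ t ^ 2) {w : Fin 2 → L}
    (hw : w ∈ fibreVec c t) : f12 (w 0) (w 1) ≠ 0 :=
  Fermat.Agent.G35.FibreKlein.f12_ne_zero_of_mem (K := L) hct (w := (w 0, w 1)) hw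

/-- **`formStab L ≤ closure {gS, gT, gZ}`** (given one fibre with its labelling data). -/
theorem mem_closure_of_mem_formStab {H Y : Type*} [Group H] [Fintype H] [MulAction H Y]
    (hH : Fintype.card H = 120) (m : GL (Fin 2) L → H) (B : (Fin 2 → L) → Y) {c t : L}
    (hc : c ≠ 0) (ht : t ≠ 0) (hct : c ^ 3 ≠ t ^ 2)
    (hB : ∀ g ∈ kleinGens hζ, ∀ x ∈ fibreVec c t, B (g • x) = m g • B x)
    (hgen : Subgroup.closure (m '' kleinGens hζ) = ⊤)
    (hZB : ∀ x ∈ fibreVec c t, B (gZ hζ • x) = B x)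
    (hfreeB : ∀ w ∈ fibreVec c t, ∀ h : H, h • B w = B w → h = 1)
    {w₀ : Fin 2 → L} (hw₀ : w₀ ∈ fibreVec c t) {M : GL (Fin 2) L} (hM : M ∈ formStab L) :
    M ∈ Subgroup.closure (kleinGens hζ) := by
  have hMw : (M : Matrix (Fin 2) (Fin 2) L) *ᵥ w₀ ∈ fibreVec c t :=
    (smul_mem_fibreVec_iff hM c t w₀).2 hw₀
  obtain ⟨γ, hγ, hγw⟩ :=
    klein_htrans_closure hζ hH m B hc ht hct hB hgen hZB hfreeB w₀ hw₀ _ hMw
  have hfix := mulVec_eq_of_mulVec_eq (M := M) (N := γ) (w := w₀) hγw.symm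
  have hmem : γ⁻¹ * M ∈ formStab L :=
    (formStab L).mul_mem ((formStab L).inv_mem (closure_kleinGens_le hζ hγ)) hM
  have h1 : γ⁻¹ * M = 1 :=
    formStab_free hmem (f12_ne_zero_of_mem_fibreVec hζ hct hw₀) hfix
  have : M = γ := by
    have := congrArg (fun x => γ * x) h1
    simpa using this
  rw [this]
  exact hγ

/-- `formStab L = closure {gS, gT, gZ}`. -/
theorem formStab_eq_closure {H Y : Type*} [Group H] [Fintype H] [MulAction H Y]
    (hH : Fintype.card H = 120) (m : GL (Fin 2) L → H) (B : (Fin 2 → L) → Y) {c t : L}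
    (hc : c ≠ 0) (ht : t ≠ 0) (hct : c ^ 3 ≠ t ^ 2)
    (hB : ∀ g ∈ kleinGens hζ, ∀ x ∈ fibreVec c t, B (g • x) = m g • B x)
    (hgen : Subgroup.closure (m '' kleinGens hζ) = ⊤)
    (hZB : ∀ x ∈ fibreVec c t, B (gZ hζ • x) = B x)
    (hfreeB : ∀ w ∈ fibreVec c t, ∀ h : H, h • B w = B w → h = 1)
    {w₀ : Fin 2 → L} (hw₀ : w₀ ∈ fibreVec c t) :
    formStab L = Subgroup.closure (kleinGens hζ) :=
  le_antisymm
    (fun _ hM => mem_closure_of_mem_formStab hζ hH m B hc ht hct hB hgen hZB hfreeB hw₀ hM)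
    (closure_kleinGens_le hζ)

/-! ### Galois: automorphisms fixing `ζ` fix `closure {gS, gT, gZ}` entrywise -/

section Galois

variable {K : Type*} [Field K] [Algebra K L]

theorem map_gS (ρ : L ≃ₐ[K] L) (hρ : ρ ζ = ζ) :
    Matrix.GeneralLinearGroup.map (ρ : L →+* L) (gS hζ) = gS hζ := by
  apply Units.ext
  rw [Fermat.Agent.G35.H90.coe_glMap, coe_gS]
  ext i j
  fin_cases i <;> fin_cases j <;>
    simp [Smat, Fermat.Agent.G35.KleinInv.sq5, map_inv₀, hρ, map_ofNat]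

theorem map_gT (ρ : L ≃ₐ[K] L) (hρ : ρ ζ = ζ) :
    Matrix.GeneralLinearGroup.map (ρ : L →+* L) (gT hζ) = gT hζ := by
  apply Units.ext
  rw [Fermat.Agent.G35.H90.coe_glMap, coe_gT]
  ext i j
  fin_cases i <;> fin_cases j <;> simp [Tmat, hρ]

theorem map_gZ (ρ : L ≃ₐ[K] L) (hρ : ρ ζ = ζ) :
    Matrix.GeneralLinearGroup.map (ρ : L →+* L) (gZ hζ) = gZ hζ := by
  apply Units.ext
  rw [Fermat.Agent.G35.H90.coe_glMap, coe_gZ]
  ext i j
  fin_cases i <;> fin_cases j <;> simp [Zmat, hρ]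

/-- an automorphism fixing `ζ` fixes every element of `closure {gS, gT, gZ}` entrywise. -/
theorem map_eq_of_mem_closure (ρ : L ≃ₐ[K] L) (hρ : ρ ζ = ζ) {M : GL (Fin 2) L}
    (hM : M ∈ Subgroup.closure (kleinGens hζ)) :
    Matrix.GeneralLinearGroup.map (ρ : L →+* L) M = M := by
  induction hM using Subgroup.closure_induction with
  | mem g hg =>
    rcases hg with rfl | rfl | rfl
    · exact map_gS hζ ρ hρ
    · exact map_gT hζ ρ hρ
    · exact map_gZ hζ ρ hρ
  | one => exact map_one _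
  | mul g h _ _ ihg ihh => rw [map_mul, ihg, ihh]
  | inv g _ ih => rw [map_inv, ih]

/-- **(I4), abstract form**: `M ∈ closure {gS, gT, gZ}`, `ρ ζ = ζ`, `ρ w = w` ⟹
`ρ (M *ᵥ w) = M *ᵥ w`. -/
theorem galois_fix_of_fix (ρ : L ≃ₐ[K] L) (hρ : ρ ζ = ζ) {M : GL (Fin 2) L}
    (hM : M ∈ Subgroup.closure (kleinGens hζ)) {w : Fin 2 → L} (hw : ∀ i, ρ (w i) = w i)
    (i : Fin 2) :
    ρ (((M : Matrix (Fin 2) (Fin 2) L) *ᵥ w) i) = ((M : Matrix (Fin 2) (Fin 2) L) *ᵥ w) i := by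
  have h1 := congrFun (Fermat.Agent.G35.H90.gal_mulVec ρ (M : Matrix (Fin 2) (Fin 2) L) w) i
  have h2 : (M : Matrix (Fin 2) (Fin 2) L).map ρ = (M : Matrix (Fin 2) (Fin 2) L) := by
    rw [← Fermat.Agent.G35.H90.coe_glMap, map_eq_of_mem_closure hζ ρ hρ hM]
  rw [h2, show (fun i => ρ (w i)) = w from funext hw] at h1
  exact h1

end Galois

end Fermat.Agent.G35.KleinClosure
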