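/-
GATE-Q / S52-Q3B-KER (helper60) = D5 of the lead decisions: the kernel of the label map.

Under the hypotheses of `OrbitCount.exists_smul_eq_of_ncard_le_pow` (equivariant labelling `B`,
labels generate the finite group `H`, `H` free at `B w₀`, twist `z` with `z ^ k • x ≠ x` for
`0 < k < n`, and `F.ncard ≤ n * card H`), the points of `F` with the same label as `w₀` are
exactly the `n` points `z ^ k • w₀`, `k < n`.

Mathlib + `OrbitCount`.
-/
import Fermat.Agent.G35.OrbitCount

set_option autoImplicit false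

namespace Fermat.Agent.G35.OrbitKer

open Fermat.Agent.G35.OrbitCount

variable {Γ X H Y : Type*} [Group Γ] [MulAction Γ X] [Group H] [MulAction H Y]
variable {gens : Set Γ} {m : Γ → H} {F : Set X} {B : X → Y} {w₀ : X}

open Classical in
/-- **Kernel of the label map, general twist set.**  If moreover `1 ∈ T`-translates are counted,
every point of `F` with the label of `w₀` is `t • w₀` for some `t ∈ T`. -/
theorem exists_twist_of_label_eq [Fintype H]
    (hF : ∀ g ∈ gens, ∀ x, g • x ∈ F ↔ x ∈ F)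
    (hB : ∀ g ∈ gens, ∀ x ∈ F, B (g • x) = m g • B x)
    (hgen : Subgroup.closure (m '' gens) = ⊤) (hw₀ : w₀ ∈ F)
    (hfree : ∀ h : H, h • B w₀ = B w₀ → h = 1)
    (T : Finset Γ) (hT : ∀ t ∈ T, t ∈ Subgroup.closure gens)
    (hTB : ∀ t ∈ T, ∀ x ∈ F, B (t • x) = B x)
    (hTinj : ∀ t ∈ T, ∀ t' ∈ T, ∀ x ∈ F, t • x = t' • x → t = t')
    (hfin : F.Finite) (hcard : F.ncard ≤ T.card * Fintype.card H) :
    ∀ w ∈ F, B w = B w₀ → ∃ t ∈ T, t • w₀ = w := by
  have hex : ∀ M : H, ∃ γ ∈ Subgroup.closure gens, ∀ x ∈ F, B (γ • x) = M • B x := fun M =>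
    exists_mem_closure_of_label hF hB (hgen ▸ Subgroup.mem_top M)
  choose γ₀ hγ₀ hγ₀B using hex
  -- normalise the representative of the trivial label to be `1`
  set γ : H → Γ := fun M => if M = 1 then 1 else γ₀ M with hγdef
  have hγ : ∀ M, γ M ∈ Subgroup.closure gens := by
    intro M
    rw [hγdef]
    by_cases hM : M = 1
    · simp only [hM, if_true]; exact Subgroup.one_mem _
    · simp only [hM, if_false]; exact hγ₀ M
  have hγB : ∀ M, ∀ x ∈ F, B (γ M • x) = M • B x := by
    intro M x hx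
    rw [hγdef]
    by_cases hM : M = 1
    · simp only [hM, if_true]; rw [one_smul, one_smul]
    · simp only [hM, if_false]; exact hγ₀B M x hx
  have hγ1 : γ 1 = 1 := by rw [hγdef]; simp
  have hγF : ∀ M, γ M • w₀ ∈ F := fun M => (mem_iff_of_mem_closure hF (hγ M) w₀).mpr hw₀
  set f : T × H → X := fun p => (p.1 : Γ) • γ p.2 • w₀ with hf
  have hfF : ∀ p, f p ∈ F := fun p =>
    (mem_iff_of_mem_closure hF (hT _ p.1.2) _).mpr (hγF p.2)
  have hfB : ∀ p, B (f p) = p.2 • B w₀ := fun p => by
    rw [hf]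
    simp only
    rw [hTB _ p.1.2 _ (hγF p.2), hγB _ _ hw₀]
  have hinj : Function.Injective f := by
    rintro ⟨t, M⟩ ⟨t', M'⟩ h
    have hMM : M = M' := by
      have h1 : M • B w₀ = M' • B w₀ := by
        have := congrArg B h
        rwa [hfB, hfB] at this
      have h2 : (M'⁻¹ * M) • B w₀ = B w₀ := by
        rw [mul_smul, h1, inv_smul_smul]
      have h3 := hfree _ h2
      exact (inv_mul_eq_one.mp h3).symm
    subst hMM
    have htt : (t : Γ) = t' := hTinj _ t.2 _ t'.2 _ (hγF M) h
    rw [Subtype.ext htt]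
  have himg : Set.range f ⊆ F := by
    rintro _ ⟨p, rfl⟩
    exact hfF p
  have hrange : (Set.range f).ncard = T.card * Fintype.card H := by
    rw [Set.ncard_range_of_injective hinj, Nat.card_eq_fintype_card, Fintype.card_prod,
      Fintype.card_coe]
  have heq : Set.range f = F :=
    Set.eq_of_subset_of_ncard_le himg (hrange ▸ hcard) hfin
  intro w hw hBw
  rw [← heq] at hw
  obtain ⟨p, rfl⟩ := hw
  have hp2 : p.2 = 1 := by
    apply hfree
    rw [← hfB p, hBw]
  refine ⟨p.1, p.1.2, ?_⟩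
  rw [hf]
  simp only
  rw [hp2, hγ1, one_smul]

open Classical in
/-- **Kernel of the label map (D5).**  Twist by the powers of one element `z`: the points of `F`
with the label of `w₀` are the `z ^ k • w₀`, `k < n`. -/
theorem exists_pow_smul_of_label_eq [Fintype H]
    (hF : ∀ g ∈ gens, ∀ x, g • x ∈ F ↔ x ∈ F)
    (hB : ∀ g ∈ gens, ∀ x ∈ F, B (g • x) = m g • B x)
    (hgen : Subgroup.closure (m '' gens) = ⊤) (hw₀ : w₀ ∈ F)
    (hfree : ∀ h : H, h • B w₀ = B w₀ → h = 1)
    {z : Γ} (hz : z ∈ Subgroup.closure gens) (hzB : ∀ x ∈ F, B (z • x) = B x) {n : ℕ}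
    (hzfree : ∀ x ∈ F, ∀ k, 0 < k → k < n → z ^ k • x ≠ x)
    (hfin : F.Finite) (hcard : F.ncard ≤ n * Fintype.card H) :
    ∀ w ∈ F, B w = B w₀ → ∃ k < n, z ^ k • w₀ = w := by
  set T : Finset Γ := (Finset.range n).image fun k => z ^ k with hTdef
  have hTcard : T.card = n := by
    rw [hTdef, Finset.card_image_of_injOn, Finset.card_range]
    intro a ha b hb hab
    have ha' : a < n := Finset.mem_range.mp ha
    have hb' : b < n := Finset.mem_range.mp hb
    have hab' : z ^ a = z ^ b := hab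
    exact pow_smul_injOn (hzfree w₀ hw₀) ha' hb' (by rw [hab'])
  intro w hw hBw
  obtain ⟨t, ht, htw⟩ :=
    exists_twist_of_label_eq hF hB hgen hw₀ hfree T
      (fun t ht => by
        obtain ⟨k, _, rfl⟩ := Finset.mem_image.mp ht
        exact Subgroup.pow_mem _ hz k)
      (fun t ht x hx => by
        obtain ⟨k, _, rfl⟩ := Finset.mem_image.mp ht
        exact label_pow_smul hF hz hzB k x hx)
      (fun t ht t' ht' x hx h => by
        obtain ⟨a, ha, rfl⟩ := Finset.mem_image.mp ht
        obtain ⟨b, hb, rfl⟩ := Finset.mem_image.mp ht'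
        have hab : a = b :=
          pow_smul_injOn (hzfree x hx) (Finset.mem_range.mp ha) (Finset.mem_range.mp hb) h
        rw [hab])
      hfin (hTcard.symm ▸ hcard) w hw hBw
  obtain ⟨k, hk, rfl⟩ := Finset.mem_image.mp ht
  exact ⟨k, Finset.mem_range.mp hk, htw⟩

end Fermat.Agent.G35.OrbitKer
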