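/-
GATE-Q / S52-Q3B-KER, Klein instance (helper60): on a Klein fibre, two points with the same
label differ by a power of `ζ` (D5 of the lead decisions; gives (I3) of the Q4 output contract
with no label computation for the cocycle).
-/
import Fermat.Agent.G35.KleinTrans
import Fermat.Agent.G35.OrbitKer

set_option autoImplicit false

namespace Fermat.Agent.G35.KleinKer

open Matrix Fermat.Agent.G35.Free Fermat.Agent.G35.Cocycle Fermat.Agent.G35.KleinTrans

/-- points of a fibre over `c ≠ 0` are nonzero -/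
theorem ne_zero_of_mem_fibreVec {L : Type*} [Field L] {c t : L} (hc : c ≠ 0) {x : Fin 2 → L} (hx : x ∈ fibreVec c t) :
    x ≠ 0 := by
  intro h0
  apply hc
  have := hx.1
  rw [h0] at this
  simp only [Pi.zero_apply] at this
  rw [← this]
  unfold c4; ring

variable {L : Type*} [Field L] [CharZero L] {ζ : L} (hζ : ζ ^ 4 + ζ ^ 3 + ζ ^ 2 + ζ + 1 = 0)
include hζ

/-- **Kernel of the label map on a Klein fibre.** -/
theorem klein_label_ker {H Y : Type*} [Group H] [Fintype H] [MulAction H Y]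
    (hH : Fintype.card H = 120) (m : GL (Fin 2) L → H) (B : (Fin 2 → L) → Y) {c t : L}
    (hc : c ≠ 0) (ht : t ≠ 0) (hct : c ^ 3 ≠ t ^ 2)
    (hB : ∀ g ∈ kleinGens hζ, ∀ x ∈ fibreVec c t, B (g • x) = m g • B x)
    (hgen : Subgroup.closure (m '' kleinGens hζ) = ⊤)
    (hZB : ∀ x ∈ fibreVec c t, B (gZ hζ • x) = B x)
    (hfreeB : ∀ w ∈ fibreVec c t, ∀ h : H, h • B w = B w → h = 1) :
    ∀ w₀ ∈ fibreVec c t, ∀ w ∈ fibreVec c t, B w = B w₀ →
      ∃ k < 5, ∀ i, w i = ζ ^ k * w₀ i := by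
  intro w₀ hw₀ w hw hBw
  obtain ⟨hfin, hcard⟩ := fibreVec_finite_ncard_le hc ht hct
  have hF : ∀ g ∈ kleinGens hζ, ∀ x, g • x ∈ fibreVec c t ↔ x ∈ fibreVec c t :=
    fun g hg x => smul_mem_fibreVec_iff (kleinGens_subset_formStab hζ hg) c t x
  have hz : gZ hζ ∈ Subgroup.closure (kleinGens hζ) :=
    Subgroup.subset_closure (by simp [kleinGens])
  have hzfree : ∀ x ∈ fibreVec c t, ∀ k, 0 < k → k < 5 → (gZ hζ) ^ k • x ≠ x := by
    intro x hx k hk0 hk5 hfix
    rw [gZ_pow_smul] at hfix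
    obtain ⟨i, hi⟩ := Function.ne_iff.mp (ne_zero_of_mem_fibreVec hc hx)
    have h1 := congrFun hfix i
    simp only [Pi.smul_apply, smul_eq_mul] at h1
    have h2 : (ζ ^ k - 1) * x i = 0 := by linear_combination h1
    rcases mul_eq_zero.mp h2 with h3 | h3
    · exact zeta_pow_ne_one hζ hk0 hk5 (sub_eq_zero.mp h3)
    · exact hi h3
  have hcard' : (fibreVec c t).ncard ≤ 5 * Fintype.card H := by
    rw [hH]; exact hcard
  obtain ⟨k, hk, hkw⟩ :=
    Fermat.Agent.G35.OrbitKer.exists_pow_smul_of_label_eq hF hB hgen hw₀ (hfreeB w₀ hw₀) hz hZB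
      hzfree hfin hcard' w hw hBw
  refine ⟨k, hk, fun i => ?_⟩
  rw [gZ_pow_smul] at hkw
  rw [← hkw]
  simp

end Fermat.Agent.G35.KleinKer
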