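/-
GATE-Q / S52-Q2B-PACK (helper60): abstract packaging of the point-level identities of node Q2
into the labelling data of `KleinTrans.klein_htrans` / `KleinKer.klein_label_ker`.

INPUT (per fibre `fibreVec c t`): an abelian group `E` and total maps `Ppt Qpt : (Fin 2 → L) → E`
with, for all `x` in the fibre,
  (b1) `Ppt (S x) = Qpt x`, `Qpt (S x) = -Ppt x`;
  (b2) `Ppt (T̃ x) = Ppt x`, `Qpt (T̃ x) = Qpt x - Ppt x`;
  (b3) `Ppt (Z x) = Ppt x`, `Qpt (Z x) = Qpt x`;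
  (tors) `5 • Ppt x = 0`, `5 • Qpt x = 0`;
  (d) `a • Ppt x + b • Qpt x = 0 → 5 ∣ a ∧ 5 ∣ b`.
OUTPUT: `formStab L` is transitive on the fibre, and two points of the fibre with the same
`(Ppt, Qpt)` differ by a power of `ζ`.

Internals: `T` = the `5`-torsion of `E` as a `ZMod 5`-module, `Y = T × T` with `SL(2, ZMod 5)`
acting by `M • (q, p) = (M₀₀ q + M₀₁ p, M₁₀ q + M₁₁ p)`, label `B x = (Qpt x, Ppt x)`,
`m S = Sg`, `m T̃ = Tg⁻¹`, `m Z = 1`.
-/
import Fermat.Agent.G35.KleinTrans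
import Fermat.Agent.G35.KleinKer
import Fermat.Agent.G35.SL2F5

set_option autoImplicit false
set_option linter.unusedSectionVars false

namespace Fermat.Agent.G35.LabelPack

open Matrix Fermat.Agent.G35.Cocycle Fermat.Agent.G35.KleinTrans

/-! ### `SL₂(R)` acting on pairs of elements of an `R`-module -/

/-- pairs of elements of a module (carrying the `SL₂` action) -/
@[ext] structure Pair (T : Type*) where
  /-- first component -/
  fst : T
  /-- second component -/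
  snd : T

section action

variable {R : Type*} [CommRing R] {T : Type*} [AddCommGroup T] [Module R T]

/-- `M • (q, p) = (M₀₀ q + M₀₁ p, M₁₀ q + M₁₁ p)` -/
def pairSmul (M : Matrix.SpecialLinearGroup (Fin 2) R) (y : Pair T) : Pair T :=
  ⟨M 0 0 • y.fst + M 0 1 • y.snd, M 1 0 • y.fst + M 1 1 • y.snd⟩

instance pairAction : MulAction (Matrix.SpecialLinearGroup (Fin 2) R) (Pair T) where
  smul := pairSmul
  one_smul := by
    rintro ⟨q, p⟩
    change pairSmul 1 ⟨q, p⟩ = ⟨q, p⟩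
    unfold pairSmul
    ext <;> simp [Matrix.SpecialLinearGroup.coe_one]
  mul_smul := by
    rintro M N ⟨q, p⟩
    change pairSmul (M * N) ⟨q, p⟩ = pairSmul M (pairSmul N ⟨q, p⟩)
    unfold pairSmul
    ext
    · simp only [Matrix.SpecialLinearGroup.coe_mul, Matrix.mul_apply, Fin.sum_univ_two]
      module
    · simp only [Matrix.SpecialLinearGroup.coe_mul, Matrix.mul_apply, Fin.sum_univ_two]
      module

theorem smul_def (M : Matrix.SpecialLinearGroup (Fin 2) R) (y : Pair T) :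
    M • y = ⟨M 0 0 • y.fst + M 0 1 • y.snd, M 1 0 • y.fst + M 1 1 • y.snd⟩ := rfl

/-- The action is free at an independent pair. -/
theorem eq_one_of_smul_eq {q p : T}
    (hind : ∀ a b : R, a • q + b • p = 0 → a = 0 ∧ b = 0)
    {M : Matrix.SpecialLinearGroup (Fin 2) R} (h : M • (⟨q, p⟩ : Pair T) = ⟨q, p⟩) :
    M = 1 := by
  rw [smul_def] at h
  have h1 : M 0 0 • q + M 0 1 • p = q := congrArg Pair.fst h
  have h2 : M 1 0 • q + M 1 1 • p = p := congrArg Pair.snd h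
  have e1 : (M 0 0 - 1) • q + M 0 1 • p = 0 := by
    have : (M 0 0 - 1) • q + M 0 1 • p = (M 0 0 • q + M 0 1 • p) - q := by module
    rw [this, h1, sub_self]
  have e2 : M 1 0 • q + (M 1 1 - 1) • p = 0 := by
    have : M 1 0 • q + (M 1 1 - 1) • p = (M 1 0 • q + M 1 1 • p) - p := by module
    rw [this, h2, sub_self]
  obtain ⟨a1, a2⟩ := hind _ _ e1
  obtain ⟨a3, a4⟩ := hind _ _ e2
  ext i j
  fin_cases i <;> fin_cases j
  · simpa [sub_eq_zero] using a1
  · simpa using a2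
  · simpa using a3
  · simpa [sub_eq_zero] using a4

end action

/-! ### the packaging over a `ZMod 5`-module -/

section pack

instance : Fact (Nat.Prime 5) := ⟨by norm_num⟩

theorem card_SL : Fintype.card (Matrix.SpecialLinearGroup (Fin 2) (ZMod 5)) = 120 := by
  rw [← Nat.card_eq_fintype_card]
  exact Fermat.Agent.G35.SL2F5.card_SL2_five

variable {L : Type*} [Field L] [CharZero L] {ζ : L} (hζ : ζ ^ 4 + ζ ^ 3 + ζ ^ 2 + ζ + 1 = 0)
include hζ

theorem Smat_zero_one_ne_zero : Smat ζ 0 1 ≠ 0 := by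
  have hs : (Fermat.Agent.G35.KleinInv.sq5 ζ)⁻¹ ≠ 0 :=
    inv_ne_zero (Fermat.Agent.G35.KleinInv.sq5_ne_zero hζ five_ne_zero')
  have h1 : ζ ^ 2 - ζ ^ 3 ≠ 0 := by
    intro h
    have h2 : ζ ^ 2 * (1 - ζ) = 0 := by linear_combination h
    rcases mul_eq_zero.mp h2 with h3 | h3
    · exact zeta_ne_zero hζ (pow_eq_zero_iff (by norm_num) |>.mp h3)
    · have : ζ ^ 1 ≠ 1 := zeta_pow_ne_one hζ (by norm_num) (by norm_num)
      apply this
      rw [pow_one]
      linear_combination -h3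
  simp only [Smat, Matrix.of_apply, Matrix.cons_val', Matrix.cons_val_zero, Matrix.cons_val_one,
    Matrix.empty_val', Matrix.cons_val_fin_one]
  exact mul_ne_zero hs h1

theorem gS_ne_gT : gS hζ ≠ gT hζ := by
  intro h
  have h1 := congrArg (fun g : GL (Fin 2) L => (g : Matrix (Fin 2) (Fin 2) L) 0 1) h
  simp only [coe_gS, coe_gT] at h1
  apply Smat_zero_one_ne_zero hζ
  rw [h1]
  simp [Tmat]

theorem gS_ne_gZ : gS hζ ≠ gZ hζ := by
  intro h
  have h1 := congrArg (fun g : GL (Fin 2) L => (g : Matrix (Fin 2) (Fin 2) L) 0 1) h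
  simp only [coe_gS, coe_gZ] at h1
  apply Smat_zero_one_ne_zero hζ
  rw [h1]
  simp [Zmat]

theorem gT_ne_gZ : gT hζ ≠ gZ hζ := by
  intro h
  have h1 := congrArg (fun g : GL (Fin 2) L => (g : Matrix (Fin 2) (Fin 2) L) 0 0) h
  simp only [coe_gT, coe_gZ] at h1
  have h2 : ζ ^ 3 = ζ := by simpa [Tmat, Zmat] using h1
  have h3 : ζ * (ζ ^ 2 - 1) = 0 := by linear_combination h2
  rcases mul_eq_zero.mp h3 with h4 | h4
  · exact zeta_ne_zero hζ h4
  · exact zeta_pow_ne_one hζ (k := 2) (by norm_num) (by norm_num) (sub_eq_zero.mp h4)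

open Classical in
/-- the labels of the three generators (D4 dictionary) -/
noncomputable def mLabel (g : GL (Fin 2) L) : Matrix.SpecialLinearGroup (Fin 2) (ZMod 5) :=
  if g = gS hζ then Fermat.Agent.G35.SL2F5.Sg 5
  else if g = gT hζ then (Fermat.Agent.G35.SL2F5.Tg 5)⁻¹ else 1

theorem mLabel_gS : mLabel hζ (gS hζ) = Fermat.Agent.G35.SL2F5.Sg 5 := by
  simp [mLabel]

theorem mLabel_gT : mLabel hζ (gT hζ) = (Fermat.Agent.G35.SL2F5.Tg 5)⁻¹ := by
  simp [mLabel, (gS_ne_gT hζ).symm]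

theorem mLabel_gZ : mLabel hζ (gZ hζ) = 1 := by
  simp [mLabel, (gS_ne_gZ hζ).symm, (gT_ne_gZ hζ).symm]

theorem closure_mLabel_image :
    Subgroup.closure (mLabel hζ '' kleinGens hζ) = ⊤ := by
  rw [eq_top_iff, ← Fermat.Agent.G35.SL2F5.closure_S_T_eq_top 5]
  apply (Subgroup.closure_le _).mpr
  intro g hg
  rcases hg with rfl | rfl
  · apply Subgroup.subset_closure
    exact ⟨gS hζ, by simp [kleinGens], mLabel_gS hζ⟩
  · have : (Fermat.Agent.G35.SL2F5.Tg 5)⁻¹ ∈ Subgroup.closure (mLabel hζ '' kleinGens hζ) :=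
      Subgroup.subset_closure ⟨gT hζ, by simp [kleinGens], mLabel_gT hζ⟩
    simpa using Subgroup.inv_mem _ this

variable {T : Type*} [AddCommGroup T] [Module (ZMod 5) T]

omit hζ in
/-- the label `B x = (q x, p x)` -/
def label (q p : (Fin 2 → L) → T) (x : Fin 2 → L) : Pair T := ⟨q x, p x⟩

section hyps

variable (q p : (Fin 2 → L) → T) {c t : L}
  (hS : ∀ x ∈ fibreVec c t, p (Smat ζ *ᵥ x) = q x ∧ q (Smat ζ *ᵥ x) = -p x)
  (hT : ∀ x ∈ fibreVec c t, p (Tmat ζ *ᵥ x) = p x ∧ q (Tmat ζ *ᵥ x) = q x - p x)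
  (hZ : ∀ x ∈ fibreVec c t, p (Zmat ζ *ᵥ x) = p x ∧ q (Zmat ζ *ᵥ x) = q x)
  (hind : ∀ x ∈ fibreVec c t, ∀ a b : ZMod 5, a • q x + b • p x = 0 → a = 0 ∧ b = 0)
include hS hT hZ hind

theorem label_gens : ∀ g ∈ kleinGens hζ, ∀ x ∈ fibreVec c t,
    label q p (g • x) = mLabel hζ g • label q p x := by
  intro g hg x hx
  rcases hg with rfl | rfl | rfl
  · rw [mLabel_gS, smul_def]
    change (⟨q (Smat ζ *ᵥ x), p (Smat ζ *ᵥ x)⟩ : Pair T) = _
    rw [(hS x hx).1, (hS x hx).2]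
    ext
    · simp [label, Fermat.Agent.G35.SL2F5.coe_Sg]
    · simp [label, Fermat.Agent.G35.SL2F5.coe_Sg]
  · rw [mLabel_gT, smul_def]
    change (⟨q (Tmat ζ *ᵥ x), p (Tmat ζ *ᵥ x)⟩ : Pair T) = _
    rw [(hT x hx).1, (hT x hx).2]
    ext
    · simp [label, Matrix.SpecialLinearGroup.coe_inv, Matrix.adjugate_fin_two,
        Fermat.Agent.G35.SL2F5.coe_Tg, sub_eq_add_neg]
    · simp [label, Matrix.SpecialLinearGroup.coe_inv, Matrix.adjugate_fin_two,
        Fermat.Agent.G35.SL2F5.coe_Tg]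
  · rw [mLabel_gZ, one_smul]
    change (⟨q (Zmat ζ *ᵥ x), p (Zmat ζ *ᵥ x)⟩ : Pair T) = _
    rw [(hZ x hx).1, (hZ x hx).2]
    rfl

theorem label_gZ : ∀ x ∈ fibreVec c t, label q p (gZ hζ • x) = label q p x := by
  intro x hx
  change (⟨q (Zmat ζ *ᵥ x), p (Zmat ζ *ᵥ x)⟩ : Pair T) = _
  rw [(hZ x hx).1, (hZ x hx).2]
  rfl

theorem label_free : ∀ w ∈ fibreVec c t,
    ∀ h : Matrix.SpecialLinearGroup (Fin 2) (ZMod 5), h • label q p w = label q p w → h = 1 :=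
  fun w hw _ hh => eq_one_of_smul_eq (hind w hw) hh

/-- **Transitivity from the point-level identities** (`ZMod 5`-module form). -/
theorem htrans_of_labels (hc : c ≠ 0) (ht : t ≠ 0) (hct : c ^ 3 ≠ t ^ 2) :
    ∀ w₀ ∈ fibreVec c t, ∀ w ∈ fibreVec c t,
      ∃ M ∈ formStab L, (M : Matrix (Fin 2) (Fin 2) L) *ᵥ w₀ = w :=
  klein_htrans hζ card_SL (mLabel hζ) (label q p) hc ht hct
    (label_gens hζ q p hS hT hZ hind) (closure_mLabel_image hζ)
    (label_gZ hζ q p hS hT hZ hind) (label_free hζ q p hS hT hZ hind)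

/-- **Kernel of the label map from the point-level identities** (`ZMod 5`-module form). -/
theorem ker_of_labels (hc : c ≠ 0) (ht : t ≠ 0) (hct : c ^ 3 ≠ t ^ 2) :
    ∀ w₀ ∈ fibreVec c t, ∀ w ∈ fibreVec c t, q w = q w₀ → p w = p w₀ →
      ∃ k < 5, ∀ i, w i = ζ ^ k * w₀ i := by
  intro w₀ hw₀ w hw hq hp
  refine Fermat.Agent.G35.KleinKer.klein_label_ker hζ card_SL (mLabel hζ) (label q p) hc ht hct
    (label_gens hζ q p hS hT hZ hind) (closure_mLabel_image hζ)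
    (label_gZ hζ q p hS hT hZ hind) (label_free hζ q p hS hT hZ hind) w₀ hw₀ w hw ?_
  change (⟨q w, p w⟩ : Pair T) = ⟨q w₀, p w₀⟩
  rw [hq, hp]

end hyps

end pack

/-! ### the packaging over an arbitrary abelian group (helper3's `Points.lean` shape) -/

section points

/-- the `5`-torsion subgroup -/
def tors5 (E : Type*) [AddCommGroup E] : AddSubgroup E := (nsmulAddMonoidHom (α := E) 5).ker

theorem mem_tors5 {E : Type*} [AddCommGroup E] {x : E} : x ∈ tors5 E ↔ 5 • x = 0 := by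
  rw [tors5, AddMonoidHom.mem_ker]
  rfl

noncomputable instance tors5Module (E : Type*) [AddCommGroup E] : Module (ZMod 5) (tors5 E) :=
  AddCommGroup.zmodModule (n := 5) (fun x => by
    apply Subtype.ext
    rw [AddSubgroup.coe_nsmul]
    exact mem_tors5.mp x.2)

variable {L : Type*} [Field L] [CharZero L] {ζ : L} (hζ : ζ ^ 4 + ζ ^ 3 + ζ ^ 2 + ζ + 1 = 0)
variable {E : Type*} [AddCommGroup E] (Ppt Qpt : (Fin 2 → L) → E) {c t : L}

open Classical in
/-- a total map into the `5`-torsion -/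
noncomputable def toTors (f : (Fin 2 → L) → E) (x : Fin 2 → L) : tors5 E :=
  if h : 5 • f x = 0 then ⟨f x, mem_tors5.mpr h⟩ else 0

theorem coe_toTors {f : (Fin 2 → L) → E} {x : Fin 2 → L} (h : 5 • f x = 0) :
    ((toTors f x : tors5 E) : E) = f x := by
  simp [toTors, h]

section hyps

variable
  (hS : ∀ x ∈ fibreVec c t, Ppt (Smat ζ *ᵥ x) = Qpt x ∧ Qpt (Smat ζ *ᵥ x) = -Ppt x)
  (hT : ∀ x ∈ fibreVec c t, Ppt (Tmat ζ *ᵥ x) = Ppt x ∧ Qpt (Tmat ζ *ᵥ x) = Qpt x - Ppt x)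
  (hZ : ∀ x ∈ fibreVec c t, Ppt (Zmat ζ *ᵥ x) = Ppt x ∧ Qpt (Zmat ζ *ᵥ x) = Qpt x)
  (htors : ∀ x ∈ fibreVec c t, 5 • Ppt x = 0 ∧ 5 • Qpt x = 0)
  (hd : ∀ x ∈ fibreVec c t, ∀ a b : ℤ, a • Ppt x + b • Qpt x = 0 → (5 : ℤ) ∣ a ∧ (5 : ℤ) ∣ b)
include hζ hS hT hZ htors hd

theorem points_hyps :
    (∀ x ∈ fibreVec c t, toTors Ppt (Smat ζ *ᵥ x) = toTors Qpt x ∧
      toTors Qpt (Smat ζ *ᵥ x) = -toTors Ppt x) ∧
    (∀ x ∈ fibreVec c t, toTors Ppt (Tmat ζ *ᵥ x) = toTors Ppt x ∧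
      toTors Qpt (Tmat ζ *ᵥ x) = toTors Qpt x - toTors Ppt x) ∧
    (∀ x ∈ fibreVec c t, toTors Ppt (Zmat ζ *ᵥ x) = toTors Ppt x ∧
      toTors Qpt (Zmat ζ *ᵥ x) = toTors Qpt x) ∧
    (∀ x ∈ fibreVec c t, ∀ a b : ZMod 5,
      a • toTors Qpt x + b • toTors Ppt x = 0 → a = 0 ∧ b = 0) := by
  have hSmem : ∀ x ∈ fibreVec c t, Smat ζ *ᵥ x ∈ fibreVec c t := fun x hx =>
    (smul_mem_fibreVec_iff (gS_mem_formStab hζ) c t x).mpr hx
  have hTmem : ∀ x ∈ fibreVec c t, Tmat ζ *ᵥ x ∈ fibreVec c t := fun x hx =>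
    (smul_mem_fibreVec_iff (gT_mem_formStab hζ) c t x).mpr hx
  have hZmem : ∀ x ∈ fibreVec c t, Zmat ζ *ᵥ x ∈ fibreVec c t := fun x hx =>
    (smul_mem_fibreVec_iff (gZ_mem_formStab hζ) c t x).mpr hx
  refine ⟨fun x hx => ⟨?_, ?_⟩, fun x hx => ⟨?_, ?_⟩, fun x hx => ⟨?_, ?_⟩, ?_⟩
  · apply Subtype.ext
    rw [coe_toTors (htors _ (hSmem x hx)).1, coe_toTors (htors x hx).2]
    exact (hS x hx).1
  · apply Subtype.ext
    rw [AddSubgroup.coe_neg, coe_toTors (htors _ (hSmem x hx)).2, coe_toTors (htors x hx).1]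
    exact (hS x hx).2
  · apply Subtype.ext
    rw [coe_toTors (htors _ (hTmem x hx)).1, coe_toTors (htors x hx).1]
    exact (hT x hx).1
  · apply Subtype.ext
    rw [AddSubgroup.coe_sub, coe_toTors (htors _ (hTmem x hx)).2, coe_toTors (htors x hx).2,
      coe_toTors (htors x hx).1]
    exact (hT x hx).2
  · apply Subtype.ext
    rw [coe_toTors (htors _ (hZmem x hx)).1, coe_toTors (htors x hx).1]
    exact (hZ x hx).1
  · apply Subtype.ext
    rw [coe_toTors (htors _ (hZmem x hx)).2, coe_toTors (htors x hx).2]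
    exact (hZ x hx).2
  · intro x hx a b hab
    obtain ⟨a', rfl⟩ := ZMod.intCast_surjective a
    obtain ⟨b', rfl⟩ := ZMod.intCast_surjective b
    rw [Int.cast_smul_eq_zsmul, Int.cast_smul_eq_zsmul] at hab
    have h1 := congrArg (fun y : tors5 E => (y : E)) hab
    simp only [AddSubgroup.coe_add, AddSubgroup.coe_zsmul, AddSubgroup.coe_zero] at h1
    rw [coe_toTors (htors x hx).2, coe_toTors (htors x hx).1, add_comm] at h1
    obtain ⟨hb', ha'⟩ := hd x hx b' a' h1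
    exact ⟨(ZMod.intCast_zmod_eq_zero_iff_dvd a' 5).mpr ha',
      (ZMod.intCast_zmod_eq_zero_iff_dvd b' 5).mpr hb'⟩

/-- **Transitivity of `formStab` on the fibre from the point-level identities.** -/
theorem htrans_of_points (hc : c ≠ 0) (ht : t ≠ 0) (hct : c ^ 3 ≠ t ^ 2) :
    ∀ w₀ ∈ fibreVec c t, ∀ w ∈ fibreVec c t,
      ∃ M ∈ formStab L, (M : Matrix (Fin 2) (Fin 2) L) *ᵥ w₀ = w := by
  obtain ⟨h1, h2, h3, h4⟩ := points_hyps hζ Ppt Qpt hS hT hZ htors hd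
  exact htrans_of_labels hζ (toTors Qpt) (toTors Ppt) h1 h2 h3 h4 hc ht hct

/-- **Kernel of the label map from the point-level identities**: two points of the fibre with
the same `(Ppt, Qpt)` differ by a power of `ζ`. -/
theorem ker_of_points (hc : c ≠ 0) (ht : t ≠ 0) (hct : c ^ 3 ≠ t ^ 2) :
    ∀ w₀ ∈ fibreVec c t, ∀ w ∈ fibreVec c t, Ppt w = Ppt w₀ → Qpt w = Qpt w₀ →
      ∃ k < 5, ∀ i, w i = ζ ^ k * w₀ i := by
  obtain ⟨h1, h2, h3, h4⟩ := points_hyps hζ Ppt Qpt hS hT hZ htors hd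
  intro w₀ hw₀ w hw hP hQ
  refine ker_of_labels hζ (toTors Qpt) (toTors Ppt) h1 h2 h3 h4 hc ht hct w₀ hw₀ w hw ?_ ?_
  · apply Subtype.ext
    rw [coe_toTors (htors w hw).2, coe_toTors (htors w₀ hw₀).2, hQ]
  · apply Subtype.ext
    rw [coe_toTors (htors w hw).1, coe_toTors (htors w₀ hw₀).1, hP]

end hyps

end points

end Fermat.Agent.G35.LabelPack
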