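/-
GATE-Q / S52, node Q4(G), part 2 (helper23): the GALOIS half of the Q4 output contract T1 and the
final statement `t1_of_points`.

INPUT (the "point system", hypotheses in the binder shape of helper60's `LabelPack`): a family of
curves `E c t` over `ℚ̄` with total maps `Ppt c t, Qpt c t : ℚ̄² → (E c t)(ℚ̄)` such that on every
fibre `fibreVec c t` with `c³ ≠ t²` Klein's generators act by
`P∘S = Q, Q∘S = -P, P∘T̃ = P, Q∘T̃ = Q - P, P∘Z = P, Q∘Z = Q`, the points are `5`-torsion and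
independent; for an integral `W`, `E (c₄ W) (-c₆ W) = shortQb W` and the coordinatewise Galois
action is `σ P_ζ(w) = k • P_ζ(σ w)` (`σ ζ = ζ ^ k`), `σ Q(w) = Q(σ w)`.

OUTPUT: T1 (board 4123 D3 with the amendments 4149/4208): `w0`, `ι`, the families `f4, f6` for every
direction, (I2), (I3), (I4) and (cong) in point form.
-/
import Fermat.Agent.G35.FamilyDir
import Fermat.Agent.G35.LabelPack
import Fermat.Agent.G35.KleinClosure
import Fermat.Agent.G35.FiveCongTransport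
import Fermat.Agent.G35.Sym.GalP0

set_option autoImplicit false

open scoped WeierstrassCurve.Affine

namespace Fermat.Agent.G35.Descent

open Matrix Polynomial
open Fermat.Agent.G35.Free Fermat.Agent.G35.Cocycle Fermat.Agent.G35.KleinTrans

/-! ### uniform labels: generator induction -/

section labels

variable {L : Type*} [Field L] [CharZero L] {ζ : L} (hζ : ζ ^ 4 + ζ ^ 3 + ζ ^ 2 + ζ + 1 = 0)
variable {I : Type*} {Ept : I → Type*} [∀ i, AddCommGroup (Ept i)]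
  (cI tI : I → L) (P Q : ∀ i, (Fin 2 → L) → Ept i)

include hζ in
/-- **Uniform labels.** Every element of `closure {gS, gT, gZ}` acts on `(P, Q)` through an integer
matrix of determinant `≡ 1 mod 5`, THE SAME on all fibres. -/
theorem labels_of_mem_closure
    (hS : ∀ i, ∀ x ∈ fibreVec (cI i) (tI i),
      P i (Smat ζ *ᵥ x) = Q i x ∧ Q i (Smat ζ *ᵥ x) = -P i x)
    (hT : ∀ i, ∀ x ∈ fibreVec (cI i) (tI i),
      P i (Tmat ζ *ᵥ x) = P i x ∧ Q i (Tmat ζ *ᵥ x) = Q i x - P i x)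
    (hZ : ∀ i, ∀ x ∈ fibreVec (cI i) (tI i),
      P i (Zmat ζ *ᵥ x) = P i x ∧ Q i (Zmat ζ *ᵥ x) = Q i x)
    (htors : ∀ i, ∀ x ∈ fibreVec (cI i) (tI i), 5 • P i x = 0 ∧ 5 • Q i x = 0)
    {M : GL (Fin 2) L} (hM : M ∈ Subgroup.closure (kleinGens hζ)) :
    ∃ a b c d : ℤ, (5 : ℤ) ∣ a * d - b * c - 1 ∧ ∀ i, ∀ x ∈ fibreVec (cI i) (tI i),
      P i ((M : Matrix (Fin 2) (Fin 2) L) *ᵥ x) = a • P i x + c • Q i x ∧
      Q i ((M : Matrix (Fin 2) (Fin 2) L) *ᵥ x) = b • P i x + d • Q i x := by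
  induction hM using Subgroup.closure_induction with
  | mem g hg =>
    rcases hg with rfl | rfl | rfl
    · refine ⟨0, -1, 1, 0, by norm_num, fun i x hx => ?_⟩
      rw [coe_gS, (hS i x hx).1, (hS i x hx).2]
      constructor <;> simp
    · refine ⟨1, -1, 0, 1, by norm_num, fun i x hx => ?_⟩
      rw [coe_gT, (hT i x hx).1, (hT i x hx).2]
      constructor
      · simp
      · simp [sub_eq_neg_add]
    · refine ⟨1, 0, 0, 1, by norm_num, fun i x hx => ?_⟩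
      rw [coe_gZ, (hZ i x hx).1, (hZ i x hx).2]
      constructor <;> simp
  | one =>
    refine ⟨1, 0, 0, 1, by norm_num, fun i x _ => ?_⟩
    simp
  | mul g h _ hh ihg ihh =>
    obtain ⟨a, b, c, d, hdet, hg'⟩ := ihg
    obtain ⟨a', b', c', d', hdet', hh'⟩ := ihh
    refine ⟨a * a' + c * b', b * a' + d * b', a * c' + c * d', b * c' + d * d', ?_,
      fun i x hx => ?_⟩
    · obtain ⟨m, hm⟩ := hdet
      obtain ⟨m', hm'⟩ := hdet'
      refine ⟨m + m' + 5 * m * m', ?_⟩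
      have e1 : a * d - b * c = 1 + 5 * m := by linarith
      have e2 : a' * d' - b' * c' = 1 + 5 * m' := by linarith
      have e3 : (a * a' + c * b') * (b * c' + d * d') - (b * a' + d * b') * (a * c' + c * d')
          = (a * d - b * c) * (a' * d' - b' * c') := by ring
      rw [e3, e1, e2]; ring
    · have hhx : (h : Matrix (Fin 2) (Fin 2) L) *ᵥ x ∈ fibreVec (cI i) (tI i) :=
        (smul_mem_fibreVec_iff (closure_kleinGens_le hζ hh) _ _ x).mpr hx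
      have e : ((g * h : GL (Fin 2) L) : Matrix (Fin 2) (Fin 2) L) *ᵥ x
          = (g : Matrix (Fin 2) (Fin 2) L) *ᵥ ((h : Matrix (Fin 2) (Fin 2) L) *ᵥ x) := by
        rw [Matrix.mulVec_mulVec]; rfl
      rw [e, (hg' i _ hhx).1, (hg' i _ hhx).2, (hh' i x hx).1, (hh' i x hx).2]
      constructor <;> module
  | inv g hg ihg =>
    obtain ⟨a, b, c, d, hdet, hg'⟩ := ihg
    refine ⟨d, -b, -c, a, ?_, fun i x hx => ?_⟩
    · obtain ⟨m, hm⟩ := hdet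
      exact ⟨m, by linarith⟩
    · have hgi : g⁻¹ ∈ Subgroup.closure (kleinGens hζ) := Subgroup.inv_mem _ hg
      have hy : ((g⁻¹ : GL (Fin 2) L) : Matrix (Fin 2) (Fin 2) L) *ᵥ x ∈ fibreVec (cI i) (tI i) :=
        (smul_mem_fibreVec_iff (closure_kleinGens_le hζ hgi) _ _ x).mpr hx
      set y := ((g⁻¹ : GL (Fin 2) L) : Matrix (Fin 2) (Fin 2) L) *ᵥ x with hydef
      have e : (g : Matrix (Fin 2) (Fin 2) L) *ᵥ y = x := by
        rw [hydef, Matrix.mulVec_mulVec]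
        have : (g : Matrix (Fin 2) (Fin 2) L) * ((g⁻¹ : GL (Fin 2) L) : Matrix (Fin 2) (Fin 2) L)
            = 1 := by
          rw [← Units.val_mul, mul_inv_cancel]; rfl
        rw [this, Matrix.one_mulVec]
      have hP := (hg' i y hy).1
      have hQ := (hg' i y hy).2
      rw [e] at hP hQ
      obtain ⟨m, hm⟩ := hdet
      have e1 : a * d - b * c = 1 + m * 5 := by linarith
      have h5P : (5 : ℤ) • P i y = 0 := by
        have := (htors i y hy).1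
        rw [← natCast_zsmul] at this; exact_mod_cast this
      have h5Q : (5 : ℤ) • Q i y = 0 := by
        have := (htors i y hy).2
        rw [← natCast_zsmul] at this; exact_mod_cast this
      have kP : (a * d - b * c) • P i y = P i y := by
        rw [e1, add_smul, one_smul, mul_smul, h5P, smul_zero, add_zero]
      have kQ : (a * d - b * c) • Q i y = Q i y := by
        rw [e1, add_smul, one_smul, mul_smul, h5Q, smul_zero, add_zero]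
      constructor
      · calc P i y = (a * d - b * c) • P i y := kP.symm
          _ = d • (a • P i y + c • Q i y) + (-c) • (b • P i y + d • Q i y) := by module
          _ = d • P i x + (-c) • Q i x := by rw [hP, hQ]
      · calc Q i y = (a * d - b * c) • Q i y := kQ.symm
          _ = (-b) • (a • P i y + c • Q i y) + a • (b • P i y + d • Q i y) := by module
          _ = (-b) • P i x + a • Q i x := by rw [hP, hQ]

end labels

/-! ### the glue -/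

section glue

open Fermat.Agent.G35.ShortIso Fermat.Agent.GE.ECAssembly Fermat.Agent.G35.LabelPack

local notation "Qb" => AlgebraicClosure ℚ
local notation "GQ" => (AlgebraicClosure ℚ ≃ₐ[ℚ] AlgebraicClosure ℚ)

/-- `c₄³ ≠ (-c₆)²` over `ℚ̄` for `Δ ≠ 0` -/
theorem cube_ne_sq_cast (W : WeierstrassCurve ℤ) (hΔ : W.Δ ≠ 0) :
    (((W.c₄ : ℤ) : Qb)) ^ 3 ≠ (-((W.c₆ : ℤ) : Qb)) ^ 2 := by
  intro h
  apply Fermat.Agent.G35.SemistableNe.c4_cube_ne_c6_sq W hΔ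
  have h' : (((W.c₄ ^ 3 : ℤ)) : Qb) = ((W.c₆ ^ 2 : ℤ) : Qb) := by
    push_cast
    rw [h]; ring
  exact_mod_cast h'

variable {ζ : Qb} (hζ : ζ ^ 4 + ζ ^ 3 + ζ ^ 2 + ζ + 1 = 0)
  (E : Qb → Qb → WeierstrassCurve Qb)
  (Ppt Qpt : ∀ c t : Qb, (Fin 2 → Qb) → (E c t).toAffine.Point)
  (hS : ∀ c t : Qb, c ^ 3 ≠ t ^ 2 → ∀ x ∈ fibreVec c t,
    Ppt c t (Smat ζ *ᵥ x) = Qpt c t x ∧ Qpt c t (Smat ζ *ᵥ x) = -Ppt c t x)
  (hT : ∀ c t : Qb, c ^ 3 ≠ t ^ 2 → ∀ x ∈ fibreVec c t,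
    Ppt c t (Tmat ζ *ᵥ x) = Ppt c t x ∧ Qpt c t (Tmat ζ *ᵥ x) = Qpt c t x - Ppt c t x)
  (hZ : ∀ c t : Qb, c ^ 3 ≠ t ^ 2 → ∀ x ∈ fibreVec c t,
    Ppt c t (Zmat ζ *ᵥ x) = Ppt c t x ∧ Qpt c t (Zmat ζ *ᵥ x) = Qpt c t x)
  (htors : ∀ c t : Qb, c ^ 3 ≠ t ^ 2 → ∀ x ∈ fibreVec c t,
    5 • Ppt c t x = 0 ∧ 5 • Qpt c t x = 0)
  (hd : ∀ c t : Qb, c ^ 3 ≠ t ^ 2 → ∀ x ∈ fibreVec c t, ∀ a b : ℤ,
    a • Ppt c t x + b • Qpt c t x = 0 → (5 : ℤ) ∣ a ∧ (5 : ℤ) ∣ b)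
  (hcurve : ∀ W : WeierstrassCurve ℤ, E ((W.c₄ : ℤ) : Qb) (-((W.c₆ : ℤ) : Qb)) = shortQb W)
  (hgalP : ∀ (W : WeierstrassCurve ℤ), W.Δ ≠ 0 → ∀ (σ : GQ) (k : ℕ), σ ζ = ζ ^ k →
    ∀ x ∈ fibreVec (((W.c₄ : ℤ) : Qb)) (-((W.c₆ : ℤ) : Qb)),
      conjPoint (hcurve W) σ (Ppt _ _ x) = k • Ppt _ _ (fun i => σ (x i)))
  (hgalQ : ∀ (W : WeierstrassCurve ℤ), W.Δ ≠ 0 → ∀ (σ : GQ),
    ∀ x ∈ fibreVec (((W.c₄ : ℤ) : Qb)) (-((W.c₆ : ℤ) : Qb)),
      conjPoint (hcurve W) σ (Qpt _ _ x) = Qpt _ _ (fun i => σ (x i)))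

include hζ hS hT hZ htors hd in
/-- `formStab = closure {gS, gT, gZ}` seen from a nondegenerate fibre with nonzero `c, t`. -/
theorem mem_closure_of_formStab {c t : Qb} (hc : c ≠ 0) (ht : t ≠ 0) (hct : c ^ 3 ≠ t ^ 2)
    {w₀ : Fin 2 → Qb} (hw₀ : w₀ ∈ fibreVec c t) {M : GL (Fin 2) Qb} (hM : M ∈ formStab Qb) :
    M ∈ Subgroup.closure (kleinGens hζ) := by
  obtain ⟨h1, h2, h3, h4⟩ := points_hyps hζ (Ppt c t) (Qpt c t) (hS c t hct) (hT c t hct)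
    (hZ c t hct) (htors c t hct) (hd c t hct)
  exact Fermat.Agent.G35.KleinClosure.mem_closure_of_mem_formStab hζ card_SL (mLabel hζ)
    (label (toTors (Qpt c t)) (toTors (Ppt c t))) hc ht hct
    (label_gens hζ _ _ h1 h2 h3 h4) (closure_mLabel_image hζ)
    (label_gZ hζ _ _ h1 h2 h3 h4) (label_free hζ _ _ h1 h2 h3 h4) hw₀ hM

include hζ hS hT hZ htors hd hgalP hgalQ in
/-- **T1 (Q4 output contract)** from the point system. -/
theorem t1_of_points (W : WeierstrassCurve ℤ) (hΔ : W.Δ ≠ 0) (hW : W.IsSemistableModel) :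
    ∃ (w0 : Fin 2 → Qb) (ι : (Fin 2 → ℚ) →ₗ[ℚ] (Fin 2 → Qb)),
      c4 (w0 0) (w0 1) = ((W.c₄ : ℤ) : Qb) ∧ T6 (w0 0) (w0 1) = -((W.c₆ : ℤ) : Qb) ∧
      ι ![1, 0] = w0 ∧ LinearIndependent Qb ![ι ![1, 0], ι ![0, 1]] ∧
      (∀ d : Fin 2 → ℚ, d 1 ≠ 0 → ∃ f4 f6 : ℚ[X],
        (∀ t : ℚ, c4 (ι (![1, 0] + t • d) 0) (ι (![1, 0] + t • d) 1) = ((f4.eval t : ℚ) : Qb) ∧
          T6 (ι (![1, 0] + t • d) 0) (ι (![1, 0] + t • d) 1) = -((f6.eval t : ℚ) : Qb)) ∧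
        f4.eval 0 = ((W.c₄ : ℤ) : ℚ) ∧ f6.eval 0 = ((W.c₆ : ℤ) : ℚ) ∧ IsCoprime f4 f6) ∧
      (∀ ρ : GQ, (∀ i, ρ (w0 i) = w0 i) → ∀ v i, ρ (ι v i) = ι v i) ∧
      (∀ ρ : GQ, ρ ζ = ζ → (∀ P : TN W 5, ρ • P = P) →
        ∃ k : ℕ, ∀ i, ρ (w0 i) = ζ ^ k * w0 i) ∧
      (∀ ρ σ : GQ, ρ ζ = ζ → (∀ i, ρ (w0 i) = w0 i) → ∀ i, ρ (σ (w0 i)) = σ (w0 i)) ∧
      (∀ v : Fin 2 → ℚ, ∀ W' : WeierstrassCurve ℤ, W'.Δ ≠ 0 →
        ((W'.c₄ : ℤ) : Qb) = c4 (ι v 0) (ι v 1) → ((W'.c₆ : ℤ) : Qb) = -T6 (ι v 0) (ι v 1) →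
        Fermat.Agent.G35.TopTN.FiveCongTN W W') := by
  obtain ⟨hc, ht, hct⟩ := Fermat.Agent.G35.SemistableNe.fibre_hyps W hΔ hW Qb
  set c : Qb := ((W.c₄ : ℤ) : Qb) with hcdef
  set t : Qb := -((W.c₆ : ℤ) : Qb) with htdef
  -- transitivity on the fibre of `W`
  have htrans := htrans_of_points hζ (Ppt c t) (Qpt c t) (hS c t hct) (hT c t hct)
    (hZ c t hct) (htors c t hct) (hd c t hct) hc ht hct
  obtain ⟨w0, A, ι, hw0, hA, _hcoc, _hlev, _hιinj, hι0, hιA, hli, hI2, hfam⟩ :=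
    Fermat.Agent.G35.FamilyDir.exists_family_dir W hΔ hW htrans
  have hAcl : ∀ σ, A σ ∈ Subgroup.closure (kleinGens hζ) := fun σ =>
    mem_closure_of_formStab hζ E Ppt Qpt hS hT hZ htors hd hc ht hct hw0 (hA σ)
  have hσw0 : ∀ σ : GQ, (fun i => σ (w0 i)) = (A σ : Matrix (Fin 2) (Fin 2) Qb) *ᵥ w0 := by
    intro σ
    have := hιA σ ![1, 0]
    rwa [hι0] at this
  refine ⟨w0, ι, hw0.1, hw0.2, hι0, hli, hfam, hI2, ?_, ?_, ?_⟩
  · -- (I3)
    intro ρ hρζ hfix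
    have hρF : (fun i => ρ (w0 i)) ∈ fibreVec c t := by
      rw [hσw0 ρ]
      exact (smul_mem_fibreVec_iff (hA ρ) c t w0).mpr hw0
    have key : ∀ R : (E c t).toAffine.Point, 5 • R = 0 → conjPoint (hcurve W) ρ R = R := by
      intro R hR
      apply (curveIso (hcurve W)).injective
      rw [curveIso_conjPoint]
      have hmem : curveIso (hcurve W) R ∈
          Submodule.torsionBy ℤ (EQb W).Point ((5 : ℕ) : ℤ) :=
        (mem_TN_iff W 5 _).mpr ((nsmul_curveIso_eq_zero_iff (hcurve W) 5 R).mpr hR)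
      exact congrArg Subtype.val (hfix ⟨curveIso (hcurve W) R, hmem⟩)
    have hP : Ppt c t (fun i => ρ (w0 i)) = Ppt c t w0 := by
      have h1 := hgalP W hΔ ρ 1 (by rw [pow_one]; exact hρζ) w0 hw0
      rw [one_smul, key _ (htors c t hct w0 hw0).1] at h1
      exact h1.symm
    have hQ : Qpt c t (fun i => ρ (w0 i)) = Qpt c t w0 := by
      have h1 := hgalQ W hΔ ρ w0 hw0
      rw [key _ (htors c t hct w0 hw0).2] at h1
      exact h1.symm
    obtain ⟨k, _, hk⟩ := ker_of_points hζ (Ppt c t) (Qpt c t) (hS c t hct) (hT c t hct)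
      (hZ c t hct) (htors c t hct) (hd c t hct) hc ht hct w0 hw0 _ hρF hP hQ
    exact ⟨k, hk⟩
  · -- (I4)
    intro ρ σ hρζ hρw i
    rw [congrFun (hσw0 σ) i]
    exact Fermat.Agent.G35.KleinClosure.galois_fix_of_fix hζ ρ hρζ (hAcl σ) hρw i
  · -- (cong)
    intro v W' hΔ' h4' h6'
    have hct' := cube_ne_sq_cast W' hΔ'
    set c' : Qb := ((W'.c₄ : ℤ) : Qb) with hc'def
    set t' : Qb := -((W'.c₆ : ℤ) : Qb) with ht'def
    have hw' : ι v ∈ fibreVec c' t' := ⟨h4'.symm, by rw [ht'def, h6', neg_neg]⟩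
    refine Fermat.Agent.G35.FiveCongTransport.fiveCongTN_of_basis_curveIso hΔ (hcurve W)
      (hcurve W') (Ppt c t w0) (Qpt c t w0) (Ppt c' t' (ι v)) (Qpt c' t' (ι v))
      (htors c t hct w0 hw0).1 (htors c t hct w0 hw0).2
      (htors c' t' hct' _ hw').1 (htors c' t' hct' _ hw').2
      (hd c t hct w0 hw0) (hd c' t' hct' _ hw') ?_
    intro σ
    obtain ⟨k, _, _, hk⟩ := Fermat.Agent.G35.Sym.GalP0.exists_pow_eq_conj hζ σ
    obtain ⟨a, b, c₁, d, _, hlab⟩ := labels_of_mem_closure hζ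
      (I := {p : Qb × Qb // p.1 ^ 3 ≠ p.2 ^ 2})
      (Ept := fun i => (E i.1.1 i.1.2).toAffine.Point)
      (fun i => i.1.1) (fun i => i.1.2)
      (fun i => Ppt i.1.1 i.1.2) (fun i => Qpt i.1.1 i.1.2)
      (fun i => hS i.1.1 i.1.2 i.2) (fun i => hT i.1.1 i.1.2 i.2) (fun i => hZ i.1.1 i.1.2 i.2)
      (fun i => htors i.1.1 i.1.2 i.2) (hAcl σ)
    have hW := hlab ⟨(c, t), hct⟩ w0 hw0
    have hW' := hlab ⟨(c', t'), hct'⟩ (ι v) hw'
    refine ⟨k * a, b, k * c₁, d, ?_, ?_, ?_, ?_⟩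
    · rw [hgalP W hΔ σ k hk w0 hw0, hσw0 σ, hW.1, ← natCast_zsmul]
      module
    · rw [hgalQ W hΔ σ w0 hw0, hσw0 σ, hW.2]
    · rw [hgalP W' hΔ' σ k hk (ι v) hw', hιA σ v, hW'.1, ← natCast_zsmul]
      module
    · rw [hgalQ W' hΔ' σ (ι v) hw', hιA σ v, hW'.2]

end glue

end Fermat.Agent.G35.Descent
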