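/-
GATE-Q (S52): ASSEMBLY of the descent contract `T1Contract W` (helper82 `Irr3/OfT1`) from the landed
pieces, with the (cong) clause as ONE hypothesis in the shape of helper13's
`CongOfCocycle.fiveCongTN_of_cocycle` (helper43):

* `ζ`      : `Sym.exists_cyclo_root`;
* `htrans` : `Sym.klein_htrans_final` (binder-free);
* `w₀, A, ι`, independence, (I2), the family for every direction `d` : `FamilyDir.exists_family_dir`;
* (I3) : `Sym.I3.klein_I3`;   (I4) : `Sym.I4.klein_I4`;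
* (cong) : the hypothesis `CongInput`, fed with `w1 := ι v`, `A`, and
  `A σ ∈ closure kleinGens` from `Sym.I4.formStab_eq_closure_final`.

`t1contract_of_cong : CongInput → T1Contract W` and `s52_of_cong : CongInput → <frozen S52 shape>`.
-/
import Fermat.Agent.G35.FamilyDir
import Fermat.Agent.G35.Irr3.OfT1
import Fermat.Agent.G35.Sym.I3
import Fermat.Agent.G35.Sym.I4
import Fermat.Agent.G35.Sym.Q4FamilyFinal

set_option autoImplicit false

namespace Fermat.Agent.G35.DescentAsm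

open Polynomial Matrix
open Fermat.Agent.G35.Free Fermat.Agent.G35.Cocycle Fermat.Agent.G35.KleinTrans
open Fermat.Agent.G35.Sym Fermat.Agent.G35.ShortIso Fermat.Agent.G35.Sym.GalPoints
open Fermat.Agent.GE.ECAssembly

local notation "Qb" => AlgebraicClosure ℚ
local notation "GQ" => (AlgebraicClosure ℚ ≃ₐ[ℚ] AlgebraicClosure ℚ)

/-- **The (cong) input**: two fibre points `w0`, `w1` (over `W`, `W'`) with a COMMON Galois cocycle
`A σ ∈ closure {gS, gT, gZ}` give a 5-congruence.  (Statement of helper13's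
`fiveCongTN_of_cocycle`, board 4296.) -/
def CongInput : Prop :=
  ∀ {W W' : WeierstrassCurve ℤ}, W.Δ ≠ 0 → W'.Δ ≠ 0 → ∀ {ζ : Qb}
    (hζ : ζ ^ 4 + ζ ^ 3 + ζ ^ 2 + ζ + 1 = 0) (w0 w1 : Fin 2 → Qb),
    InFib (shortQb W) (w0 0) (w0 1) → InFib (shortQb W') (w1 0) (w1 1) →
    ∀ A : GQ → GL (Fin 2) Qb, (∀ σ, A σ ∈ Subgroup.closure (kleinGens hζ)) →
    (∀ σ i, σ (w0 i) = ((A σ : Matrix (Fin 2) (Fin 2) Qb) *ᵥ w0) i) →
    (∀ σ i, σ (w1 i) = ((A σ : Matrix (Fin 2) (Fin 2) Qb) *ᵥ w1) i) →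
    Fermat.Agent.G35.TopTN.FiveCongTN W W'

/-- **T1Contract from the (cong) input.** -/
theorem t1contract_of_cong (hcong : CongInput) (W : WeierstrassCurve ℤ) (hΔ : W.Δ ≠ 0)
    (hW : W.IsSemistableModel) : Fermat.Agent.G35.Irr3.OfT1.T1Contract W := by
  obtain ⟨ζ, hζ⟩ := exists_cyclo_root Qb
  obtain ⟨hc, ht, hct⟩ := Fermat.Agent.G35.SemistableNe.fibre_hyps W hΔ hW Qb
  have hc4 : W.c₄ ≠ 0 := Fermat.Agent.G35.SemistableNe.c4_ne_zero W hW
  have hc6 : W.c₆ ≠ 0 := Fermat.Agent.G35.SemistableNe.c6_ne_zero W hW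
  obtain ⟨w₀, A, ι, hw₀, hA, _hcoc, _hlev, _hιinj, hι0, hιA, hli, hI2, hfam⟩ :=
    Fermat.Agent.G35.FamilyDir.exists_family_dir W hΔ hW (klein_htrans_final hc ht hct hζ)
  have hcl : formStab Qb = Subgroup.closure (kleinGens hζ) :=
    Fermat.Agent.G35.Sym.I4.formStab_eq_closure_final hc ht hct hζ hw₀
  refine ⟨ζ, w₀, ι, hζ, hι0, hli, ?_, hI2, ?_, ?_, ?_⟩
  · -- the family
    intro d hd
    obtain ⟨f4, f6, h1, h2, h3, h4⟩ := hfam d hd
    exact ⟨f4, f6, h1, h2, h3, h4⟩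
  · -- (I3)
    intro ρ hρ hfix
    obtain ⟨k, _, hk⟩ := Fermat.Agent.G35.Sym.I3.klein_I3 W hΔ hc4 hc6 hζ hw₀.1 hw₀.2 ρ hρ hfix
    exact ⟨k, hk⟩
  · -- (I4)
    intro ρ σ hρ hfix i
    exact Fermat.Agent.G35.Sym.I4.klein_I4 W hΔ hc4 hc6 hζ hw₀.1 hw₀.2 ρ σ hρ hfix i
  · -- (cong)
    intro v W' hΔ' h4' h6'
    have hF0 : InFib (shortQb W) (w₀ 0) (w₀ 1) := by
      rw [inFib_shortQb_iff]
      refine ⟨?_, ?_⟩
      · have := hw₀.1
        simpa [c4, c4UV] using (by rw [← this]; unfold c4 c4UV; ring :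
          c4UV ((w₀ 0) ^ 5) ((w₀ 1) ^ 5) = ((W.c₄ : ℤ) : Qb))
      · have := hw₀.2
        simpa [T6, tUV] using (by rw [← this]; unfold T6 tUV; ring :
          tUV ((w₀ 0) ^ 5) ((w₀ 1) ^ 5) = -((W.c₆ : ℤ) : Qb))
    have hF1 : InFib (shortQb W') (ι v 0) (ι v 1) := by
      rw [inFib_shortQb_iff]
      refine ⟨?_, ?_⟩
      · rw [h4']; unfold c4 c4UV; ring
      · rw [h6', neg_neg]; unfold T6 tUV; ring
    refine hcong hΔ hΔ' hζ w₀ (ι v) hF0 hF1 A (fun σ => hcl ▸ hA σ) ?_ ?_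
    · intro σ i
      have := congrFun (hιA σ ![1, 0]) i
      rw [hι0] at this
      exact this
    · intro σ i
      exact congrFun (hιA σ v) i

/-- **S52 (frozen shape) from the (cong) input.** -/
theorem s52_of_cong (hcong : CongInput)
    (W : WeierstrassCurve ℤ) (hΔ : W.Δ ≠ 0) (hW : W.IsSemistableModel)
    (h5 : W.ModRepIsIrreducible 5) :
    ∃ W' : WeierstrassCurve ℤ, W'.Δ ≠ 0 ∧ W'.IsSemistableModel ∧ W'.ModRepIsIrreducible 3 ∧
      ∀ ℓ : ℕ, ℓ.Prime → W.IsGoodPrimeFor ℓ → W'.IsGoodPrimeFor ℓ → ℓ ≠ 5 →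
        (5 : ℤ) ∣ (W'.apOfModel ℓ - W.apOfModel ℓ) :=
  Fermat.Agent.G35.Irr3.OfT1.s52_of_contract (fun W hΔ hW => t1contract_of_cong hcong W hΔ hW)
    W hΔ hW h5

end Fermat.Agent.G35.DescentAsm
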