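/-
GATE-Q / S52 (3–5 switch), node Q4(D), abstract part 2 (helper85).

If the `p^k`-torsion subgroups of an abelian group `A'` have `(p^k)²` elements for all `k`, then
the `p`-primary torsion of `A'` is a divisible group; hence (Baer) every additive map from a
subgroup of an abelian group `A` into the `p`-primary torsion of `A'` extends to all of `A`.
In particular an additive map `A[p] → A'[p]` extends to an additive map `A → A'`.
Mathlib only (plus `G35/TorsIso` for `tors`).
-/
import Fermat.Agent.G35.TorsIso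

set_option autoImplicit false

namespace Fermat.Agent.G35.TorsExt

open Fermat.Agent.G35.TorsIso

universe u v

variable {A : Type u} {A' : Type v} [AddCommGroup A] [AddCommGroup A']

/-- the `p`-primary torsion subgroup -/
def primary (A' : Type v) [AddCommGroup A'] (p : ℕ) : AddSubgroup A' where
  carrier := {x | ∃ k : ℕ, p ^ k • x = 0}
  zero_mem' := ⟨0, smul_zero _⟩
  add_mem' := by
    rintro x y ⟨k, hk⟩ ⟨l, hl⟩
    refine ⟨k + l, ?_⟩
    rw [smul_add, pow_add, mul_smul, mul_smul, hl, smul_zero, add_zero, smul_comm, hk, smul_zero]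
  neg_mem' := by
    rintro x ⟨k, hk⟩
    exact ⟨k, by rw [smul_neg, hk, neg_zero]⟩

theorem mem_primary {p : ℕ} {x : A'} : x ∈ primary A' p ↔ ∃ k : ℕ, p ^ k • x = 0 := Iff.rfl

theorem tors_le_primary (p : ℕ) : tors A' p ≤ primary A' p := fun x hx =>
  ⟨1, by rw [pow_one]; exact hx⟩

section Prime

variable (p : ℕ) [hp : Fact p.Prime]

/-- counting: multiplication by `p` maps the `p^(k+1)`-torsion ONTO the `p^k`-torsion -/
theorem exists_p_smul_eq (hcard : ∀ k : ℕ, Nat.card (tors A' (p ^ k)) = (p ^ k) ^ 2) (k : ℕ)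
    (x : A') (hx : p ^ k • x = 0) : ∃ y : A', p ^ (k + 1) • y = 0 ∧ p • y = x := by
  classical
  -- the map `[p] : A'[p^(k+1)] → A'[p^k]`
  let f : tors A' (p ^ (k + 1)) →+ tors A' (p ^ k) :=
    { toFun := fun y => ⟨p • (y : A'), by
        rw [mem_tors, ← mul_smul, ← pow_succ]; exact y.2⟩
      map_zero' := Subtype.ext (smul_zero p)
      map_add' := fun y z => Subtype.ext (smul_add p (y : A') (z : A')) }
  have hfin : ∀ j : ℕ, Finite (tors A' (p ^ j)) := fun j =>
    Nat.finite_of_card_ne_zero (by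
      rw [hcard j]; exact pow_ne_zero 2 (pow_ne_zero j hp.out.ne_zero))
  have := hfin k
  have := hfin (k + 1)
  -- the kernel is the `p`-torsion
  have hker : Nat.card f.ker = p ^ 2 := by
    have h1 := hcard 1
    rw [pow_one] at h1
    rw [← h1]
    refine Nat.card_congr
      { toFun := fun y => ⟨((y : tors A' (p ^ (k + 1))) : A'), ?_⟩
        invFun := fun z => ⟨⟨(z : A'), ?_⟩, ?_⟩
        left_inv := fun y => rfl
        right_inv := fun z => rfl }
    · have := y.2
      rw [AddMonoidHom.mem_ker] at this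
      exact congrArg Subtype.val this
    · rw [mem_tors, pow_succ, mul_smul]
      have := z.2
      rw [mem_tors] at this
      rw [this, smul_zero]
    · rw [AddMonoidHom.mem_ker]
      exact Subtype.ext z.2
  have hidx : Nat.card f.ker * f.ker.index = Nat.card (tors A' (p ^ (k + 1))) :=
    AddSubgroup.card_mul_index f.ker
  rw [AddSubgroup.index_ker, hker, hcard (k + 1)] at hidx
  have hrange : Nat.card f.range = Nat.card (tors A' (p ^ k)) := by
    rw [hcard k]
    have hp2 : 0 < p ^ 2 := pow_pos hp.out.pos 2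
    apply Nat.eq_of_mul_eq_mul_left hp2
    rw [hidx]; ring
  have htop : f.range = ⊤ := AddSubgroup.eq_top_of_card_eq _ hrange
  obtain ⟨y, hy⟩ := (AddMonoidHom.range_eq_top.mp htop) ⟨x, hx⟩
  exact ⟨(y : A'), y.2, congrArg Subtype.val hy⟩

/-- the `p`-primary torsion is `n`-divisible for every `n ≠ 0` -/
theorem exists_nsmul_eq_of_mem_primary
    (hcard : ∀ k : ℕ, Nat.card (tors A' (p ^ k)) = (p ^ k) ^ 2) (n : ℕ) (hn : n ≠ 0)
    (x : A') (hx : x ∈ primary A' p) : ∃ y ∈ primary A' p, n • y = x := by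
  induction n using Nat.recOnMul generalizing x with
  | zero => exact absurd rfl hn
  | one => exact ⟨x, hx, one_nsmul x⟩
  | prime q hq =>
    obtain ⟨k, hk⟩ := hx
    by_cases hqp : q = p
    · subst hqp
      obtain ⟨y, hy1, hy2⟩ := exists_p_smul_eq q hcard k x hk
      exact ⟨y, ⟨k + 1, hy1⟩, hy2⟩
    · -- Bezout between `q` and `p ^ k`
      have hcop : Nat.Coprime q (p ^ k) :=
        Nat.Coprime.pow_right k ((Nat.coprime_primes hq hp.out).mpr hqp)
      have hb := Int.gcd_eq_gcd_ab (q : ℤ) ((p ^ k : ℕ) : ℤ)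
      rw [Int.gcd_natCast_natCast, hcop.gcd_eq_one] at hb
      set s := Int.gcdA (q : ℤ) ((p ^ k : ℕ) : ℤ) with hs
      set t := Int.gcdB (q : ℤ) ((p ^ k : ℕ) : ℤ) with ht
      refine ⟨s • x, (primary A' p).zsmul_mem ⟨k, hk⟩ s, ?_⟩
      have hk' : ((p ^ k : ℕ) : ℤ) • x = 0 := by rw [natCast_zsmul]; exact hk
      calc q • s • x = ((q : ℤ) * s) • x := by rw [mul_smul, natCast_zsmul]
        _ = ((q : ℤ) * s + ((p ^ k : ℕ) : ℤ) * t) • x := by
            rw [add_smul, mul_comm ((p ^ k : ℕ) : ℤ) t, mul_smul t, hk', smul_zero, add_zero]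
        _ = x := by rw [← hb]; simp
  | mul a b iha ihb =>
    have ha : a ≠ 0 := fun h => hn (by rw [h, zero_mul])
    have hb : b ≠ 0 := fun h => hn (by rw [h, mul_zero])
    obtain ⟨y, hy, hay⟩ := iha ha x hx
    obtain ⟨z, hz, hbz⟩ := ihb hb y hy
    exact ⟨z, hz, by rw [mul_smul, hbz, hay]⟩

/-- the `p`-primary torsion is a divisible group -/
@[instance_reducible] noncomputable def primaryDivisible
    (hcard : ∀ k : ℕ, Nat.card (tors A' (p ^ k)) = (p ^ k) ^ 2) :
    DivisibleBy (primary A' p) ℤ :=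
  letI : DivisibleBy (primary A' p) ℕ :=
    divisibleByOfSMulRightSurj (primary A' p) ℕ (fun {n} hn x => by
      obtain ⟨y, hy, hxy⟩ := exists_nsmul_eq_of_mem_primary p hcard n hn (x : A') x.2
      exact ⟨⟨y, hy⟩, Subtype.ext hxy⟩)
  AddGroup.divisibleByIntOfDivisibleByNat (primary A' p)

/-- **Extension**: an additive map from the `p`-torsion of `A` to the `p`-torsion of `A'` extends
to an additive map `A → A'`. -/
theorem exists_extension (hcard : ∀ k : ℕ, Nat.card (tors A' (p ^ k)) = (p ^ k) ^ 2)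
    (g : tors A p →+ tors A' p) :
    ∃ φ : A →+ A', ∀ x : tors A p, φ (x : A) = ((g x : tors A' p) : A') := by
  let _ := primaryDivisible p hcard
  have hB : Module.Baer ℤ (primary A' p) := Module.Baer.of_divisible (primary A' p)
  let g' : tors A p →+ primary A' p :=
    (AddSubgroup.inclusion (tors_le_primary p)).comp g
  obtain ⟨h, hh⟩ := hB.extension_property_addMonoidHom (tors A p).subtype
    Subtype.val_injective g'
  refine ⟨(primary A' p).subtype.comp h, fun x => ?_⟩
  have := DFunLike.congr_fun hh x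
  simp only [AddMonoidHom.comp_apply, AddSubgroup.subtype_apply] at this
  rw [AddMonoidHom.comp_apply, this]
  rfl

end Prime

end Fermat.Agent.G35.TorsExt
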