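/-
GATE-Q / S52 (3–5 switch), node Q4(D), abstract part (helper85).

Two abelian groups `A`, `A'` with an action of a group `G`, a prime `p`, and two pairs of
`p`-torsion points `(P, Q)`, `(P', Q')` generating the `p`-torsion subgroups (each of order `p²`)
on which every `σ ∈ G` acts through the SAME matrix: then there is a `G`-equivariant additive
isomorphism `A[p] ≃ A'[p]` carrying `(P, Q)` to `(P', Q')`.
Mathlib only.
-/
import Mathlib

set_option autoImplicit false

namespace Fermat.Agent.G35.TorsIso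

variable {G A A' : Type*} [Group G] [AddCommGroup A] [AddCommGroup A']
  [DistribMulAction G A] [DistribMulAction G A']

/-- the `n`-torsion subgroup -/
def tors (A : Type*) [AddCommGroup A] (n : ℕ) : AddSubgroup A :=
  (nsmulAddMonoidHom (α := A) n).ker

theorem mem_tors {n : ℕ} {x : A} : x ∈ tors A n ↔ n • x = 0 := Iff.rfl

theorem smul_mem_tors {n : ℕ} (σ : G) {x : A} (hx : x ∈ tors A n) : σ • x ∈ tors A n := by
  rw [mem_tors] at hx ⊢
  have := map_nsmul (DistribSMul.toAddMonoidHom A σ) n x
  rw [hx, map_zero] at this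
  exact this.symm

/-- the action of `σ` on the `n`-torsion, as an additive map -/
def torsAct (n : ℕ) (σ : G) : tors A n →+ tors A n where
  toFun x := ⟨σ • (x : A), smul_mem_tors σ x.2⟩
  map_zero' := Subtype.ext (smul_zero σ)
  map_add' x y := Subtype.ext (smul_add σ (x : A) (y : A))

@[simp] theorem coe_torsAct (n : ℕ) (σ : G) (x : tors A n) :
    ((torsAct n σ x : tors A n) : A) = σ • (x : A) := rfl

section Prime

variable (p : ℕ) [hp : Fact p.Prime]

/-- the `ZMod p`-module structure of the `p`-torsion -/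
@[reducible] def torsModule (A : Type*) [AddCommGroup A] : Module (ZMod p) (tors A p) :=
  AddCommGroup.zmodModule (n := p) (fun x => Subtype.ext (by
    rw [AddSubgroup.coe_nsmul]; exact x.2))

/-- the parametrisation `(i, j) ↦ i P + j Q` of the `p`-torsion by `(ZMod p)²` -/
noncomputable def param (P Q : tors A p) :
    letI := torsModule p A
    (Fin 2 → ZMod p) →ₗ[ZMod p] tors A p :=
  letI := torsModule p A
  (Pi.basisFun (ZMod p) (Fin 2)).constr ℤ ![P, Q]

theorem param_apply (P Q : tors A p) (v : Fin 2 → ZMod p) :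
    letI := torsModule p A
    param p P Q v = v 0 • P + v 1 • Q := by
  let _ := torsModule p A
  unfold param
  rw [Module.Basis.constr_apply_fintype, Fin.sum_univ_two]
  simp

/-- `param` in terms of `ℕ`-multiples -/
theorem coe_param (P Q : tors A p) (v : Fin 2 → ZMod p) :
    ((param p P Q v : tors A p) : A) = (v 0).val • (P : A) + (v 1).val • (Q : A) := by
  let _ := torsModule p A
  rw [param_apply]
  have h : ∀ (z : ZMod p) (R : tors A p), z • R = z.val • R := by
    intro z R
    conv_lhs => rw [← ZMod.natCast_zmod_val z]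
    exact Nat.cast_smul_eq_nsmul (ZMod p) z.val R
  rw [h, h, AddSubgroup.coe_add, AddSubgroup.coe_nsmul, AddSubgroup.coe_nsmul]

theorem param_natCast (P Q : tors A p) (i j : ℕ) :
    ((param p P Q ![(i : ZMod p), (j : ZMod p)] : tors A p) : A) = i • (P : A) + j • (Q : A) := by
  let _ := torsModule p A
  rw [param_apply]
  simp only [Matrix.cons_val_zero, Matrix.cons_val_one]
  rw [Nat.cast_smul_eq_nsmul (ZMod p) i P, Nat.cast_smul_eq_nsmul (ZMod p) j Q,
    AddSubgroup.coe_add, AddSubgroup.coe_nsmul, AddSubgroup.coe_nsmul]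

theorem param_surjective (P Q : tors A p)
    (hgen : ∀ R : A, p • R = 0 → ∃ i j : ℕ, R = i • (P : A) + j • (Q : A)) :
    Function.Surjective (param p P Q) := by
  intro R
  obtain ⟨i, j, hij⟩ := hgen R R.2
  exact ⟨![(i : ZMod p), (j : ZMod p)], Subtype.ext ((param_natCast p P Q i j).trans hij.symm)⟩

theorem card_fun : Nat.card (Fin 2 → ZMod p) = p ^ 2 := by
  rw [Nat.card_eq_fintype_card, Fintype.card_fun, ZMod.card, Fintype.card_fin]

theorem param_bijective (P Q : tors A p)
    (hgen : ∀ R : A, p • R = 0 → ∃ i j : ℕ, R = i • (P : A) + j • (Q : A))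
    (hcard : Nat.card (tors A p) = p ^ 2) :
    Function.Bijective (param p P Q) := by
  have hfin : Finite (tors A p) :=
    Nat.finite_of_card_ne_zero (by rw [hcard]; exact pow_ne_zero 2 hp.out.ne_zero)
  have hs := param_surjective p P Q hgen
  refine ⟨?_, hs⟩
  have hcard' : Nat.card (Fin 2 → ZMod p) = Nat.card (tors A p) := by rw [hcard, card_fun]
  exact ((Nat.bijective_iff_surjective_and_card (param p P Q)).mpr ⟨hs, hcard'⟩).1

/-- **Equal Galois matrices on two bases of the `p`-torsion give an equivariant isomorphism.** -/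
theorem exists_equivariant_addEquiv (P Q : A) (P' Q' : A')
    (hP : p • P = 0) (hQ : p • Q = 0) (hP' : p • P' = 0) (hQ' : p • Q' = 0)
    (hgen : ∀ R : A, p • R = 0 → ∃ i j : ℕ, R = i • P + j • Q)
    (hgen' : ∀ R : A', p • R = 0 → ∃ i j : ℕ, R = i • P' + j • Q')
    (hcard : Nat.card (tors A p) = p ^ 2) (hcard' : Nat.card (tors A' p) = p ^ 2)
    (hgal : ∀ σ : G, ∃ a b c d : ℕ, σ • P = a • P + c • Q ∧ σ • Q = b • P + d • Q ∧
      σ • P' = a • P' + c • Q' ∧ σ • Q' = b • P' + d • Q') :
    ∃ φ : tors A p ≃+ tors A' p,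
      ((φ ⟨P, hP⟩ : tors A' p) : A') = P' ∧ ((φ ⟨Q, hQ⟩ : tors A' p) : A') = Q' ∧
      ∀ (σ : G) (R : tors A p), φ (torsAct p σ R) = torsAct p σ (φ R) := by
  let _ := torsModule p A
  let _ := torsModule p A'
  set f := param p (⟨P, hP⟩ : tors A p) ⟨Q, hQ⟩ with hf
  set f' := param p (⟨P', hP'⟩ : tors A' p) ⟨Q', hQ'⟩ with hf'
  have hb : Function.Bijective f := param_bijective p _ _ hgen hcard
  have hb' : Function.Bijective f' := param_bijective p _ _ hgen' hcard'
  let F := LinearEquiv.ofBijective f hb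
  let F' := LinearEquiv.ofBijective f' hb'
  have hF : ∀ v, F v = f v := fun v => rfl
  have hF' : ∀ v, F' v = f' v := fun v => rfl
  refine ⟨(F.symm.trans F').toAddEquiv, ?_, ?_, ?_⟩
  · have h1 : F ![((1 : ℕ) : ZMod p), ((0 : ℕ) : ZMod p)] = (⟨P, hP⟩ : tors A p) := by
      apply Subtype.ext
      rw [hF, hf, param_natCast]
      simp
    show ((F' (F.symm ⟨P, hP⟩) : tors A' p) : A') = P'
    rw [← h1, LinearEquiv.symm_apply_apply, hF', hf', param_natCast]
    simp
  · have h1 : F ![((0 : ℕ) : ZMod p), ((1 : ℕ) : ZMod p)] = (⟨Q, hQ⟩ : tors A p) := by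
      apply Subtype.ext
      rw [hF, hf, param_natCast]
      simp
    show ((F' (F.symm ⟨Q, hQ⟩) : tors A' p) : A') = Q'
    rw [← h1, LinearEquiv.symm_apply_apply, hF', hf', param_natCast]
    simp
  · intro σ R
    obtain ⟨v, rfl⟩ := hb.2 R
    obtain ⟨a, b, c, d, h1, h2, h3, h4⟩ := hgal σ
    set w : Fin 2 → ZMod p :=
      ![(((v 0).val * a + (v 1).val * b : ℕ) : ZMod p),
        (((v 0).val * c + (v 1).val * d : ℕ) : ZMod p)] with hw
    have e1 : torsAct p σ (f v) = f w := by
      apply Subtype.ext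
      rw [coe_torsAct, hf, coe_param, hw, param_natCast]
      show σ • ((v 0).val • P + (v 1).val • Q) =
        ((v 0).val * a + (v 1).val * b) • P + ((v 0).val * c + (v 1).val * d) • Q
      have hc : ∀ (n : ℕ) (x : A), σ • n • x = n • σ • x := fun n x =>
        map_nsmul (DistribSMul.toAddMonoidHom A σ) n x
      rw [smul_add, hc, hc, h1, h2]
      simp only [smul_add, add_smul, mul_smul]
      abel
    have e2 : torsAct p σ (f' v) = f' w := by
      apply Subtype.ext
      rw [coe_torsAct, hf', coe_param, hw, param_natCast]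
      show σ • ((v 0).val • P' + (v 1).val • Q') =
        ((v 0).val * a + (v 1).val * b) • P' + ((v 0).val * c + (v 1).val * d) • Q'
      have hc : ∀ (n : ℕ) (x : A'), σ • n • x = n • σ • x := fun n x =>
        map_nsmul (DistribSMul.toAddMonoidHom A' σ) n x
      rw [smul_add, hc, hc, h3, h4]
      simp only [smul_add, add_smul, mul_smul]
      abel
    show F' (F.symm (torsAct p σ (f v))) = torsAct p σ (F' (F.symm (f v)))
    rw [e1, ← hF w, ← hF v, LinearEquiv.symm_apply_apply, LinearEquiv.symm_apply_apply, hF', hF',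
      e2]

end Prime

end Fermat.Agent.G35.TorsIso
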