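/-
GATE-Q / S52 (3–5 switch), node Q4(D), abstract part 3 (helper85): variants of
`TorsIso.exists_equivariant_addEquiv` with integer coefficients and with INDEPENDENCE
(or `P ≠ 0`, `Q ∉ ⟨P⟩`) instead of generation.  Mathlib only (plus `G35/TorsIso`).
-/
import Fermat.Agent.G35.TorsIso

set_option autoImplicit false

namespace Fermat.Agent.G35.TorsIso

variable {G A A' : Type*} [Group G] [AddCommGroup A] [AddCommGroup A']
  [DistribMulAction G A] [DistribMulAction G A']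

variable (p : ℕ) [hp : Fact p.Prime]

/-- on a point killed by `p`, an integer multiple is a natural multiple -/
theorem zsmul_eq_nsmul_of_tors {P : A} (hP : p • P = 0) (a : ℤ) :
    a • P = (a % (p : ℤ)).toNat • P := by
  have hp0 : (0 : ℤ) < p := by exact_mod_cast hp.out.pos
  have h1 : ((a % (p : ℤ)).toNat : ℤ) = a % (p : ℤ) :=
    Int.toNat_of_nonneg (Int.emod_nonneg a hp0.ne')
  rw [← natCast_zsmul, h1]
  conv_lhs => rw [← Int.emod_add_mul_ediv a (p : ℤ)]
  rw [add_smul, mul_comm, mul_smul, natCast_zsmul, hP, smul_zero, add_zero]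

/-- independence gives generation, given the count `#A[p] = p²` -/
theorem gen_of_indep (P Q : A) (hP : p • P = 0) (hQ : p • Q = 0)
    (hind : ∀ a b : ℤ, a • P + b • Q = 0 → (p : ℤ) ∣ a ∧ (p : ℤ) ∣ b)
    (hcard : Nat.card (tors A p) = p ^ 2) :
    ∀ R : A, p • R = 0 → ∃ i j : ℕ, R = i • P + j • Q := by
  let _ := torsModule p A
  set f := param p (⟨P, hP⟩ : tors A p) ⟨Q, hQ⟩ with hf
  have hfin : Finite (tors A p) :=
    Nat.finite_of_card_ne_zero (by rw [hcard]; exact pow_ne_zero 2 hp.out.ne_zero)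
  have hinj : Function.Injective f := by
    rw [← LinearMap.ker_eq_bot, LinearMap.ker_eq_bot']
    intro v hv
    have h0 : ((f v : tors A p) : A) = 0 := by rw [hv]; rfl
    rw [hf, coe_param] at h0
    have h1 : (((v 0).val : ℕ) : ℤ) • P + (((v 1).val : ℕ) : ℤ) • Q = 0 := by
      rw [natCast_zsmul, natCast_zsmul]; exact h0
    obtain ⟨d0, d1⟩ := hind _ _ h1
    funext i
    fin_cases i
    · show v 0 = 0
      rw [← ZMod.natCast_zmod_val (v 0), ZMod.natCast_eq_zero_iff]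
      exact_mod_cast d0
    · show v 1 = 0
      rw [← ZMod.natCast_zmod_val (v 1), ZMod.natCast_eq_zero_iff]
      exact_mod_cast d1
  have hcard' : Nat.card (Fin 2 → ZMod p) = Nat.card (tors A p) := by rw [hcard, card_fun]
  have hsurj : Function.Surjective f :=
    ((Nat.bijective_iff_injective_and_card f).mpr ⟨hinj, hcard'⟩).2
  intro R hR
  obtain ⟨v, hv⟩ := hsurj ⟨R, hR⟩
  refine ⟨(v 0).val, (v 1).val, ?_⟩
  have := congrArg Subtype.val hv
  rw [hf, coe_param] at this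
  exact this.symm

/-- `P ≠ 0` and `Q ∉ ⟨P⟩` give independence -/
theorem indep_of_not_mem_zmultiples (P Q : A) (hP : p • P = 0) (hQ : p • Q = 0)
    (hP0 : P ≠ 0) (hQP : Q ∉ AddSubgroup.zmultiples P) :
    ∀ a b : ℤ, a • P + b • Q = 0 → (p : ℤ) ∣ a ∧ (p : ℤ) ∣ b := by
  have hpp : Prime (p : ℤ) := Nat.prime_iff_prime_int.mp hp.out
  have hP' : (p : ℤ) • P = 0 := by rw [natCast_zsmul]; exact hP
  have hQ' : (p : ℤ) • Q = 0 := by rw [natCast_zsmul]; exact hQ
  -- a multiple of a nonzero `p`-torsion point vanishes only if `p ∣` the coefficient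
  have key : ∀ (R : A), (p : ℤ) • R = 0 → R ≠ 0 → ∀ m : ℤ, m • R = 0 → (p : ℤ) ∣ m := by
    intro R hR hR0 m hm
    by_contra hnd
    obtain ⟨u, w, huw⟩ := (hpp.coprime_iff_not_dvd).mpr hnd
    apply hR0
    calc R = (1 : ℤ) • R := (one_zsmul R).symm
      _ = (u * (p : ℤ) + w * m) • R := by rw [huw]
      _ = 0 := by rw [add_smul, mul_smul, mul_smul, hR, hm, smul_zero, smul_zero, add_zero]
  intro a b hab
  have hb : (p : ℤ) ∣ b := by
    by_contra hnd
    obtain ⟨u, w, huw⟩ := (hpp.coprime_iff_not_dvd).mpr hnd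
    apply hQP
    rw [AddSubgroup.mem_zmultiples_iff]
    refine ⟨-(w * a), ?_⟩
    have hbQ : b • Q = -(a • P) := by
      rw [eq_neg_iff_add_eq_zero, add_comm]; exact hab
    calc (-(w * a)) • P = -(w • a • P) := by rw [neg_smul, mul_smul]
      _ = w • b • Q := by rw [hbQ, smul_neg]
      _ = (u * (p : ℤ) + w * b) • Q := by
          rw [add_smul, mul_smul, mul_smul, hQ', smul_zero, zero_add]
      _ = Q := by rw [huw, one_zsmul]
  refine ⟨?_, hb⟩
  obtain ⟨b', rfl⟩ := hb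
  rw [mul_comm, mul_smul, hQ', smul_zero, add_zero] at hab
  exact key P hP' hP0 a hab

/-- **Integer-coefficient, independence form** of `exists_equivariant_addEquiv`. -/
theorem exists_equivariant_addEquiv_of_indep (P Q : A) (P' Q' : A')
    (hP : p • P = 0) (hQ : p • Q = 0) (hP' : p • P' = 0) (hQ' : p • Q' = 0)
    (hind : ∀ a b : ℤ, a • P + b • Q = 0 → (p : ℤ) ∣ a ∧ (p : ℤ) ∣ b)
    (hind' : ∀ a b : ℤ, a • P' + b • Q' = 0 → (p : ℤ) ∣ a ∧ (p : ℤ) ∣ b)
    (hcard : Nat.card (tors A p) = p ^ 2) (hcard' : Nat.card (tors A' p) = p ^ 2)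
    (hgal : ∀ σ : G, ∃ a b c d : ℤ, σ • P = a • P + c • Q ∧ σ • Q = b • P + d • Q ∧
      σ • P' = a • P' + c • Q' ∧ σ • Q' = b • P' + d • Q') :
    ∃ φ : tors A p ≃+ tors A' p,
      ((φ ⟨P, hP⟩ : tors A' p) : A') = P' ∧ ((φ ⟨Q, hQ⟩ : tors A' p) : A') = Q' ∧
      ∀ (σ : G) (R : tors A p), φ (torsAct p σ R) = torsAct p σ (φ R) := by
  refine exists_equivariant_addEquiv (G := G) p P Q P' Q' hP hQ hP' hQ'
    (gen_of_indep p P Q hP hQ hind hcard) (gen_of_indep p P' Q' hP' hQ' hind' hcard')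
    hcard hcard' (fun σ => ?_)
  obtain ⟨a, b, c, d, h1, h2, h3, h4⟩ := hgal σ
  refine ⟨(a % (p : ℤ)).toNat, (b % (p : ℤ)).toNat, (c % (p : ℤ)).toNat, (d % (p : ℤ)).toNat,
    ?_, ?_, ?_, ?_⟩
  · rw [h1, zsmul_eq_nsmul_of_tors p hP a, zsmul_eq_nsmul_of_tors p hQ c]
  · rw [h2, zsmul_eq_nsmul_of_tors p hP b, zsmul_eq_nsmul_of_tors p hQ d]
  · rw [h3, zsmul_eq_nsmul_of_tors p hP' a, zsmul_eq_nsmul_of_tors p hQ' c]
  · rw [h4, zsmul_eq_nsmul_of_tors p hP' b, zsmul_eq_nsmul_of_tors p hQ' d]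

end Fermat.Agent.G35.TorsIso
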