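/-
GATE-Q / S52 (3–5 switch), node Q4(D) (helper85, on helper60's split of helper23's graph).

Two integral Weierstrass curves `W`, `W'` with nonzero discriminant and bases `(P, Q)` of `W[5]`,
`(P', Q')` of `W'[5]` (over `ℚ̄`) on which every `σ ∈ G_ℚ` acts through the SAME matrix are
`5`-congruent: the genuine `Top.FiveCong W W'` (an additive map on ALL points), so that the
landed `Top.s52_of_family` applies verbatim.

The torsion isomorphism comes from `TorsIso`; it is extended to all points through the divisible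
group `W'[5^∞]` (`TorsExt`, using `#W'[5^k] = 5^{2k}`).
NEW file; imports only.
-/
import Fermat.Agent.G35.Top
import Fermat.Agent.G35.TorsExt
import Fermat.Agent.G35.TorsIsoInt

set_option autoImplicit false

open Fermat.Agent.Common_helper32
open scoped WeierstrassCurve.Affine

namespace Fermat.Agent.G35.FiveCongBases

open WeierstrassCurve WeierstrassCurve.Affine.Point Fermat.Agent.GE.ECAssembly
open Fermat.Agent.G35.Top Fermat.Agent.G35.TorsIso Fermat.Agent.G35.TorsExt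

/-- `#W[n] = n²` in the `tors` form -/
theorem card_tors (W : WeierstrassCurve ℤ) (hΔ : W.Δ ≠ 0) (n : ℕ) (hn : 1 ≤ n) :
    Nat.card (tors (EQb W).Point n) = n ^ 2 :=
  Fermat.Agent.GE.Tors.card_torsion (W := EQb W) (eqb_Δ_ne_zero W hΔ) n hn

local instance factPrimeFive : Fact (Nat.Prime 5) := ⟨by norm_num⟩

/-- **An equivariant isomorphism of the `5`-torsion subgroups gives `FiveCong`.** -/
theorem fiveCong_of_torsEquiv {W W' : WeierstrassCurve ℤ} (hΔ' : W'.Δ ≠ 0)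
    (φ : tors (EQb W).Point 5 ≃+ tors (EQb W').Point 5)
    (hφ : ∀ (σ : GQ) (R : tors (EQb W).Point 5), φ (torsAct 5 σ R) = torsAct 5 σ (φ R)) :
    FiveCong W W' := by
  have hcard : ∀ k : ℕ, Nat.card (tors (EQb W').Point (5 ^ k)) = (5 ^ k) ^ 2 := fun k =>
    card_tors W' hΔ' (5 ^ k) (Nat.one_le_pow _ _ (by norm_num))
  obtain ⟨ψ, hψ⟩ := exists_extension (A := (EQb W).Point) (A' := (EQb W').Point) 5 hcard
    φ.toAddMonoidHom
  refine ⟨ψ, ?_, ?_⟩
  · intro P hP h0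
    have h1 := hψ ⟨P, hP⟩
    rw [h0] at h1
    have h2 : φ ⟨P, hP⟩ = 0 := Subtype.ext h1.symm
    have h3 : (⟨P, hP⟩ : tors (EQb W).Point 5) = 0 := by
      rw [← φ.map_eq_zero_iff]; exact h2
    exact congrArg Subtype.val h3
  · intro σ P hP
    have h1 := hψ ⟨P, hP⟩
    have h2 := hψ (torsAct 5 σ ⟨P, hP⟩)
    rw [coe_torsAct] at h2
    show ψ (σ • P) = σ • ψ P
    rw [h2, h1]
    show ((φ (torsAct 5 σ ⟨P, hP⟩) : tors (EQb W').Point 5) : (EQb W').Point) = _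
    rw [hφ σ ⟨P, hP⟩, coe_torsAct]
    rfl

/-- **Q4(D)**: bases of the `5`-torsion with the same Galois matrices give `FiveCong`
(integer coefficients; independence form). -/
theorem fiveCong_of_bases {W W' : WeierstrassCurve ℤ} (hΔ : W.Δ ≠ 0) (hΔ' : W'.Δ ≠ 0)
    (P Q : (EQb W).Point) (P' Q' : (EQb W').Point)
    (hP : (5 : ℕ) • P = 0) (hQ : (5 : ℕ) • Q = 0) (hP' : (5 : ℕ) • P' = 0)
    (hQ' : (5 : ℕ) • Q' = 0)
    (hind : ∀ a b : ℤ, a • P + b • Q = 0 → (5 : ℤ) ∣ a ∧ (5 : ℤ) ∣ b)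
    (hind' : ∀ a b : ℤ, a • P' + b • Q' = 0 → (5 : ℤ) ∣ a ∧ (5 : ℤ) ∣ b)
    (hgal : ∀ σ : GQ, ∃ a b c d : ℤ, σ • P = a • P + c • Q ∧ σ • Q = b • P + d • Q ∧
      σ • P' = a • P' + c • Q' ∧ σ • Q' = b • P' + d • Q') :
    FiveCong W W' := by
  obtain ⟨φ, -, -, hφ⟩ := exists_equivariant_addEquiv_of_indep (G := GQ) 5 P Q P' Q' hP hQ hP' hQ'
    (by exact_mod_cast hind) (by exact_mod_cast hind')
    (card_tors W hΔ 5 (by norm_num)) (card_tors W' hΔ' 5 (by norm_num)) hgal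
  exact fiveCong_of_torsEquiv hΔ' φ hφ

/-- **Q4(D)**, `P ≠ 0`, `Q ∉ ⟨P⟩` form. -/
theorem fiveCong_of_bases' {W W' : WeierstrassCurve ℤ} (hΔ : W.Δ ≠ 0) (hΔ' : W'.Δ ≠ 0)
    (P Q : (EQb W).Point) (P' Q' : (EQb W').Point)
    (hP : (5 : ℕ) • P = 0) (hQ : (5 : ℕ) • Q = 0) (hP' : (5 : ℕ) • P' = 0)
    (hQ' : (5 : ℕ) • Q' = 0)
    (hP0 : P ≠ 0) (hQP : Q ∉ AddSubgroup.zmultiples P)
    (hP0' : P' ≠ 0) (hQP' : Q' ∉ AddSubgroup.zmultiples P')
    (hgal : ∀ σ : GQ, ∃ a b c d : ℤ, σ • P = a • P + c • Q ∧ σ • Q = b • P + d • Q ∧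
      σ • P' = a • P' + c • Q' ∧ σ • Q' = b • P' + d • Q') :
    FiveCong W W' :=
  fiveCong_of_bases hΔ hΔ' P Q P' Q' hP hQ hP' hQ'
    (by exact_mod_cast indep_of_not_mem_zmultiples 5 P Q hP hQ hP0 hQP)
    (by exact_mod_cast indep_of_not_mem_zmultiples 5 P' Q' hP' hQ' hP0' hQP') hgal

end Fermat.Agent.G35.FiveCongBases
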