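/-
GATE-Q / S52, node Q4(D) transport (helper56): `fiveCongTN_of_basis` transported along helper63's
`ShortIso.curveIso`: the two bases live on PLAIN curves `E`, `E'` over `ℚ̄` (Klein's curves at
`w₀`, `ι v`) which are equal to the short models of `W`, `W'`, and the Galois matrices are computed
with the COORDINATEWISE Galois action `ShortIso.conjPoint` on `E(ℚ̄)`, `E'(ℚ̄)`.
NEW file; imports `G35/ShortIso` + `G35/FiveCongOfBasis` only.
-/
import Fermat.Agent.G35.ShortIso
import Fermat.Agent.G35.FiveCongOfBasis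

set_option autoImplicit false

open scoped WeierstrassCurve.Affine

namespace Fermat.Agent.G35.FiveCongTransport

open WeierstrassCurve Fermat.Agent.G35.ShortIso Fermat.Agent.G35.FiveCongOfBasis

local notation "Qb" => AlgebraicClosure ℚ
local notation "GQ" => (AlgebraicClosure ℚ ≃ₐ[ℚ] AlgebraicClosure ℚ)

/-- **Q4(D), transported**: `E = shortQb W`, `E' = shortQb W'` plain curves over `ℚ̄`;
bases `(P, Q)` of `E[5]`, `(P', Q')` of `E'[5]` (independence only) on which the coordinatewise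
Galois action `conjPoint` has the same matrices ⟹ `TopTN.FiveCongTN W W'`. -/
theorem fiveCongTN_of_basis_curveIso {W W' : WeierstrassCurve ℤ} (hΔ : W.Δ ≠ 0)
    {E E' : WeierstrassCurve Qb} (hE : E = shortQb W) (hE' : E' = shortQb W')
    (P Q : E.toAffine.Point) (P' Q' : E'.toAffine.Point)
    (hP : (5 : ℕ) • P = 0) (hQ : (5 : ℕ) • Q = 0)
    (hP' : (5 : ℕ) • P' = 0) (hQ' : (5 : ℕ) • Q' = 0)
    (hind : ∀ a b : ℤ, a • P + b • Q = 0 → (5 : ℤ) ∣ a ∧ (5 : ℤ) ∣ b)
    (hind' : ∀ a b : ℤ, a • P' + b • Q' = 0 → (5 : ℤ) ∣ a ∧ (5 : ℤ) ∣ b)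
    (hgal : ∀ σ : GQ, ∃ a b c d : ℤ,
      conjPoint hE σ P = a • P + c • Q ∧ conjPoint hE σ Q = b • P + d • Q ∧
      conjPoint hE' σ P' = a • P' + c • Q' ∧ conjPoint hE' σ Q' = b • P' + d • Q') :
    Fermat.Agent.G35.TopTN.FiveCongTN W W' := by
  refine fiveCongTN_of_basis hΔ (curveIso hE P) (curveIso hE Q) (curveIso hE' P')
    (curveIso hE' Q') ?_ ?_ ?_ ?_ ?_ ?_ ?_
  · rw [← map_nsmul, hP, map_zero]
  · rw [← map_nsmul, hQ, map_zero]
  · rw [← map_nsmul, hP', map_zero]
  · rw [← map_nsmul, hQ', map_zero]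
  · intro a b h
    apply hind a b
    apply (curveIso hE).injective
    rw [map_add, map_zsmul, map_zsmul, h, map_zero]
  · intro a b h
    apply hind' a b
    apply (curveIso hE').injective
    rw [map_add, map_zsmul, map_zsmul, h, map_zero]
  · intro σ
    obtain ⟨a, b, c, d, h1, h2, h3, h4⟩ := hgal σ
    refine ⟨a, b, c, d, ?_, ?_, ?_, ?_⟩
    · rw [← curveIso_conjPoint, h1, map_add, map_zsmul, map_zsmul]
    · rw [← curveIso_conjPoint, h2, map_add, map_zsmul, map_zsmul]
    · rw [← curveIso_conjPoint, h3, map_add, map_zsmul, map_zsmul]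
    · rw [← curveIso_conjPoint, h4, map_add, map_zsmul, map_zsmul]

end Fermat.Agent.G35.FiveCongTransport
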