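/-
GATE-Q / S52 (3–5 switch), node Q4(E) `S52-Q4E-GALMATRIX` (helper13).

ABSTRACT, Mathlib-only: the step of Q4 that PRODUCES the "same Galois matrices" hypothesis consumed
by Q4(D) (`fiveCongT_of_basis`-type lemmas).

Dictionary (nothing of it is needed to compile this file):
* `V`      : the cone `Fin 2 → ℚ̄`;
* `Γ`      : `GL (Fin 2) ℚ̄` (or any group), acting on `V` through `act` (`M ↦ (M *ᵥ ·)`);
* `Gen`    : Klein's generators `{S, T̃, Z}`;
* `I`      : the index set of the rational fibres `(c, t)`; `X i ⊆ V` the fibre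
             `{w | c4 w = c ∧ T w = t}`; `E i` the group of `ℚ̄`-points of the FIXED curve
             `y² = x³ - 27 c x + 54 t` (so no casts between `kleinCurve (g w)` and `kleinCurve w`);
* `P i w`  : the `5`-torsion section `P0` at `w`, as a TOTAL function (junk off `X i`);
* `s`      : Klein's `S`, and `Q i w := P i (act s w)` is the second basis vector `Q0`;
* `σV`, `σE i` : the action of ONE `σ ∈ G_ℚ` on `V` (entrywise) and on `E i`;
* `k`      : `σ ζ = ζ ^ k`, so that `σ • P0(ζ; w) = P0(ζ^k; σ w) = k • P0(ζ; σ w)` (helper21 `P0_pow`);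
* `s'`     : `σ(S)` (the matrix `S` with `σ` applied entrywise), an element of `closure Gen`;
* `A`      : the cocycle value `A σ`, `σ w = A σ • w` (helper60 `Cocycle`).

Results:
* `Lin`                 : `(P, Q) ∘ g = (P, Q) · [[a, b], [c, d]]` uniformly on all fibres;
* `Lin.mul`, `Lin.one`, `Lin.pow`, `exists_lin_inv_of_pow_eq_one`;
* `exists_lin_of_mem_closure` : generator identities ⟹ identities for every `M ∈ closure Gen`
  (uniform in the fibre);
* `exists_galois_matrix` : for `σ` with `σ w = A w`, the matrix of `σ` on `(P i w, Q i w)` is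
  an integer matrix depending on `(σ, A)` only;
* `exists_common_galois_matrix` : the `hgal` shape for two points in two fibres.
-/
import Mathlib

set_option autoImplicit false

namespace Fermat.Agent.G35.GalMatrix

section Lin

variable {V : Type*} {Γ : Type*} [Group Γ] {I : Type*} {E : I → Type*} [∀ i, AddCommGroup (E i)]
variable (act : Γ → V → V) (X : I → Set V) (P : ∀ i, V → E i) (s : Γ)

/-- Uniformly on all fibres `X i`: `P ∘ g = a • P + c • Q` and `Q ∘ g = b • P + d • Q`, where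
`Q := P ∘ s`. -/
def Lin (g : Γ) (a b c d : ℤ) : Prop :=
  ∀ i, ∀ w ∈ X i,
    P i (act g w) = a • P i w + c • P i (act s w) ∧
    P i (act s (act g w)) = b • P i w + d • P i (act s w)

/-- `g` and `g⁻¹` preserve every fibre. -/
def Stab (g : Γ) : Prop :=
  ∀ i, ∀ w ∈ X i, act g w ∈ X i ∧ act g⁻¹ w ∈ X i

variable {act X P s}

theorem Stab.inv {g : Γ} (h : Stab act X g) : Stab act X g⁻¹ := by
  intro i w hw
  have := h i w hw
  rw [inv_inv]
  exact ⟨this.2, this.1⟩

theorem Stab.one (hone : ∀ w, act 1 w = w) : Stab act X (1 : Γ) := by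
  intro i w hw
  rw [inv_one, hone]
  exact ⟨hw, hw⟩

theorem Stab.mul (hmul : ∀ g h w, act (g * h) w = act g (act h w)) {g h : Γ}
    (hg : Stab act X g) (hh : Stab act X h) : Stab act X (g * h) := by
  intro i w hw
  rw [mul_inv_rev, hmul, hmul]
  exact ⟨(hg i _ (hh i w hw).1).1, (hh i _ (hg i w hw).2).2⟩

theorem Lin.one (hone : ∀ w, act 1 w = w) : Lin act X P s (1 : Γ) 1 0 0 1 := by
  intro i w _
  rw [hone]
  simp

theorem Lin.mul (hmul : ∀ g h w, act (g * h) w = act g (act h w)) {g h : Γ}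
    {a b c d a' b' c' d' : ℤ} (hh_stab : Stab act X h)
    (hg : Lin act X P s g a b c d) (hh : Lin act X P s h a' b' c' d') :
    Lin act X P s (g * h) (a * a' + c * b') (b * a' + d * b') (a * c' + c * d')
      (b * c' + d * d') := by
  intro i w hw
  have hw' : act h w ∈ X i := (hh_stab i w hw).1
  obtain ⟨h1, h2⟩ := hg i _ hw'
  obtain ⟨k1, k2⟩ := hh i w hw
  rw [hmul, h1, h2, k1, k2]
  constructor
  · simp only [smul_add, smul_smul, add_smul]
    abel
  · simp only [smul_add, smul_smul, add_smul]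
    abel

/-- existential form of `Lin` -/
def HasLin (act : Γ → V → V) (X : I → Set V) (P : ∀ i, V → E i) (s : Γ) (g : Γ) : Prop :=
  ∃ a b c d : ℤ, Lin act X P s g a b c d

theorem HasLin.one (hone : ∀ w, act 1 w = w) : HasLin act X P s (1 : Γ) :=
  ⟨1, 0, 0, 1, Lin.one hone⟩

theorem HasLin.mul (hmul : ∀ g h w, act (g * h) w = act g (act h w)) {g h : Γ}
    (hh_stab : Stab act X h) (hg : HasLin act X P s g) (hh : HasLin act X P s h) :
    HasLin act X P s (g * h) := by
  obtain ⟨a, b, c, d, hg⟩ := hg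
  obtain ⟨a', b', c', d', hh⟩ := hh
  exact ⟨_, _, _, _, Lin.mul hmul hh_stab hg hh⟩

theorem Stab.pow (hone : ∀ w, act 1 w = w)
    (hmul : ∀ g h w, act (g * h) w = act g (act h w)) {g : Γ} (hg : Stab act X g) (n : ℕ) :
    Stab act X (g ^ n) := by
  induction n with
  | zero => rw [pow_zero]; exact Stab.one hone
  | succ n ih => rw [pow_succ]; exact Stab.mul hmul ih hg

theorem HasLin.pow (hone : ∀ w, act 1 w = w)
    (hmul : ∀ g h w, act (g * h) w = act g (act h w)) {g : Γ} (hs : Stab act X g)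
    (hg : HasLin act X P s g) (n : ℕ) : HasLin act X P s (g ^ n) := by
  induction n with
  | zero => rw [pow_zero]; exact HasLin.one hone
  | succ n ih => rw [pow_succ]; exact HasLin.mul hmul hs ih hg

/-- for an element of finite order the identities for the inverse are automatic -/
theorem exists_lin_inv_of_pow_eq_one (hone : ∀ w, act 1 w = w)
    (hmul : ∀ g h w, act (g * h) w = act g (act h w)) {g : Γ} (hs : Stab act X g)
    (hg : HasLin act X P s g) {n : ℕ} (hn : g ^ (n + 1) = 1) : HasLin act X P s g⁻¹ := by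
  have : g⁻¹ = g ^ n := by
    rw [inv_eq_iff_mul_eq_one, ← pow_succ', hn]
  rw [this]
  exact HasLin.pow hone hmul hs hg n

/-- **Generator induction.** If every generator `g ∈ Gen` (and its inverse) preserves the fibres
and satisfies a linear identity `(P, Q) ∘ g = (P, Q) · m_g` uniformly on all fibres, then so does
every element of the subgroup generated by `Gen`. -/
theorem exists_lin_of_mem_closure (hone : ∀ w, act 1 w = w)
    (hmul : ∀ g h w, act (g * h) w = act g (act h w)) (Gen : Set Γ)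
    (hstab : ∀ g ∈ Gen, Stab act X g)
    (hgen : ∀ g ∈ Gen, HasLin act X P s g) (hgeninv : ∀ g ∈ Gen, HasLin act X P s g⁻¹)
    {M : Γ} (hM : M ∈ Subgroup.closure Gen) :
    Stab act X M ∧ HasLin act X P s M ∧ HasLin act X P s M⁻¹ := by
  induction hM using Subgroup.closure_induction with
  | mem g hg => exact ⟨hstab g hg, hgen g hg, hgeninv g hg⟩
  | one => exact ⟨Stab.one hone, HasLin.one hone, by rw [inv_one]; exact HasLin.one hone⟩
  | mul x y _ _ hx hy =>
      refine ⟨Stab.mul hmul hx.1 hy.1, HasLin.mul hmul hy.1 hx.2.1 hy.2.1, ?_⟩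
      rw [mul_inv_rev]
      exact HasLin.mul hmul hx.1.inv hy.2.2 hx.2.2
  | inv x _ hx =>
      refine ⟨hx.1.inv, hx.2.2, ?_⟩
      rw [inv_inv]
      exact hx.2.1

/-- variant for generators of finite order: no hypothesis on the inverses -/
theorem exists_lin_of_mem_closure_of_finite_order (hone : ∀ w, act 1 w = w)
    (hmul : ∀ g h w, act (g * h) w = act g (act h w)) (Gen : Set Γ)
    (hstab : ∀ g ∈ Gen, Stab act X g)
    (hgen : ∀ g ∈ Gen, HasLin act X P s g) (hfin : ∀ g ∈ Gen, ∃ n : ℕ, g ^ (n + 1) = 1)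
    {M : Γ} (hM : M ∈ Subgroup.closure Gen) :
    Stab act X M ∧ HasLin act X P s M ∧ HasLin act X P s M⁻¹ := by
  refine exists_lin_of_mem_closure hone hmul Gen hstab hgen ?_ hM
  intro g hg
  obtain ⟨n, hn⟩ := hfin g hg
  exact exists_lin_inv_of_pow_eq_one hone hmul (hstab g hg) (hgen g hg) hn

end Lin

section Galois

variable {V : Type*} {Γ : Type*} [Group Γ] {I : Type*} {E : I → Type*} [∀ i, AddCommGroup (E i)]
variable {act : Γ → V → V} {X : I → Set V} {P : ∀ i, V → E i} {s : Γ}

/-- **The Galois matrix depends on `(σ, A σ)` only.**  `σV`, `σE i` are the actions of one Galois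
element `σ` on the cone and on the points of the (rational) curves; `k` is the exponent with
`σ ζ = ζ ^ k`; `s'` is `σ(S)`; `A` is the cocycle value. -/
theorem exists_galois_matrix (hmul : ∀ g h w, act (g * h) w = act g (act h w))
    (σV : V → V) (σE : ∀ i, E i → E i) (k : ℤ)
    (hσP : ∀ i, ∀ w ∈ X i, σE i (P i w) = k • P i (σV w))
    (s' : Γ) (hs' : ∀ w, σV (act s w) = act s' (σV w))
    (hs_stab : Stab act X s)
    (A : Γ) (hA : HasLin act X P s A) (hsA : HasLin act X P s (s' * A)) :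
    ∃ a b c d : ℤ, ∀ i, ∀ w ∈ X i, σV w = act A w →
      σE i (P i w) = a • P i w + c • P i (act s w) ∧
      σE i (P i (act s w)) = b • P i w + d • P i (act s w) := by
  obtain ⟨a, b, c, d, hA⟩ := hA
  obtain ⟨a', b', c', d', hsA⟩ := hsA
  refine ⟨k * a, k * a', k * c, k * c', ?_⟩
  intro i w hw hσw
  constructor
  · rw [hσP i w hw, hσw, (hA i w hw).1, smul_add, smul_smul, smul_smul]
  · rw [hσP i _ (hs_stab i w hw).1, hs', hσw, ← hmul, (hsA i w hw).1, smul_add, smul_smul,
      smul_smul]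

/-- **`hgal` for two points in two fibres**: if `σ w₀ = A w₀` and `σ w₁ = A w₁` with the SAME
`A ∈ closure Gen`, then `σ` acts on `(P i₀ w₀, Q i₀ w₀)` and on `(P i₁ w₁, Q i₁ w₁)` through the
same integer matrix. -/
theorem exists_common_galois_matrix (hone : ∀ w, act 1 w = w)
    (hmul : ∀ g h w, act (g * h) w = act g (act h w)) (Gen : Set Γ)
    (hstab : ∀ g ∈ Gen, Stab act X g)
    (hgen : ∀ g ∈ Gen, HasLin act X P s g) (hgeninv : ∀ g ∈ Gen, HasLin act X P s g⁻¹)
    (hs : s ∈ Subgroup.closure Gen)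
    (σV : V → V) (σE : ∀ i, E i → E i) (k : ℤ)
    (hσP : ∀ i, ∀ w ∈ X i, σE i (P i w) = k • P i (σV w))
    (s' : Γ) (hs'mem : s' ∈ Subgroup.closure Gen) (hs' : ∀ w, σV (act s w) = act s' (σV w))
    (A : Γ) (hAmem : A ∈ Subgroup.closure Gen)
    {i₀ i₁ : I} {w₀ w₁ : V} (hw₀ : w₀ ∈ X i₀) (hw₁ : w₁ ∈ X i₁)
    (hσ₀ : σV w₀ = act A w₀) (hσ₁ : σV w₁ = act A w₁) :
    ∃ a b c d : ℤ,
      σE i₀ (P i₀ w₀) = a • P i₀ w₀ + c • P i₀ (act s w₀) ∧
      σE i₀ (P i₀ (act s w₀)) = b • P i₀ w₀ + d • P i₀ (act s w₀) ∧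
      σE i₁ (P i₁ w₁) = a • P i₁ w₁ + c • P i₁ (act s w₁) ∧
      σE i₁ (P i₁ (act s w₁)) = b • P i₁ w₁ + d • P i₁ (act s w₁) := by
  have hS := exists_lin_of_mem_closure (P := P) (s := s) hone hmul Gen hstab hgen hgeninv hs
  have hA := exists_lin_of_mem_closure (P := P) (s := s) hone hmul Gen hstab hgen hgeninv hAmem
  have hsA := exists_lin_of_mem_closure (P := P) (s := s) hone hmul Gen hstab hgen hgeninv
    (Subgroup.mul_mem _ hs'mem hAmem)
  obtain ⟨a, b, c, d, h⟩ :=
    exists_galois_matrix hmul σV σE k hσP s' hs' hS.1 A hA.2.1 hsA.2.1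
  exact ⟨a, b, c, d, (h i₀ w₀ hw₀ hσ₀).1, (h i₀ w₀ hw₀ hσ₀).2, (h i₁ w₁ hw₁ hσ₁).1,
    (h i₁ w₁ hw₁ hσ₁).2⟩

end Galois

end Fermat.Agent.G35.GalMatrix
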