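/-
GATE-Q / S52, leaf Q4(C) "ShortIso", BASE-CHANGE SHAPE (helper63) — companion of G35/ShortIso.lean
in the curve type pinned by helper23's LEAD DECISIONS v1 (D4):

  `E c d := (Integral.shortModel (c : ℚ) (d : ℚ))⁄ℚ̄`    (prelude `G_ℚ`-action on `(W'⁄K).Point`).

For `W : WeierstrassCurve ℤ` with `(c₄ W : ℚ) = c`, `(c₆ W : ℚ) = d`:

  `bcIso hc hd : ((shortModel c d)⁄ℚ̄).Point ≃+ ((W.map (Int.castRingHom ℚ))⁄ℚ̄).Point`,
  `bcIso_smul : bcIso hc hd (σ • P) = σ • bcIso hc hd P`        (both actions = prelude instance),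

so `bcIso` restricts to a `G_ℚ`-equivariant iso of the `n`-torsion (`bcIso_tors`), target
`GE.ECAssembly.TN W n` (abbrev-defeq).  Generic form: `bcIsoOfEq` for any `C • W₀ = E₀` over `ℚ`.
-/
import Fermat.Agent.S05.VarChange
import Fermat.Agent.G35.Integral

set_option autoImplicit false

open scoped WeierstrassCurve.Affine

namespace Fermat.Agent.G35.ShortIsoBC

open WeierstrassCurve Fermat.Agent.G35.Integral Fermat.Agent.S05

local notation "Qb" => AlgebraicClosure ℚ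
local notation "GQ" => (AlgebraicClosure ℚ ≃ₐ[ℚ] AlgebraicClosure ℚ)

/-- generic: a change of variables over `ℚ` with `C • W₀ = E₀` gives a `G_ℚ`-equivariant additive
isomorphism `E₀(ℚ̄) ≃+ W₀(ℚ̄)`. -/
noncomputable def bcIsoOfEq {W₀ E₀ : WeierstrassCurve ℚ} (C : VariableChange ℚ)
    (h : C • W₀ = E₀) : (E₀⁄Qb).Point ≃+ (W₀⁄Qb).Point :=
  h ▸ vcBaseChangeEquiv (K := Qb) W₀ C

theorem bcIsoOfEq_smul {W₀ E₀ : WeierstrassCurve ℚ} (C : VariableChange ℚ)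
    (h : C • W₀ = E₀) (σ : GQ) (P : (E₀⁄Qb).Point) :
    bcIsoOfEq C h (σ • P) = σ • bcIsoOfEq C h P := by
  subst h
  exact vcBaseChangeEquiv_smul (K := Qb) (S := ℚ) W₀ C σ P

theorem bcIsoOfEq_symm_smul {W₀ E₀ : WeierstrassCurve ℚ} (C : VariableChange ℚ)
    (h : C • W₀ = E₀) (σ : GQ) (Q : (W₀⁄Qb).Point) :
    (bcIsoOfEq C h).symm (σ • Q) = σ • (bcIsoOfEq C h).symm Q := by
  apply (bcIsoOfEq C h).injective
  rw [bcIsoOfEq_smul, AddEquiv.apply_symm_apply, AddEquiv.apply_symm_apply]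

/-- `W` over `ℚ` -/
abbrev WQ (W : WeierstrassCurve ℤ) : WeierstrassCurve ℚ := W.map (Int.castRingHom ℚ)

variable {W : WeierstrassCurve ℤ} {c d : ℚ}

theorem toShort_smul_eq (hc : ((W.c₄ : ℤ) : ℚ) = c) (hd : ((W.c₆ : ℤ) : ℚ) = d) :
    toShort (WQ W) • WQ W = shortModel c d := by
  rw [toShort_smul, map_c₄, map_c₆, ← hc, ← hd]
  simp

/-- **the `G_ℚ`-equivariant isomorphism `E c d (ℚ̄) ≃+ W(ℚ̄)`**, `E c d = (shortModel c d)⁄ℚ̄`,
for `c = c₄(W)`, `d = c₆(W)`. -/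
noncomputable def bcIso (hc : ((W.c₄ : ℤ) : ℚ) = c) (hd : ((W.c₆ : ℤ) : ℚ) = d) :
    ((shortModel c d)⁄Qb).Point ≃+ ((WQ W)⁄Qb).Point :=
  bcIsoOfEq (toShort (WQ W)) (toShort_smul_eq hc hd)

theorem bcIso_smul (hc : ((W.c₄ : ℤ) : ℚ) = c) (hd : ((W.c₆ : ℤ) : ℚ) = d) (σ : GQ)
    (P : ((shortModel c d)⁄Qb).Point) :
    bcIso hc hd (σ • P) = σ • bcIso hc hd P :=
  bcIsoOfEq_smul _ _ σ P

theorem bcIso_symm_smul (hc : ((W.c₄ : ℤ) : ℚ) = c) (hd : ((W.c₆ : ℤ) : ℚ) = d) (σ : GQ)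
    (Q : ((WQ W)⁄Qb).Point) :
    (bcIso hc hd).symm (σ • Q) = σ • (bcIso hc hd).symm Q :=
  bcIsoOfEq_symm_smul _ _ σ Q

theorem nsmul_bcIso_eq_zero_iff (hc : ((W.c₄ : ℤ) : ℚ) = c) (hd : ((W.c₆ : ℤ) : ℚ) = d)
    (n : ℕ) (P : ((shortModel c d)⁄Qb).Point) :
    n • bcIso hc hd P = 0 ↔ n • P = 0 := by
  rw [← map_nsmul, AddEquivClass.map_eq_zero_iff]

/-- `bcIso` on the `n`-torsion submodules (prelude shape `Submodule.torsionBy ℤ _ n`), with its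
equivariance for the prelude action on torsion. -/
noncomputable def bcIsoTors (hc : ((W.c₄ : ℤ) : ℚ) = c) (hd : ((W.c₆ : ℤ) : ℚ) = d) (n : ℕ) :
    Submodule.torsionBy ℤ ((shortModel c d)⁄Qb).Point (n : ℤ) ≃+
      Submodule.torsionBy ℤ ((WQ W)⁄Qb).Point (n : ℤ) where
  toFun P := ⟨bcIso hc hd P.1, by
    have h := P.2
    rw [Submodule.mem_torsionBy_iff] at h ⊢
    rw [← map_zsmul, h, map_zero]⟩
  invFun Q := ⟨(bcIso hc hd).symm Q.1, by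
    have h := Q.2
    rw [Submodule.mem_torsionBy_iff] at h ⊢
    rw [← map_zsmul, h, map_zero]⟩
  left_inv P := Subtype.ext ((bcIso hc hd).symm_apply_apply P.1)
  right_inv Q := Subtype.ext ((bcIso hc hd).apply_symm_apply Q.1)
  map_add' P Q := Subtype.ext (map_add (bcIso hc hd) P.1 Q.1)

@[simp] theorem coe_bcIsoTors (hc : ((W.c₄ : ℤ) : ℚ) = c) (hd : ((W.c₆ : ℤ) : ℚ) = d) (n : ℕ)
    (P : Submodule.torsionBy ℤ ((shortModel c d)⁄Qb).Point (n : ℤ)) :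
    ((bcIsoTors hc hd n P : Submodule.torsionBy ℤ ((WQ W)⁄Qb).Point (n : ℤ)) :
      ((WQ W)⁄Qb).Point) = bcIso hc hd P.1 := rfl

theorem bcIsoTors_smul (hc : ((W.c₄ : ℤ) : ℚ) = c) (hd : ((W.c₆ : ℤ) : ℚ) = d) (n : ℕ) (σ : GQ)
    (P : Submodule.torsionBy ℤ ((shortModel c d)⁄Qb).Point (n : ℤ)) :
    bcIsoTors hc hd n (σ • P) = σ • bcIsoTors hc hd n P := by
  apply Subtype.ext
  exact bcIso_smul hc hd σ P.1

end Fermat.Agent.G35.ShortIsoBC
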