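/-
GATE-Q / S52, Q4(C) consumer lemma (helper63): an equivariant isomorphism between the `n`-torsion of
the two short models `E c d`, `E c' d'` (pinned type `(shortModel c d)⁄ℚ̄`) transports, through
`ShortIsoBC.bcIsoTors` on both sides, to an injective equivariant homomorphism
`W(ℚ̄)[n] →+ W'(ℚ̄)[n]` — for `n = 5` this is VERBATIM the body of `G35.TopTN.FiveCongTN W W'`
(`TN W 5 = Submodule.torsionBy ℤ ((W.map (Int.castRingHom ℚ))⁄ℚ̄).Point ((5 : ℕ) : ℤ)`; no GE import
needed here, the consumer closes with `exact`).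
-/
import Fermat.Agent.G35.ShortIsoBC

set_option autoImplicit false

open scoped WeierstrassCurve.Affine

namespace Fermat.Agent.G35.ShortIsoCong

open WeierstrassCurve Fermat.Agent.G35.Integral Fermat.Agent.G35.ShortIsoBC

local notation "Qb" => AlgebraicClosure ℚ
local notation "GQ" => (AlgebraicClosure ℚ ≃ₐ[ℚ] AlgebraicClosure ℚ)

variable {W W' : WeierstrassCurve ℤ} {c d c' d' : ℚ}

/-- equivariant iso (or just injective hom) on the torsion of the short models ⟹ injective
equivariant hom on the torsion of the integral models. -/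
theorem exists_injective_equivariant_of_short (n : ℕ)
    (hc : ((W.c₄ : ℤ) : ℚ) = c) (hd : ((W.c₆ : ℤ) : ℚ) = d)
    (hc' : ((W'.c₄ : ℤ) : ℚ) = c') (hd' : ((W'.c₆ : ℤ) : ℚ) = d')
    (ψ : Submodule.torsionBy ℤ ((shortModel c d)⁄Qb).Point (n : ℤ) →+
      Submodule.torsionBy ℤ ((shortModel c' d')⁄Qb).Point (n : ℤ))
    (hinj : Function.Injective ψ) (hψ : ∀ (σ : GQ) P, ψ (σ • P) = σ • ψ P) :
    ∃ φ : Submodule.torsionBy ℤ ((W.map (Int.castRingHom ℚ))⁄Qb).Point (n : ℤ) →+
        Submodule.torsionBy ℤ ((W'.map (Int.castRingHom ℚ))⁄Qb).Point (n : ℤ),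
      Function.Injective φ ∧ ∀ (σ : GQ) P, φ (σ • P) = σ • φ P := by
  refine ⟨((bcIsoTors hc' hd' n).toAddMonoidHom.comp ψ).comp
    (bcIsoTors hc hd n).symm.toAddMonoidHom, ?_, ?_⟩
  · intro P Q h
    have h1 := (bcIsoTors hc' hd' n).injective h
    exact (bcIsoTors hc hd n).symm.injective (hinj h1)
  · intro σ P
    show bcIsoTors hc' hd' n (ψ ((bcIsoTors hc hd n).symm (σ • P))) =
      σ • bcIsoTors hc' hd' n (ψ ((bcIsoTors hc hd n).symm P))
    have hs : (bcIsoTors hc hd n).symm (σ • P) = σ • (bcIsoTors hc hd n).symm P := by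
      apply (bcIsoTors hc hd n).injective
      rw [bcIsoTors_smul, AddEquiv.apply_symm_apply, AddEquiv.apply_symm_apply]
    rw [hs, hψ, bcIsoTors_smul]

end Fermat.Agent.G35.ShortIsoCong
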