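/-
GATE-Q / S52, node Q4 FINAL (helper23): **T1, the Q4 output contract, UNCONDITIONAL.**

`Descent.t1_of_points` instantiated with helper3's total point maps `PointsTot.Ppt / Qpt` on
`PointsTot.Ecurve c t` (point-level Klein symmetry, `5`-torsion, independence) and helper16's
coordinatewise Galois action `GalPointsTot.conjPoint_Ppt / conjPoint_Qpt`.

For every integral semistable `W` with `Δ ≠ 0` there are a primitive 5th root of unity `ζ`, a point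
`w0` of the Klein fibre over `(c₄(W), -c₆(W))` and a `ℚ`-linear `ι : ℚ² → ℚ̄²` with `ι (1,0) = w0`
such that: (fam) along every rational line through `(1,0)` the Klein forms are coprime rational
polynomials through `(c₄(W), c₆(W))`; (I2) `ρ w0 = w0 ⟹ ρ ∘ ι = ι`; (I3) `ρ` fixing `ζ` and `W[5]`
moves `w0` by a power of `ζ`; (I4) the fixer of `ζ, w0` fixes all conjugates of `w0`; (cong) every
integral `W'` with `Δ ≠ 0` whose `(c₄, c₆)` are the Klein forms at a rational point `ι v` is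
`5`-congruent to `W`.
-/
import Fermat.Agent.G35.Descent
import Fermat.Agent.G35.Sym.GalPointsTot

set_option autoImplicit false
set_option linter.unusedVariables false

open scoped WeierstrassCurve.Affine

namespace Fermat.Agent.G35.T1

open Matrix Polynomial
open Fermat.Agent.G35.Free Fermat.Agent.G35.Cocycle Fermat.Agent.G35.KleinTrans
open Fermat.Agent.G35.PointsTot Fermat.Agent.G35.Sym.GalPointsTot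
open Fermat.Agent.GE.ECAssembly

local notation "Qb" => AlgebraicClosure ℚ
local notation "GQ" => (AlgebraicClosure ℚ ≃ₐ[ℚ] AlgebraicClosure ℚ)

/-- a primitive 5th root of unity in `ℚ̄` -/
theorem exists_zeta : ∃ ζ : Qb, ζ ^ 4 + ζ ^ 3 + ζ ^ 2 + ζ + 1 = 0 := by
  have hdeg : (X ^ 4 + X ^ 3 + X ^ 2 + X + 1 : Qb[X]).degree ≠ 0 := by
    have : (X ^ 4 + X ^ 3 + X ^ 2 + X + 1 : Qb[X]).degree = 4 := by
      compute_degree!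
    rw [this]; norm_num
  obtain ⟨ζ, hζ⟩ := IsAlgClosed.exists_root _ hdeg
  refine ⟨ζ, ?_⟩
  simpa using hζ

/-- **T1 for a given `ζ`.** -/
theorem t1 {ζ : Qb} (hζ : ζ ^ 4 + ζ ^ 3 + ζ ^ 2 + ζ + 1 = 0)
    (W : WeierstrassCurve ℤ) (hΔ : W.Δ ≠ 0) (hW : W.IsSemistableModel) :
    ∃ (w0 : Fin 2 → Qb) (ι : (Fin 2 → ℚ) →ₗ[ℚ] (Fin 2 → Qb)),
      c4 (w0 0) (w0 1) = ((W.c₄ : ℤ) : Qb) ∧ T6 (w0 0) (w0 1) = -((W.c₆ : ℤ) : Qb) ∧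
      ι ![1, 0] = w0 ∧ LinearIndependent Qb ![ι ![1, 0], ι ![0, 1]] ∧
      (∀ d : Fin 2 → ℚ, d 1 ≠ 0 → ∃ f4 f6 : ℚ[X],
        (∀ t : ℚ, c4 (ι (![1, 0] + t • d) 0) (ι (![1, 0] + t • d) 1) = ((f4.eval t : ℚ) : Qb) ∧
          T6 (ι (![1, 0] + t • d) 0) (ι (![1, 0] + t • d) 1) = -((f6.eval t : ℚ) : Qb)) ∧
        f4.eval 0 = ((W.c₄ : ℤ) : ℚ) ∧ f6.eval 0 = ((W.c₆ : ℤ) : ℚ) ∧ IsCoprime f4 f6) ∧
      (∀ ρ : GQ, (∀ i, ρ (w0 i) = w0 i) → ∀ v i, ρ (ι v i) = ι v i) ∧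
      (∀ ρ : GQ, ρ ζ = ζ → (∀ P : TN W 5, ρ • P = P) →
        ∃ k : ℕ, ∀ i, ρ (w0 i) = ζ ^ k * w0 i) ∧
      (∀ ρ σ : GQ, ρ ζ = ζ → (∀ i, ρ (w0 i) = w0 i) → ∀ i, ρ (σ (w0 i)) = σ (w0 i)) ∧
      (∀ v : Fin 2 → ℚ, ∀ W' : WeierstrassCurve ℤ, W'.Δ ≠ 0 →
        ((W'.c₄ : ℤ) : Qb) = c4 (ι v 0) (ι v 1) → ((W'.c₆ : ℤ) : Qb) = -T6 (ι v 0) (ι v 1) →
        Fermat.Agent.G35.TopTN.FiveCongTN W W') :=
  Fermat.Agent.G35.Descent.t1_of_points hζ (fun c t => Ecurve c t)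
    (fun c t => Ppt hζ c t) (fun c t => Qpt hζ c t)
    (fun c t _ x _ => ⟨Ppt_S hζ c t x, Qpt_S hζ c t x⟩)
    (fun c t _ x _ => ⟨Ppt_T hζ c t x, Qpt_T hζ c t x⟩)
    (fun c t _ x _ => ⟨Ppt_Z hζ c t x, Qpt_Z hζ c t x⟩)
    (fun c t _ x _ => ⟨five_nsmul_Ppt hζ c t x, five_nsmul_Qpt hζ c t x⟩)
    (fun c t hct x hx a b hab => indep_Ppt_Qpt hζ hx (Ecurve_Δ_ne_zero hct) hab)
    (fun W => ecurve_eq_shortQb W)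
    (fun W _ σ k hσ x _ => conjPoint_Ppt hζ σ k hσ x)
    (fun W _ σ x _ => conjPoint_Qpt hζ σ x)
    W hΔ hW

/-- **T1 (Q4 output contract).** -/
theorem exists_family (W : WeierstrassCurve ℤ) (hΔ : W.Δ ≠ 0) (hW : W.IsSemistableModel) :
    ∃ (ζ : Qb) (w0 : Fin 2 → Qb) (ι : (Fin 2 → ℚ) →ₗ[ℚ] (Fin 2 → Qb)),
      ζ ^ 4 + ζ ^ 3 + ζ ^ 2 + ζ + 1 = 0 ∧
      c4 (w0 0) (w0 1) = ((W.c₄ : ℤ) : Qb) ∧ T6 (w0 0) (w0 1) = -((W.c₆ : ℤ) : Qb) ∧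
      ι ![1, 0] = w0 ∧ LinearIndependent Qb ![ι ![1, 0], ι ![0, 1]] ∧
      (∀ d : Fin 2 → ℚ, d 1 ≠ 0 → ∃ f4 f6 : ℚ[X],
        (∀ t : ℚ, c4 (ι (![1, 0] + t • d) 0) (ι (![1, 0] + t • d) 1) = ((f4.eval t : ℚ) : Qb) ∧
          T6 (ι (![1, 0] + t • d) 0) (ι (![1, 0] + t • d) 1) = -((f6.eval t : ℚ) : Qb)) ∧
        f4.eval 0 = ((W.c₄ : ℤ) : ℚ) ∧ f6.eval 0 = ((W.c₆ : ℤ) : ℚ) ∧ IsCoprime f4 f6) ∧
      (∀ ρ : GQ, (∀ i, ρ (w0 i) = w0 i) → ∀ v i, ρ (ι v i) = ι v i) ∧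
      (∀ ρ : GQ, ρ ζ = ζ → (∀ P : TN W 5, ρ • P = P) →
        ∃ k : ℕ, ∀ i, ρ (w0 i) = ζ ^ k * w0 i) ∧
      (∀ ρ σ : GQ, ρ ζ = ζ → (∀ i, ρ (w0 i) = w0 i) → ∀ i, ρ (σ (w0 i)) = σ (w0 i)) ∧
      (∀ v : Fin 2 → ℚ, ∀ W' : WeierstrassCurve ℤ, W'.Δ ≠ 0 →
        ((W'.c₄ : ℤ) : Qb) = c4 (ι v 0) (ι v 1) → ((W'.c₆ : ℤ) : Qb) = -T6 (ι v 0) (ι v 1) →
        Fermat.Agent.G35.TopTN.FiveCongTN W W') := by
  obtain ⟨ζ, hζ⟩ := exists_zeta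
  obtain ⟨w0, ι, h⟩ := t1 hζ W hΔ hW
  exact ⟨ζ, w0, ι, hζ, h⟩

end Fermat.Agent.G35.T1
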