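/-
GATE-Q (S52): `T1Contract W` UNCONDITIONALLY, by instantiating helper23's `Descent.t1_of_points`
with helper3's total maps `PointsTot.Ppt / Qpt` on `Ecurve c t` and helper16's Galois lemmas
`GalPointsTot.conjPoint_Ppt / conjPoint_Qpt` (helper43; plug / hedge for `Fermat/Agent/S52.lean`).

* `t1contract W hΔ hW : Irr3.OfT1.T1Contract W`;
* `s52_final` : the frozen S52 statement shape (via helper82's `OfT1.s52_of_contract`).
-/
import Fermat.Agent.G35.Descent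
import Fermat.Agent.G35.Irr3.OfT1
import Fermat.Agent.G35.Sym.GalPointsTot
import Fermat.Agent.G35.Sym.Q4FamilyFinal

set_option autoImplicit false

open scoped WeierstrassCurve.Affine

namespace Fermat.Agent.G35.T1Final

open Polynomial Matrix
open Fermat.Agent.G35.Free Fermat.Agent.G35.Cocycle Fermat.Agent.G35.KleinTrans
open Fermat.Agent.G35.PointsTot Fermat.Agent.G35.Sym.GalPointsTot Fermat.Agent.G35.ShortIso

local notation "Qb" => AlgebraicClosure ℚ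
local notation "GQ" => (AlgebraicClosure ℚ ≃ₐ[ℚ] AlgebraicClosure ℚ)

/-- **The descent contract T1, unconditionally.** -/
theorem t1contract (W : WeierstrassCurve ℤ) (hΔ : W.Δ ≠ 0) (hW : W.IsSemistableModel) :
    Fermat.Agent.G35.Irr3.OfT1.T1Contract W := by
  classical
  obtain ⟨ζ, hζ⟩ := Fermat.Agent.G35.Sym.exists_cyclo_root Qb
  obtain ⟨w0, ι, _h4, _h6, hι0, hli, hfam, hI2, hI3, hI4, hcong⟩ :=
    Fermat.Agent.G35.Descent.t1_of_points hζ (fun c t => Ecurve c t)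
      (fun c t => Ppt hζ c t) (fun c t => Qpt hζ c t)
      (fun c t _ x _ => ⟨Ppt_S hζ c t x, Qpt_S hζ c t x⟩)
      (fun c t _ x _ => ⟨Ppt_T hζ c t x, Qpt_T hζ c t x⟩)
      (fun c t _ x _ => ⟨Ppt_Z hζ c t x, Qpt_Z hζ c t x⟩)
      (fun c t _ x _ => ⟨five_nsmul_Ppt hζ c t x, five_nsmul_Qpt hζ c t x⟩)
      (fun c t hct x hx a b hab => indep_Ppt_Qpt hζ hx (Ecurve_Δ_ne_zero hct) hab)
      (fun W => ecurve_eq_shortQb W)
      (fun W _ σ k hσ x _ => conjPoint_Ppt (W := W) hζ σ k hσ x)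
      (fun W _ σ x _ => conjPoint_Qpt (W := W) hζ σ x)
      W hΔ hW
  exact ⟨ζ, w0, ι, hζ, hι0, hli, hfam, hI2, hI3, hI4, hcong⟩

/-- **S52, frozen statement shape.** -/
theorem s52_final (W : WeierstrassCurve ℤ) (hΔ : W.Δ ≠ 0) (hW : W.IsSemistableModel)
    (h5 : W.ModRepIsIrreducible 5) :
    ∃ W' : WeierstrassCurve ℤ, W'.Δ ≠ 0 ∧ W'.IsSemistableModel ∧ W'.ModRepIsIrreducible 3 ∧
      ∀ ℓ : ℕ, ℓ.Prime → W.IsGoodPrimeFor ℓ → W'.IsGoodPrimeFor ℓ → ℓ ≠ 5 →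
        (5 : ℤ) ∣ (W'.apOfModel ℓ - W.apOfModel ℓ) :=
  Fermat.Agent.G35.Irr3.OfT1.s52_of_contract (fun W hΔ hW => t1contract W hΔ hW) W hΔ hW h5

end Fermat.Agent.G35.T1Final
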